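/-
M12 (helper4), leaf (3-arith): **the endgame inequality**.  If `A + B = C` with `A`, `C` odd,
`4 ∣ B`, `B ≠ 0`, `p ≥ 3` odd, then `C ^ p - A ^ p = 2 ^ s * B ^ p` is impossible for every
integer `s`: the cofactor `S = ∑ C^i A^(p-1-i)` is odd, so `S = (B / 2^v)^(p-1)`, but
`|S| ≥ (|B|/2)^(p-1)`.  Mathlib only.  Imported by no statement.
-/
import Mathlib

set_option autoImplicit false

namespace Fermat.Agent.M12.Arith4

open Finset

/-- for `y ≤ x` and `p` odd, `(x - y)^p ≤ 2^(p-1) (x^p - y^p)`. -/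
theorem sub_pow_le_of_le {x y : ℝ} {p : ℕ} (hp : Odd p) (hxy : y ≤ x) :
    (x - y) ^ p ≤ 2 ^ (p - 1) * (x ^ p - y ^ p) := by
  have hp0 : p ≠ 0 := hp.pos.ne'
  have hu : 0 ≤ x - y := sub_nonneg.2 hxy
  have h1 : (1 : ℝ) ≤ 2 ^ (p - 1) := one_le_pow₀ (by norm_num)
  rcases le_or_gt 0 y with hy | hy
  · -- 0 ≤ y ≤ x
    have h := pow_add_pow_le hy hu hp0
    rw [add_sub_cancel] at h
    have h2 : (x - y) ^ p ≤ x ^ p - y ^ p := by linarith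
    have h3 : 0 ≤ x ^ p - y ^ p := le_trans (pow_nonneg hu p) h2
    calc (x - y) ^ p ≤ x ^ p - y ^ p := h2
      _ = 1 * (x ^ p - y ^ p) := (one_mul _).symm
      _ ≤ 2 ^ (p - 1) * (x ^ p - y ^ p) := mul_le_mul_of_nonneg_right h1 h3
  · rcases le_or_gt x 0 with hx | hx
    · -- y ≤ x ≤ 0
      have hx' : 0 ≤ -x := neg_nonneg.2 hx
      have h := pow_add_pow_le hx' hu hp0
      have e : -x + (x - y) = -y := by ring
      rw [e, hp.neg_pow, hp.neg_pow] at h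
      have h2 : (x - y) ^ p ≤ x ^ p - y ^ p := by linarith
      have h3 : 0 ≤ x ^ p - y ^ p := le_trans (pow_nonneg hu p) h2
      calc (x - y) ^ p ≤ x ^ p - y ^ p := h2
        _ = 1 * (x ^ p - y ^ p) := (one_mul _).symm
        _ ≤ 2 ^ (p - 1) * (x ^ p - y ^ p) := mul_le_mul_of_nonneg_right h1 h3
    · -- y < 0 < x
      have hy' : 0 ≤ -y := neg_nonneg.2 hy.le
      have h := add_pow_le hx.le hy' p
      rw [hp.neg_pow] at h
      have e : x + -y = x - y := by ring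
      rw [e] at h
      calc (x - y) ^ p ≤ 2 ^ (p - 1) * (x ^ p + -y ^ p) := h
        _ = 2 ^ (p - 1) * (x ^ p - y ^ p) := by ring

/-- `|x - y|^p ≤ 2^(p-1) |x^p - y^p|` for `p` odd. -/
theorem abs_sub_pow_le {p : ℕ} (hp : Odd p) (x y : ℝ) :
    |x - y| ^ p ≤ 2 ^ (p - 1) * |x ^ p - y ^ p| := by
  rcases le_total y x with h | h
  · have h1 := sub_pow_le_of_le hp h
    have h0 : 0 ≤ x - y := sub_nonneg.2 h
    rw [abs_of_nonneg h0]
    refine h1.trans (mul_le_mul_of_nonneg_left (le_abs_self _) (by positivity))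
  · have h1 := sub_pow_le_of_le hp h
    have h0 : 0 ≤ y - x := sub_nonneg.2 h
    rw [abs_sub_comm x y, abs_of_nonneg h0, abs_sub_comm (x ^ p) (y ^ p)]
    refine h1.trans (mul_le_mul_of_nonneg_left (le_abs_self _) (by positivity))

/-- the cofactor `∑_{i<p} C^i A^(p-1-i)` is odd when `A`, `C`, `p` are odd. -/
theorem odd_geom_sum₂ {A C : ℤ} {p : ℕ} (hp : Odd p) (hA : Odd A) (hC : Odd C) :
    Odd (∑ i ∈ range p, C ^ i * A ^ (p - 1 - i)) := by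
  rw [← ZMod.intCast_eq_one_iff_odd] at hA hC ⊢
  rw [← ZMod.natCast_eq_one_iff_odd] at hp
  push_cast
  simp only [hA, hC, one_pow, mul_one, sum_const, card_range, nsmul_eq_mul]
  exact hp

/-- **The endgame.** -/
theorem no_second_relation {A B C : ℤ} {p : ℕ} (hp : Odd p) (hp3 : 3 ≤ p) (hABC : A + B = C)
    (hA : Odd A) (hC : Odd C) (hB4 : (4 : ℤ) ∣ B) (hB0 : B ≠ 0) (s : ℤ)
    (h : ((C : ℚ)) ^ p - (A : ℚ) ^ p = (2 : ℚ) ^ s * (B : ℚ) ^ p) : False := by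
  obtain ⟨B₁, hB₁⟩ := hB4
  have hB₁0 : B₁ ≠ 0 := by
    rintro rfl
    exact hB0 (by rw [hB₁, mul_zero])
  set S : ℤ := ∑ i ∈ range p, C ^ i * A ^ (p - 1 - i) with hS
  have hSodd : Odd S := odd_geom_sum₂ hp hA hC
  have hgeom : S * (C - A) = C ^ p - A ^ p := Commute.geom_sum₂_mul (Commute.all C A) p
  have hCA : C - A = B := by rw [← hABC]; ring
  rw [hCA] at hgeom
  have hp1 : p = (p - 1) + 1 := by omega
  have hBq : (B : ℚ) ≠ 0 := by exact_mod_cast hB0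
  -- `S = 2^s B^(p-1)` in `ℚ`
  have hSq : (S : ℚ) = (2 : ℚ) ^ s * (B : ℚ) ^ (p - 1) := by
    have h1 : (S : ℚ) * (B : ℚ) = (2 : ℚ) ^ s * (B : ℚ) ^ p := by
      rw [← h]
      exact_mod_cast hgeom
    have h2 : (B : ℚ) ^ p = (B : ℚ) ^ (p - 1) * B := by
      conv_lhs => rw [hp1, pow_succ]
    rw [h2, ← mul_assoc] at h1
    exact mul_right_cancel₀ hBq h1
  -- the lower bound `|B|^(p-1) ≤ 2^(p-1) |S|`
  have hlow : |(B : ℝ)| ^ (p - 1) ≤ 2 ^ (p - 1) * |(S : ℝ)| := by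
    have h1 := abs_sub_pow_le hp (C : ℝ) (A : ℝ)
    have h2 : (C : ℝ) - A = B := by exact_mod_cast hCA
    have h3 : (C : ℝ) ^ p - (A : ℝ) ^ p = S * B := by exact_mod_cast hgeom.symm
    rw [h2, h3, abs_mul] at h1
    have hBpos : 0 < |(B : ℝ)| := abs_pos.2 (by exact_mod_cast hB0)
    have h4 : |(B : ℝ)| ^ p = |(B : ℝ)| ^ (p - 1) * |(B : ℝ)| := by
      conv_lhs => rw [hp1, pow_succ]
    rw [h4, ← mul_assoc] at h1
    exact le_of_mul_le_mul_right h1 hBpos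
  -- `S = 2^t B₁^(p-1)` with `t = s + 2 (p-1)`
  have hSt : (S : ℚ) = (2 : ℚ) ^ (s + 2 * ((p - 1 : ℕ) : ℤ)) * (B₁ : ℚ) ^ (p - 1) := by
    rw [hSq, hB₁]
    push_cast
    rw [mul_pow, zpow_add₀ (by norm_num : (2 : ℚ) ≠ 0), zpow_mul, zpow_natCast]
    norm_num
    ring
  rcases le_or_gt (s + 2 * ((p - 1 : ℕ) : ℤ)) 0 with ht | ht
  · -- `|S| ≤ |B₁|^(p-1)`
    have hS1 : |(S : ℝ)| ≤ |(B₁ : ℝ)| ^ (p - 1) := by
      have h1 : ((S : ℚ) : ℝ) = ((2 : ℚ) ^ (s + 2 * ((p - 1 : ℕ) : ℤ)) * (B₁ : ℚ) ^ (p - 1) : ℚ) :=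
        congrArg _ hSt
      push_cast at h1
      rw [h1, abs_mul, abs_pow]
      have h2 : |(2 : ℝ) ^ (s + 2 * ((p - 1 : ℕ) : ℤ))| ≤ 1 := by
        rw [abs_of_pos (zpow_pos (by norm_num) _)]
        exact zpow_le_one_of_nonpos₀ (by norm_num) ht
      calc |(2 : ℝ) ^ (s + 2 * ((p - 1 : ℕ) : ℤ))| * |(B₁ : ℝ)| ^ (p - 1)
          ≤ 1 * |(B₁ : ℝ)| ^ (p - 1) :=
            mul_le_mul_of_nonneg_right h2 (pow_nonneg (abs_nonneg _) _)
        _ = |(B₁ : ℝ)| ^ (p - 1) := one_mul _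
    have hBB : |(B : ℝ)| = 4 * |(B₁ : ℝ)| := by
      rw [hB₁]; push_cast; rw [abs_mul]; norm_num
    rw [hBB, mul_pow] at hlow
    have hpos : 0 < |(B₁ : ℝ)| ^ (p - 1) := pow_pos (abs_pos.2 (by exact_mod_cast hB₁0)) _
    have h5 : (4 : ℝ) ^ (p - 1) * |(B₁ : ℝ)| ^ (p - 1) ≤ 2 ^ (p - 1) * |(B₁ : ℝ)| ^ (p - 1) :=
      hlow.trans (mul_le_mul_of_nonneg_left hS1 (by positivity))
    have h6 : (4 : ℝ) ^ (p - 1) ≤ 2 ^ (p - 1) := le_of_mul_le_mul_right h5 hpos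
    have h7 : (2 : ℝ) ^ (p - 1) < 4 ^ (p - 1) :=
      pow_lt_pow_left₀ (by norm_num) (by norm_num) (by omega)
    exact absurd h6 (not_le.2 h7)
  · -- `S` is even
    obtain ⟨t, ht'⟩ : ∃ t : ℕ, s + 2 * ((p - 1 : ℕ) : ℤ) = (t : ℤ) + 1 :=
      ⟨(s + 2 * ((p - 1 : ℕ) : ℤ) - 1).toNat, by
        rw [Int.toNat_of_nonneg (by omega)]; ring⟩
    have hSZ : S = 2 * (2 ^ t * B₁ ^ (p - 1)) := by
      have : (S : ℚ) = ((2 * (2 ^ t * B₁ ^ (p - 1)) : ℤ) : ℚ) := by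
        rw [hSt, ht', zpow_add₀ (by norm_num : (2 : ℚ) ≠ 0), zpow_natCast, zpow_one]
        push_cast
        ring
      exact_mod_cast this
    have : Even S := ⟨2 ^ t * B₁ ^ (p - 1), by rw [hSZ]; ring⟩
    exact (Int.not_odd_iff_even.2 this) hSodd

end Fermat.Agent.M12.Arith4
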