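/-
M12 (helper6), leaf L4c, part (i): the "discrete logarithm" of the component map on `p`-torsion.

Model `Wab a b : Y² = X³ + a X² + b X`, multiplicative case (`a = α²`, `v α = 1`, `v b < 1`,
`v 2 = 1`).  `S05.cval` is the component map with values in `((v b)², 1]`, a homomorphism modulo
`(v b)^(2ℤ)`.  Here: `cval P = 1 ↔ InE0 P`, and for a prime `p`, a `p`-torsion point `Q` outside
`E⁰` and any `p`-torsion point `R`, some `R + k • Q` lies in `E⁰`.
Imported by no statement.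
-/
import Fermat.Agent.S05.Components

set_option autoImplicit false
set_option linter.unusedSectionVars false
set_option linter.unusedVariables false

namespace Fermat.Agent.M12.CompLog6

open WeierstrassCurve WeierstrassCurve.Affine Fermat.Agent.S05

section Val

variable {Γ₀ : Type*} [LinearOrderedCommGroupWithZero Γ₀]

theorem pow_lt_one_of_lt_one {t : Γ₀} (ht : t < 1) {n : ℕ} (hn : n ≠ 0) : t ^ n < 1 :=
  pow_lt_one₀ zero_le ht hn

/-- a class of `t^(2ℤ)` has at most one representative in `(t², 1]`. -/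
theorem eq_one_of_crel_one {t u : Γ₀} (ht0 : t ≠ 0) (ht : t < 1) (hu1 : u ≤ 1) (hu2 : t ^ 2 < u)
    (h : CRel t u 1) : u = 1 := by
  obtain ⟨k, hk⟩ := h
  rw [one_mul] at hk
  rcases lt_trichotomy k 0 with hk0 | hk0 | hk0
  · exfalso
    obtain ⟨n, rfl⟩ : ∃ n : ℕ, k = -((n : ℤ) + 1) := ⟨(-k - 1).toNat, by omega⟩
    have e : (2 * -((n : ℤ) + 1)) = -((2 * n + 2 : ℕ) : ℤ) := by push_cast; ring
    rw [e, zpow_neg, zpow_natCast] at hk
    have h1 : t ^ (2 * n + 2) < 1 := pow_lt_one_of_lt_one ht (by omega)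
    have h0 : t ^ (2 * n + 2) ≠ 0 := pow_ne_zero _ ht0
    have h2 : 1 < (t ^ (2 * n + 2))⁻¹ := (one_lt_inv₀ (zero_lt_iff.mpr h0)).mpr h1
    rw [← hk] at h2
    exact absurd hu1 (not_le.mpr h2)
  · rw [hk0] at hk
    simpa using hk
  · exfalso
    obtain ⟨n, rfl⟩ : ∃ n : ℕ, k = (n : ℤ) + 1 := ⟨(k - 1).toNat, by omega⟩
    have e : (2 * ((n : ℤ) + 1)) = ((2 * n + 2 : ℕ) : ℤ) := by push_cast; ring
    rw [e, zpow_natCast] at hk
    have h1 : t ^ (2 * n + 2) ≤ t ^ 2 := by
      rw [pow_add, mul_comm]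
      calc t ^ 2 * t ^ (2 * n) ≤ t ^ 2 * 1 :=
            mul_le_mul_right (pow_le_one₀ zero_le ht.le) _
        _ = t ^ 2 := mul_one _
    rw [← hk] at h1
    exact absurd hu2 (not_lt.mpr h1)

end Val

section Comp

variable {K : Type*} [Field K] [DecidableEq K] {Γ₀ : Type*} [LinearOrderedCommGroupWithZero Γ₀]
  {v : Valuation K Γ₀} {a b : K}

/-- the component value lies in `((v b)², 1]`. -/
theorem cval_mem (hb : v b < 1) (hb0 : b ≠ 0) (α : K) (P : (Wab a b).toAffine.Point) :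
    v b ^ 2 < cval v α P ∧ cval v α P ≤ 1 := by
  have ht0 : v b ≠ 0 := (Valuation.ne_zero_iff v).mpr hb0
  have htpos : 0 < v b := zero_lt_iff.mpr ht0
  have htt : v b ^ 2 < v b := by
    rw [sq]
    calc v b * v b < v b * 1 := mul_lt_mul_of_pos_left hb htpos
      _ = v b := mul_one _
  rcases P with _ | ⟨x, y, h⟩
  · exact ⟨lt_trans htt hb, le_refl _⟩
  · by_cases h1 : 1 ≤ v x
    · simp only [cval, if_pos h1]
      exact ⟨lt_trans htt hb, le_refl _⟩
    · by_cases h2 : v x ≤ v b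
      · simp only [cval, if_neg h1, if_pos h2]
        exact ⟨htt, hb.le⟩
      · rw [not_le] at h1 h2
        have hx0 : v x ≠ 0 := fun h0 => by rw [h0] at h2; exact absurd h2 (not_lt.mpr zero_le)
        have hxpos : 0 < v x := zero_lt_iff.mpr hx0
        by_cases h3 : v (y / x - α) < 1
        · simp only [cval, if_neg (not_le.mpr h1), if_neg (not_le.mpr h2), if_pos h3]
          exact ⟨lt_trans htt h2, h1.le⟩
        · simp only [cval, if_neg (not_le.mpr h1), if_neg (not_le.mpr h2), if_neg h3]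
          constructor
          · rw [lt_div_iff₀ hxpos]
            calc v b ^ 2 * v x < v b ^ 2 * 1 :=
                  mul_lt_mul_of_pos_left h1 (pow_pos htpos 2)
              _ = v b ^ 2 := mul_one _
          · rw [div_le_one₀ hxpos]
            exact (lt_trans htt h2).le

/-- the component value is `1` exactly on `E⁰`. -/
theorem cval_eq_one_iff (hb : v b < 1) (hb0 : b ≠ 0) (α : K) (P : (Wab a b).toAffine.Point) :
    cval v α P = 1 ↔ InE0 v P := by
  refine ⟨fun h => ?_, fun h => cval_of_inE0 α h⟩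
  have ht0 : v b ≠ 0 := (Valuation.ne_zero_iff v).mpr hb0
  have htpos : 0 < v b := zero_lt_iff.mpr ht0
  have htt : v b ^ 2 < v b := by
    rw [sq]
    calc v b * v b < v b * 1 := mul_lt_mul_of_pos_left hb htpos
      _ = v b := mul_one _
  rcases P with _ | ⟨x, y, hxy⟩
  · trivial
  · show 1 ≤ v x
    by_contra h1
    by_cases h2 : v x ≤ v b
    · simp only [cval, if_neg h1, if_pos h2] at h
      rw [h] at hb
      exact lt_irrefl _ hb
    · have h1' := not_le.mp h1
      have h2' := not_le.mp h2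
      have hx0 : v x ≠ 0 := fun h0 => by rw [h0] at h2'; exact absurd h2' (not_lt.mpr zero_le)
      have hxpos : 0 < v x := zero_lt_iff.mpr hx0
      by_cases h3 : v (y / x - α) < 1
      · simp only [cval, if_neg h1, if_neg h2, if_pos h3] at h
        rw [h] at h1'
        exact lt_irrefl _ h1'
      · simp only [cval, if_neg h1, if_neg h2, if_neg h3] at h
        rw [div_eq_one_iff_eq hx0] at h
        rw [← h] at h2'
        exact lt_irrefl _ (lt_trans h2' htt)

/-- a point whose component value is congruent to `1` is in `E⁰`. -/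
theorem inE0_of_crel_one (hb : v b < 1) (hb0 : b ≠ 0) (α : K) {P : (Wab a b).toAffine.Point}
    (h : CRel (v b) (cval v α P) 1) : InE0 v P := by
  have ht0 : v b ≠ 0 := (Valuation.ne_zero_iff v).mpr hb0
  obtain ⟨h1, h2⟩ := cval_mem hb hb0 α P
  exact (cval_eq_one_iff hb hb0 α P).mp (eq_one_of_crel_one ht0 hb h2 h1 h)

/-- the `p`-th power of the component value of a `p`-torsion point is a power of `(v b)²`. -/
theorem exists_log (h2 : v (2 : K) = 1) (hb : v b < 1) (hb0 : b ≠ 0) {α : K}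
    (hα : α ^ 2 = a) (hαv : v α = 1) {p : ℕ} {P : (Wab a b).toAffine.Point} (hP : p • P = 0) :
    ∃ m : ℤ, cval v α P ^ p = v b ^ (2 * m) := by
  have ht0 : v b ≠ 0 := (Valuation.ne_zero_iff v).mpr hb0
  have h := cval_nsmul h2 hb hb0 hα hαv P p
  rw [hP, cval_zero] at h
  obtain ⟨k, hk⟩ := h
  refine ⟨-k, ?_⟩
  rw [mul_neg, zpow_neg]
  exact eq_inv_of_mul_eq_one_left hk.symm

/-- if the exponent is divisible by `p`, the point is in `E⁰`. -/
theorem inE0_of_log_dvd (hb : v b < 1) (hb0 : b ≠ 0) (α : K) {p : ℕ} (hp : p ≠ 0)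
    {P : (Wab a b).toAffine.Point} {m : ℤ} (hm : cval v α P ^ p = v b ^ (2 * m))
    (hd : (p : ℤ) ∣ m) : InE0 v P := by
  have ht0 : v b ≠ 0 := (Valuation.ne_zero_iff v).mpr hb0
  obtain ⟨j, rfl⟩ := hd
  have e : v b ^ (2 * ((p : ℤ) * j)) = (v b ^ (2 * j)) ^ p := by
    rw [← zpow_natCast, ← zpow_mul]; congr 1; ring
  rw [e] at hm
  have hu : cval v α P = v b ^ (2 * j) := (pow_left_inj₀ zero_le zero_le hp).mp hm
  exact inE0_of_crel_one hb hb0 α ⟨j, by rw [one_mul]; exact hu⟩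

/-- **the complement of a line outside `E⁰`**: `Q` a `p`-torsion point outside `E⁰` (`p` prime),
`R` any `p`-torsion point: some `R + k • Q` lies in `E⁰`. -/
theorem exists_inE0_add_nsmul (h2 : v (2 : K) = 1) (hb : v b < 1) (hb0 : b ≠ 0) {α : K}
    (hα : α ^ 2 = a) (hαv : v α = 1) {p : ℕ} (hp : p.Prime)
    {Q R : (Wab a b).toAffine.Point} (hQ : p • Q = 0) (hQ0 : ¬ InE0 v Q) (hR : p • R = 0) :
    ∃ k : ℕ, InE0 v (R + k • Q) := by
  have : Fact p.Prime := ⟨hp⟩
  have ht0 : v b ≠ 0 := (Valuation.ne_zero_iff v).mpr hb0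
  obtain ⟨mQ, hmQ⟩ := exists_log h2 hb hb0 hα hαv hQ
  obtain ⟨mR, hmR⟩ := exists_log h2 hb hb0 hα hαv hR
  have hndvd : ¬ (p : ℤ) ∣ mQ := fun hd => hQ0 (inE0_of_log_dvd hb hb0 α hp.ne_zero hmQ hd)
  have hmQ0 : ((mQ : ℤ) : ZMod p) ≠ 0 := fun h0 =>
    hndvd ((ZMod.intCast_zmod_eq_zero_iff_dvd mQ p).mp h0)
  -- solve `mR + k * mQ ≡ 0`
  set c : ZMod p := -((mR : ℤ) : ZMod p) / ((mQ : ℤ) : ZMod p) with hc
  set k : ℕ := c.val with hk
  have hkc : ((k : ℕ) : ZMod p) = c := by rw [hk]; exact ZMod.natCast_zmod_val c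
  have hdvd : (p : ℤ) ∣ mR + (k : ℤ) * mQ := by
    rw [← ZMod.intCast_zmod_eq_zero_iff_dvd]
    push_cast
    rw [hkc, hc, div_mul_cancel₀ _ hmQ0]
    ring
  refine ⟨k, ?_⟩
  -- the component value of `R + k • Q`
  have hrel : CRel (v b) (cval v α (R + k • Q)) (cval v α R * cval v α Q ^ k) :=
    (cval_add h2 hb hb0 hα hαv R (k • Q)).trans ht0
      (CRel.mul_left ht0 _ (cval_nsmul h2 hb hb0 hα hαv Q k))
  obtain ⟨j, hj⟩ := hdvd
  have hpow : (cval v α R * cval v α Q ^ k) ^ p = (v b ^ (2 * j)) ^ p := by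
    rw [mul_pow, ← pow_mul, mul_comm k p, pow_mul, hmR, hmQ, ← zpow_natCast (v b ^ (2 * mQ)) k,
      ← zpow_mul, ← zpow_add₀ ht0, ← zpow_natCast (v b ^ (2 * j)) p, ← zpow_mul]
    congr 1
    linear_combination (2 : ℤ) * hj
  have hu : cval v α R * cval v α Q ^ k = v b ^ (2 * j) :=
    (pow_left_inj₀ zero_le zero_le hp.ne_zero).mp hpow
  have h1 : CRel (v b) (cval v α R * cval v α Q ^ k) 1 := ⟨j, by rw [one_mul]; exact hu⟩
  exact inE0_of_crel_one hb hb0 α (hrel.trans ht0 h1)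

/-! ### `E⁰` is a subgroup -/

theorem inE0_neg {P : (Wab a b).toAffine.Point} (hP : InE0 v P) : InE0 v (-P) := by
  rcases P with _ | ⟨x, y, h⟩
  · exact hP
  · rw [Point.neg_some]; exact hP

theorem inE0_sub (hb : v b < 1) (hb0 : b ≠ 0) (ha : v a ≤ 1)
    {P Q : (Wab a b).toAffine.Point} (hP : InE0 v P) (hQ : InE0 v Q) : InE0 v (P - Q) := by
  rw [sub_eq_add_neg]; exact inE0_add hb hb0 ha hP (inE0_neg hQ)

theorem inE0_nsmul (hb : v b < 1) (hb0 : b ≠ 0) (ha : v a ≤ 1)
    {P : (Wab a b).toAffine.Point} (hP : InE0 v P) (n : ℕ) : InE0 v (n • P) := by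
  induction n with
  | zero => rw [zero_smul]; exact InE0_zero v
  | succ n ih => rw [succ_nsmul]; exact inE0_add hb hb0 ha ih hP

/-- a multiple of a `p`-torsion point outside `E⁰` that lies in `E⁰` is zero. -/
theorem nsmul_eq_zero_of_inE0 (hb : v b < 1) (hb0 : b ≠ 0) (ha : v a ≤ 1) {p : ℕ} (hp : p.Prime)
    {Q : (Wab a b).toAffine.Point} (hQ : p • Q = 0) (hQ0 : ¬ InE0 v Q) {k : ℕ}
    (hk : InE0 v (k • Q)) : k • Q = 0 := by
  by_cases hd : p ∣ k
  · obtain ⟨j, rfl⟩ := hd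
    rw [mul_comm, mul_smul, hQ, smul_zero]
  · exfalso
    have hcop : Nat.Coprime k p := (Nat.Coprime.symm ((Nat.Prime.coprime_iff_not_dvd hp).mpr hd))
    obtain ⟨m, -, hm⟩ := Nat.exists_mul_mod_eq_one_of_coprime hcop hp.one_lt
    have e : k * m = p * (k * m / p) + 1 := by
      have := Nat.div_add_mod (k * m) p
      rw [hm] at this
      exact this.symm
    have e2 : (k * m) • Q = Q := by
      rw [e, add_smul, mul_comm p, mul_smul, hQ, smul_zero, one_smul, zero_add]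
    apply hQ0
    rw [← e2, mul_comm, mul_smul]
    exact inE0_nsmul hb hb0 ha hk m

end Comp

end Fermat.Agent.M12.CompLog6
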