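/-
M12 (helper4, coordinator): THE VOCABULARY FILE of programme M12 (target: statement S12, then S09).
Definitions only.  Imported by no statement.

Setting: `W : WeierstrassCurve ℤ` (for S12: `W = P.freyCurveInt`), points of
`E = (W.map (Int.castRingHom ℚ))⁄ℚbar` (the type used by the frozen S15 and by M15's (LOC)/(MOD)).
-/
import Mathlib
import Fermat.Prelude.Def_EllipticCurve_ZeroComponentAt
import Fermat.Prelude.Def_FLTPrelim_Ramification
import Fermat.Prelude.Def_FLTPrelim_CofixedLine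
import Fermat.Agent.M15.DictDefs8

set_option autoImplicit false

open WeierstrassCurve WeierstrassCurve.Affine

namespace Fermat.Agent.M12.Defs4

open Fermat.Agent.M15.DictDefs8

/-- `ℚ̄`. -/
abbrev Qb : Type := AlgebraicClosure ℚ
/-- `Gal(ℚ̄/ℚ)`. -/
abbrev GQ : Type := AlgebraicClosure ℚ ≃ₐ[ℚ] AlgebraicClosure ℚ

/-- the points over `ℚ̄` of the curve with integral model `W`. -/
abbrev Pt (W : WeierstrassCurve ℤ) : Type := ((W.map (Int.castRingHom ℚ))⁄Qb).Point

variable {W : WeierstrassCurve ℤ}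

/-- the cyclic subgroup `⟨Q⟩` is Galois-stable. -/
def IsStable (Q : Pt W) : Prop := ∀ σ : GQ, ∃ k : ℕ, σ • Q = k • Q

/-- `⟨Q⟩` is cofixed in `E[p]`: Galois acts trivially on `E[p]/⟨Q⟩`. -/
def IsCofixed (Q : Pt W) (p : ℕ) : Prop :=
  ∀ σ : GQ, ∀ R : Pt W, p • R = 0 → ∃ k : ℕ, σ • R - R = k • Q

/-- the three points of order two, all rational. -/
def IsRatTwoTors (T : Fin 3 → Pt W) : Prop := IsTwoTors T ∧ ∀ (σ : GQ) (i : Fin 3), σ • T i = T i

/-- "toric at `A`": `Q` (equivalently every multiple of `Q`) lies in the zero component at `A`. -/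
abbrev IsToricAt (W : WeierstrassCurve ℤ) (A : ValuationSubring Qb) (Q : Pt W) : Prop :=
  W.InZeroComponentAt A Q

/-- the Vélu quantity `d i k = (x(T_i) - x(T_k)) · veluFactor T Q p i k = e'_i - e'_k`. -/
noncomputable def veluDiff (T : Fin 3 → Pt W) (Q : Pt W) (p : ℕ) (i k : Fin 3) : Qb :=
  (xOf (T i) - xOf (T k)) * veluFactor T Q p i k

end Fermat.Agent.M12.Defs4
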