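/-
M12 (helper4, coordinator): THE CONTRACT FILE of programme M12: the literal statements of the
leaves, as named `Prop`s.  A leaf owner checks his theorem with
`example : Contracts4.LeafX := @my_theorem`.  Imported by no statement.
-/
import Fermat.Agent.M12.Defs4
import Fermat.Prelude.Def_FLTPrelim_FreyPackage

set_option autoImplicit false
set_option linter.unusedVariables false

open WeierstrassCurve WeierstrassCurve.Affine

namespace Fermat.Agent.M12.Contracts4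

open Fermat.Agent.M12.Defs4 Fermat.Agent.M15.DictDefs8

/-- **L2** (FactorRat3): the Vélu factors of a Galois-stable subgroup and rational `2`-torsion are
positive rational numbers. -/
def LeafRatPos : Prop :=
  ∀ {p : ℕ}, p.Prime → p ≠ 2 → ∀ (W : WeierstrassCurve ℤ), W.Δ ≠ 0 →
    ∀ (Q : Pt W), addOrderOf Q = p → IsStable Q → ∀ (T : Fin 3 → Pt W), IsRatTwoTors T →
    ∀ {i k : Fin 3}, i ≠ k → ∃ q : ℚ, 0 < q ∧ veluFactor T Q p i k = algebraMap ℚ Qb q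

/-- **L3a** (FactorLoc6): toric case at an odd prime `ℓ ≠ p` of multiplicative reduction. -/
def LeafToric : Prop :=
  ∀ {ℓ : ℕ}, ℓ.Prime → ℓ ≠ 2 → ∀ {p : ℕ}, p.Prime → p ≠ 2 → ℓ ≠ p →
    ∀ (W : WeierstrassCurve ℤ), W.Δ ≠ 0 → (ℓ : ℤ) ∣ W.Δ → ¬ (ℓ : ℤ) ∣ W.c₄ →
    ∀ (A : ValuationSubring Qb), A.LiesOverPrime ℓ →
    ∀ (T : Fin 3 → Pt W), IsTwoTors T → ∀ (Q : Pt W), addOrderOf Q = p →
    W.InZeroComponentAt A Q → ∀ {i k : Fin 3}, i ≠ k →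
      A.valuation (veluFactor T Q p i k) = A.valuation (xOf (T i) - xOf (T k)) ^ (p - 1)

/-- **L3b** (FactorLoc6): good reduction at an odd prime `ℓ ≠ p`. -/
def LeafGood : Prop :=
  ∀ {ℓ : ℕ}, ℓ.Prime → ℓ ≠ 2 → ∀ {p : ℕ}, p.Prime → p ≠ 2 → ℓ ≠ p →
    ∀ (W : WeierstrassCurve ℤ), W.Δ ≠ 0 → ¬ (ℓ : ℤ) ∣ W.Δ →
    ∀ (A : ValuationSubring Qb), A.LiesOverPrime ℓ →
    ∀ (T : Fin 3 → Pt W), IsTwoTors T → ∀ (Q : Pt W), addOrderOf Q = p →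
    ∀ {i k : Fin 3}, i ≠ k →
      A.valuation (veluFactor T Q p i k) = 1 ∧ A.valuation (xOf (T i) - xOf (T k)) = 1

/-- **L3c** (FactorKer2): the multiples of `Q` lie in the kernel of reduction at a place over an
odd prime `ℓ` (`ℓ = p` allowed). -/
def LeafKernel : Prop :=
  ∀ {ℓ : ℕ}, ℓ.Prime → ℓ ≠ 2 → ∀ {p : ℕ}, p.Prime → p ≠ 2 →
    ∀ (W : WeierstrassCurve ℤ), W.Δ ≠ 0 →
    ∀ (A : ValuationSubring Qb), A.LiesOverPrime ℓ →
    ∀ (T : Fin 3 → Pt W), IsTwoTors T → ∀ (Q : Pt W), addOrderOf Q = p →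
    (∀ r ∈ Finset.Icc 1 (p - 1), xOf (r • Q) ∉ A) → ∀ {i k : Fin 3}, i ≠ k →
      A.valuation (veluFactor T Q p i k) * ∏ r ∈ Finset.Icc 1 (p - 1), A.valuation (xOf (r • Q)) =
        A.valuation (xOf (T i) - xOf (T k)) ^ (p - 1)

/-- **L3c'** (FactorKer2): a stable cofixed line of the Frey curve is the kernel of reduction at
`p`. -/
def LeafCofixedKernel : Prop :=
  ∀ (P : FreyPackage) (Q : Pt P.freyCurveInt), addOrderOf Q = P.p → IsStable Q →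
    IsCofixed Q P.p → ∀ (A : ValuationSubring Qb), A.LiesOverPrime P.p →
    ∀ r ∈ Finset.Icc 1 (P.p - 1), xOf (r • Q) ∉ A

/-- **L3d** (FactorKer2): the factor of a pair `(i, k)` with `T k` in the kernel of reduction and
`T i` not, at a place over any prime `ℓ ≠ p` (`ℓ = 2` allowed). -/
def LeafNotMem : Prop :=
  ∀ {ℓ : ℕ}, ℓ.Prime → ∀ {p : ℕ}, p.Prime → p ≠ 2 → ℓ ≠ p →
    ∀ (W : WeierstrassCurve ℤ), W.Δ ≠ 0 →
    ∀ (A : ValuationSubring Qb), A.LiesOverPrime ℓ →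
    ∀ (T : Fin 3 → Pt W), IsTwoTors T → ∀ (Q : Pt W), addOrderOf Q = p →
    ∀ {i k : Fin 3}, i ≠ k → xOf (T k) ∉ A → xOf (T i) ∈ A →
      A.valuation (veluFactor T Q p i k) = 1

/-- **L4b** (GoodThree5): a Frey curve with a cofixed line has bad reduction at `3`. -/
def LeafThreeBad : Prop :=
  ∀ (P : FreyPackage), 11 ≤ P.p → ∀ (Q : Pt P.freyCurveInt), addOrderOf Q = P.p →
    IsCofixed Q P.p → (3 : ℤ) ∣ P.freyCurveInt.Δ

/-- **L4c** (ToricThree6): the cofixed line is toric at some place over `3`.  The hypothesis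
`hR0` (a `p`-torsion point outside the line, from `N ≠ ⊤`) is provided by
`GenExtra4.exists_generator'`. -/
def LeafThreeToric : Prop :=
  ∀ (P : FreyPackage), 7 ≤ P.p → ∀ (Q : Pt P.freyCurveInt), addOrderOf Q = P.p →
    IsStable Q → IsCofixed Q P.p →
    (∃ R0 : Pt P.freyCurveInt, P.p • R0 = 0 ∧ ∀ k : ℕ, R0 ≠ k • Q) →
    (3 : ℤ) ∣ P.freyCurveInt.Δ →
    ∃ A : ValuationSubring Qb, A.LiesOverPrime 3 ∧ P.freyCurveInt.InZeroComponentAt A Q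

/-- **L4a** (TheoremM7): uniformity of the component of a Galois-stable cyclic subgroup of order
`p` across the odd primes `≠ p` of multiplicative reduction. -/
def LeafTheoremM : Prop :=
  ∀ {p : ℕ}, p.Prime → p ∉ ({2, 3, 5, 7, 13} : Finset ℕ) →
    ∀ (W : WeierstrassCurve ℤ), W.Δ ≠ 0 → ∀ (Q : Pt W), IsStable Q → addOrderOf Q = p →
    ∀ {ℓ₁ : ℕ}, ℓ₁.Prime → ℓ₁ ≠ 2 → ℓ₁ ≠ p → (ℓ₁ : ℤ) ∣ W.Δ → ¬ (ℓ₁ : ℤ) ∣ W.c₄ →
    ∀ (A₁ : ValuationSubring Qb), A₁.LiesOverPrime ℓ₁ → W.InZeroComponentAt A₁ Q →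
    ∀ {ℓ₂ : ℕ}, ℓ₂.Prime → ℓ₂ ≠ 2 → ℓ₂ ≠ p → (ℓ₂ : ℤ) ∣ W.Δ → ¬ (ℓ₂ : ℤ) ∣ W.c₄ →
    ∀ (A₂ : ValuationSubring Qb), A₂.LiesOverPrime ℓ₂ → W.InZeroComponentAt A₂ Q

end Fermat.Agent.M12.Contracts4
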