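/-
M12 (helper4): rational numbers and the valuations of `ℚ̄`.
* `val_rat`: for a place `A` over `ℓ` and `q ≠ 0` rational, `v_A(q) = v_A(ℓ) ^ padicValRat ℓ q`;
* `padicValRat_eq_of_val_eq`: equal valuations at a place over `ℓ` give equal `ℓ`-adic valuations;
* `eq_one_of_padicValRat_eq_zero`: a positive rational with all `ℓ`-adic valuations `0` is `1`;
* `eq_two_zpow_of_padicValRat_eq_zero`: … with all odd valuations `0` is a power of `2`.
Imported by no statement.
-/
import Mathlib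
import Fermat.Agent.S05.Inertia
import Fermat.Agent.M12.Defs4

set_option autoImplicit false
set_option linter.unusedSectionVars false
set_option linter.unusedVariables false
set_option linter.style.haveILetI false

namespace Fermat.Agent.M12.RatVal4

open Fermat.Agent.M12.Defs4 Fermat.Agent.S05.Inertia

variable {A : ValuationSubring Qb} {ℓ : ℕ}

theorem val_prime_ne_zero (hℓ : ℓ.Prime) : A.valuation (ℓ : Qb) ≠ 0 := by
  rw [Valuation.ne_zero_iff]
  exact_mod_cast hℓ.ne_zero

/-- the valuation of a nonzero natural number. -/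
theorem val_natCast (hℓ : ℓ.Prime) (hA : A.LiesOverPrime ℓ) {n : ℕ} (hn : n ≠ 0) :
    A.valuation (n : Qb) = A.valuation (ℓ : Qb) ^ (padicValNat ℓ n) := by
  haveI : Fact ℓ.Prime := ⟨hℓ⟩
  have h1 := Nat.ordProj_mul_ordCompl_eq_self n ℓ
  have h2 : ¬ ℓ ∣ n / ℓ ^ n.factorization ℓ := Nat.not_dvd_ordCompl hℓ hn
  have h3 : n.factorization ℓ = padicValNat ℓ n := Nat.factorization_def n hℓ
  rw [h3] at h1 h2
  conv_lhs => rw [← h1]
  rw [Nat.cast_mul, map_mul, Nat.cast_pow, map_pow, valuation_natCast_eq_one hℓ hA h2, mul_one]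

/-- **the valuation of a nonzero rational number at a place over `ℓ`.** -/
theorem val_rat (hℓ : ℓ.Prime) (hA : A.LiesOverPrime ℓ) {q : ℚ} (hq : q ≠ 0) :
    A.valuation (algebraMap ℚ Qb q) = A.valuation (ℓ : Qb) ^ (padicValRat ℓ q) := by
  have ht := val_prime_ne_zero (A := A) hℓ
  have hnum : q.num ≠ 0 := Rat.num_ne_zero.mpr hq
  have hnat : q.num.natAbs ≠ 0 := Int.natAbs_ne_zero.mpr hnum
  have hden : q.den ≠ 0 := q.den_ne_zero
  have e : algebraMap ℚ Qb q = ((q.num : ℤ) : Qb) / ((q.den : ℕ) : Qb) := by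
    conv_lhs => rw [← Rat.num_div_den q]
    simp
  have hv : A.valuation ((q.num : ℤ) : Qb) = A.valuation ((q.num.natAbs : ℕ) : Qb) := by
    rcases Int.natAbs_eq q.num with h | h
    · conv_lhs => rw [h]
      simp
    · conv_lhs => rw [h]
      simp
  rw [e, map_div₀, hv, val_natCast hℓ hA hnat, val_natCast hℓ hA hden, padicValRat_def,
    zpow_sub₀ ht, zpow_natCast, zpow_natCast]
  rfl

/-- equal valuations at a place over `ℓ` give equal `ℓ`-adic valuations. -/
theorem padicValRat_eq_of_val_eq (hℓ : ℓ.Prime) (hA : A.LiesOverPrime ℓ) {q r : ℚ} (hq : q ≠ 0)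
    (hr : r ≠ 0) (h : A.valuation (algebraMap ℚ Qb q) = A.valuation (algebraMap ℚ Qb r)) :
    padicValRat ℓ q = padicValRat ℓ r := by
  rw [val_rat hℓ hA hq, val_rat hℓ hA hr] at h
  exact zpow_right_injective₀ (zero_lt_iff.2 (val_prime_ne_zero hℓ))
    (valuation_prime_lt_one hA).ne h

/-- valuation `1` at a place over `ℓ` means `ℓ`-adic valuation `0`. -/
theorem padicValRat_eq_zero_of_val_eq_one (hℓ : ℓ.Prime) (hA : A.LiesOverPrime ℓ) {q : ℚ}
    (hq : q ≠ 0) (h : A.valuation (algebraMap ℚ Qb q) = 1) : padicValRat ℓ q = 0 := by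
  have := padicValRat_eq_of_val_eq hℓ hA hq one_ne_zero (by rw [h, map_one, map_one])
  rw [this, padicValRat.one]

/-- a positive natural number without prime divisors is `1`. -/
theorem nat_eq_one_of_padicValNat {n : ℕ} (hn : n ≠ 0)
    (h : ∀ ℓ : ℕ, ℓ.Prime → padicValNat ℓ n = 0) : n = 1 := by
  by_contra hne
  obtain ⟨ℓ, hℓ, hd⟩ := Nat.exists_prime_and_dvd hne
  haveI : Fact ℓ.Prime := ⟨hℓ⟩
  have := one_le_padicValNat_of_dvd hn hd
  rw [h ℓ hℓ] at this
  exact absurd this (by norm_num)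

/-- **a positive rational with all `ℓ`-adic valuations `0` is `1`.** -/
theorem eq_one_of_padicValRat_eq_zero {q : ℚ} (hq : 0 < q)
    (h : ∀ ℓ : ℕ, ℓ.Prime → padicValRat ℓ q = 0) : q = 1 := by
  have hnum : 0 < q.num := Rat.num_pos.mpr hq
  have hnat : q.num.natAbs ≠ 0 := Int.natAbs_ne_zero.mpr hnum.ne'
  have hden : q.den ≠ 0 := q.den_ne_zero
  have hcop : Nat.Coprime q.num.natAbs q.den := q.reduced
  have key : ∀ ℓ : ℕ, ℓ.Prime → padicValNat ℓ q.num.natAbs = 0 ∧ padicValNat ℓ q.den = 0 := by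
    intro ℓ hℓ
    haveI : Fact ℓ.Prime := ⟨hℓ⟩
    have h1 := h ℓ hℓ
    rw [padicValRat_def] at h1
    have h2 : padicValInt ℓ q.num = padicValNat ℓ q.num.natAbs := rfl
    rw [h2] at h1
    have h3 : padicValNat ℓ q.num.natAbs = padicValNat ℓ q.den := by omega
    by_cases hd : ℓ ∣ q.den
    · have hn : ¬ ℓ ∣ q.num.natAbs := fun hn =>
        hℓ.one_lt.ne' (Nat.eq_one_of_dvd_coprimes hcop hn hd)
      have h4 := padicValNat.eq_zero_of_not_dvd hn
      exact ⟨h4, by rw [← h3, h4]⟩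
    · have h4 := padicValNat.eq_zero_of_not_dvd hd
      exact ⟨by rw [h3, h4], h4⟩
  have h1 : q.num.natAbs = 1 := nat_eq_one_of_padicValNat hnat fun ℓ hℓ => (key ℓ hℓ).1
  have h2 : q.den = 1 := nat_eq_one_of_padicValNat hden fun ℓ hℓ => (key ℓ hℓ).2
  have h3 : q.num = 1 := by
    have := Int.natAbs_of_nonneg hnum.le
    rw [h1] at this
    exact_mod_cast this.symm
  rw [← Rat.num_div_den q, h2, h3]
  norm_num

/-- **a positive rational with all odd `ℓ`-adic valuations `0` is a power of `2`.** -/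
theorem eq_two_zpow_of_padicValRat_eq_zero {q : ℚ} (hq : 0 < q)
    (h : ∀ ℓ : ℕ, ℓ.Prime → ℓ ≠ 2 → padicValRat ℓ q = 0) :
    q = (2 : ℚ) ^ (padicValRat 2 q) := by
  have h2pos : (0 : ℚ) < (2 : ℚ) ^ (padicValRat 2 q) := zpow_pos (by norm_num) _
  have hone : q / (2 : ℚ) ^ (padicValRat 2 q) = 1 := by
    refine eq_one_of_padicValRat_eq_zero (div_pos hq h2pos) fun ℓ hℓ => ?_
    haveI : Fact ℓ.Prime := ⟨hℓ⟩
    rw [padicValRat.div hq.ne' h2pos.ne', padicValRat.zpow]
    by_cases hℓ2 : ℓ = 2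
    · subst hℓ2
      have : padicValRat 2 (2 : ℚ) = 1 := by
        have := padicValRat.self (p := 2) (by norm_num)
        exact_mod_cast this
      rw [this]; ring
    · have : padicValRat ℓ (2 : ℚ) = 0 := by
        have h1 : padicValRat ℓ ((2 : ℕ) : ℚ) = padicValNat ℓ 2 := padicValRat.of_nat
        have h2 : padicValNat ℓ 2 = 0 := by
          apply padicValNat.eq_zero_of_not_dvd
          intro hd
          exact hℓ2 ((Nat.prime_dvd_prime_iff_eq hℓ Nat.prime_two).mp hd)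
        rw [h2] at h1
        exact_mod_cast h1
      rw [this, h ℓ hℓ hℓ2]; ring
  rw [div_eq_one_iff_eq h2pos.ne'] at hone
  exact hone

end Fermat.Agent.M12.RatVal4
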