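/-
M12 (helper4): **the arithmetic endgame of S12, on rational numbers.**

`A + B = C` integers, `A`, `C` odd, `4 ∣ B ≠ 0`, `p ≥ 3` odd.  Three positive rationals
`f01, f21, f02` (the Vélu factors `F(0,1), F(2,1), F(0,2)` for the labels `x₀ = 0, x₁ = A/4,
x₂ = -B/4`) with

* the cocycle identity `(B/4) f02 - (C/4) f21 = -(A/4) f01`;
* at every odd prime `ℓ`, the "common defect" relations (cross-multiplied)
  `v_ℓ(f01 (C/4)^(p-1)) = v_ℓ(f21 (A/4)^(p-1))`, `v_ℓ(f02 (C/4)^(p-1)) = v_ℓ(f21 (B/4)^(p-1))`;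
* `v_2(f01) = 0 = v_2(f21)`
cannot exist.  Imported by no statement.
-/
import Mathlib
import Fermat.Agent.M12.Arith4
import Fermat.Agent.M12.RatVal4

set_option autoImplicit false
set_option linter.unusedSectionVars false
set_option linter.unusedVariables false
set_option linter.style.haveILetI false

namespace Fermat.Agent.M12.Endgame4

open Fermat.Agent.M12.RatVal4 Fermat.Agent.M12.Arith4

/-- the `2`-adic valuation of `X/4`, `X` odd. -/
theorem padicValRat_two_odd_div_four {X : ℤ} (hX : Odd X) :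
    padicValRat 2 ((X : ℚ) / 4) = -2 := by
  have hX0 : (X : ℚ) ≠ 0 := by
    intro h
    have : X = 0 := by exact_mod_cast h
    rw [this] at hX
    exact absurd hX (by decide)
  have h4 : (4 : ℚ) = 2 ^ 2 := by norm_num
  haveI : Fact (Nat.Prime 2) := ⟨Nat.prime_two⟩
  rw [padicValRat.div hX0 (by norm_num), h4, padicValRat.pow,
    show ((2 : ℚ)) = ((2 : ℕ) : ℚ) by norm_num, padicValRat.self (by norm_num)]
  have : padicValRat 2 (X : ℚ) = 0 := by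
    rw [padicValRat.of_int, padicValInt]
    have : ¬ (2 : ℕ) ∣ X.natAbs := by
      intro h
      have h2 : (2 : ℤ) ∣ X := Int.natCast_dvd.mpr h
      exact (Int.not_even_iff_odd.mpr hX) (even_iff_two_dvd.mpr h2)
    simp [padicValNat.eq_zero_of_not_dvd this]
  rw [this]
  norm_num

/-- **the arithmetic endgame.** -/
theorem endgame {A B C : ℤ} {p : ℕ} (hp : Odd p) (hp3 : 3 ≤ p) (hABC : A + B = C)
    (hA : Odd A) (hC : Odd C) (hB4 : (4 : ℤ) ∣ B) (hB0 : B ≠ 0)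
    {f01 f21 f02 : ℚ} (h01 : 0 < f01) (h21 : 0 < f21) (h02 : 0 < f02)
    (hid : ((B : ℚ) / 4) * f02 - ((C : ℚ) / 4) * f21 = -((A : ℚ) / 4) * f01)
    (hodd1 : ∀ ℓ : ℕ, ℓ.Prime → ℓ ≠ 2 →
      padicValRat ℓ (f01 * ((C : ℚ) / 4) ^ (p - 1)) = padicValRat ℓ (f21 * ((A : ℚ) / 4) ^ (p - 1)))
    (hodd2 : ∀ ℓ : ℕ, ℓ.Prime → ℓ ≠ 2 →
      padicValRat ℓ (f02 * ((C : ℚ) / 4) ^ (p - 1)) = padicValRat ℓ (f21 * ((B : ℚ) / 4) ^ (p - 1)))
    (h2a : padicValRat 2 f01 = 0) (h2b : padicValRat 2 f21 = 0) : False := by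
  have hA0 : (A : ℚ) ≠ 0 := by
    intro h
    have : A = 0 := by exact_mod_cast h
    rw [this] at hA
    exact absurd hA (by decide)
  have hC0 : (C : ℚ) ≠ 0 := by
    intro h
    have : C = 0 := by exact_mod_cast h
    rw [this] at hC
    exact absurd hC (by decide)
  have hBq : (B : ℚ) ≠ 0 := by exact_mod_cast hB0
  have hA4 : (A : ℚ) / 4 ≠ 0 := div_ne_zero hA0 (by norm_num)
  have hB4' : (B : ℚ) / 4 ≠ 0 := div_ne_zero hBq (by norm_num)
  have hC4 : (C : ℚ) / 4 ≠ 0 := div_ne_zero hC0 (by norm_num)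
  have heven : Even (p - 1) := by
    obtain ⟨k, hk⟩ := hp
    exact ⟨k, by omega⟩
  have hAp : 0 < ((A : ℚ) / 4) ^ (p - 1) := heven.pow_pos hA4
  have hBp : 0 < ((B : ℚ) / 4) ^ (p - 1) := heven.pow_pos hB4'
  have hCp : 0 < ((C : ℚ) / 4) ^ (p - 1) := heven.pow_pos hC4
  -- first ratio: `f01 (C/4)^(p-1) = f21 (A/4)^(p-1)`
  have hr1pos : 0 < (f01 * ((C : ℚ) / 4) ^ (p - 1)) / (f21 * ((A : ℚ) / 4) ^ (p - 1)) :=
    div_pos (mul_pos h01 hCp) (mul_pos h21 hAp)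
  have hr1 : (f01 * ((C : ℚ) / 4) ^ (p - 1)) / (f21 * ((A : ℚ) / 4) ^ (p - 1)) = 1 := by
    refine eq_one_of_padicValRat_eq_zero hr1pos fun ℓ hℓ => ?_
    haveI : Fact ℓ.Prime := ⟨hℓ⟩
    rw [padicValRat.div (mul_pos h01 hCp).ne' (mul_pos h21 hAp).ne']
    by_cases hℓ2 : ℓ = 2
    · subst hℓ2
      rw [padicValRat.mul h01.ne' hCp.ne', padicValRat.mul h21.ne' hAp.ne',
        padicValRat.pow, padicValRat.pow, padicValRat_two_odd_div_four hA,
        padicValRat_two_odd_div_four hC, h2a, h2b]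
      ring
    · rw [hodd1 ℓ hℓ hℓ2, sub_self]
  -- second ratio: a power of `2`
  have hr2pos : 0 < (f02 * ((C : ℚ) / 4) ^ (p - 1)) / (f21 * ((B : ℚ) / 4) ^ (p - 1)) :=
    div_pos (mul_pos h02 hCp) (mul_pos h21 hBp)
  have hr2 := eq_two_zpow_of_padicValRat_eq_zero hr2pos fun ℓ hℓ hℓ2 => by
    haveI : Fact ℓ.Prime := ⟨hℓ⟩
    rw [padicValRat.div (mul_pos h02 hCp).ne' (mul_pos h21 hBp).ne', hodd2 ℓ hℓ hℓ2, sub_self]
  set s : ℤ := padicValRat 2
    ((f02 * ((C : ℚ) / 4) ^ (p - 1)) / (f21 * ((B : ℚ) / 4) ^ (p - 1))) with hs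
  -- solve for `f01`, `f02` in terms of `f21`
  have e1 : f01 * ((C : ℚ) / 4) ^ (p - 1) = f21 * ((A : ℚ) / 4) ^ (p - 1) := by
    have := (div_eq_one_iff_eq (mul_pos h21 hAp).ne').mp hr1
    exact this
  have e2 : f02 * ((C : ℚ) / 4) ^ (p - 1) = (2 : ℚ) ^ s * (f21 * ((B : ℚ) / 4) ^ (p - 1)) := by
    rw [div_eq_iff (mul_pos h21 hBp).ne'] at hr2
    exact hr2
  -- multiply the identity by `(C/4)^(p-1)`
  have hp1 : p = (p - 1) + 1 := by omega
  have key : (C : ℚ) ^ p - (A : ℚ) ^ p = (2 : ℚ) ^ s * (B : ℚ) ^ p := by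
    have h1 : ((B : ℚ) / 4) * (f02 * ((C : ℚ) / 4) ^ (p - 1)) -
        ((C : ℚ) / 4) * f21 * ((C : ℚ) / 4) ^ (p - 1) =
        -((A : ℚ) / 4) * (f01 * ((C : ℚ) / 4) ^ (p - 1)) := by
      linear_combination (((C : ℚ) / 4) ^ (p - 1)) * hid
    rw [e1, e2] at h1
    -- divide by `f21`
    have h2 : (2 : ℚ) ^ s * (((B : ℚ) / 4) * ((B : ℚ) / 4) ^ (p - 1)) -
        ((C : ℚ) / 4) * ((C : ℚ) / 4) ^ (p - 1) = -(((A : ℚ) / 4) * ((A : ℚ) / 4) ^ (p - 1)) := by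
      apply mul_left_cancel₀ h21.ne'
      linear_combination h1
    rw [← pow_succ', ← pow_succ', ← pow_succ', ← hp1] at h2
    rw [div_pow, div_pow, div_pow] at h2
    have h4 : ((4 : ℚ)) ^ p ≠ 0 := pow_ne_zero _ (by norm_num)
    field_simp at h2
    linear_combination -h2
  exact no_second_relation hp hp3 hABC hA hC hB4 hB0 s key

end Fermat.Agent.M12.Endgame4
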