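/-
M12 (helper2), leaf L3d: **the Vélu factor of a pair `(i, k)` with `T k` in the kernel of reduction
and `T i` outside** is a unit, at a place over ANY prime `ℓ ≠ p` (`ℓ = 2` allowed).

`F(i,k) = ∏_r (e_k - x(T_i + rQ)) / (e_k - x(rQ))`: the kernel of reduction `E¹(A)` of an integral
Weierstrass model is a subgroup without torsion of order prime to `ℓ` (`S05.Kernel`), so `rQ` and
`T_i + rQ` are outside `E¹(A)` (`p (T_i + rQ) = T_i`), their abscissae are `A`-integral while
`e_k` is not: both differences have the valuation of `e_k`.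
Imported by no statement.
-/
import Mathlib
import Fermat.Agent.M12.Contracts4
import Fermat.Agent.S05.Kernel
import Fermat.Agent.S05.Inertia
import Fermat.Agent.M15.LocCaseA8

set_option autoImplicit false
set_option linter.unusedSectionVars false
set_option linter.unusedVariables false

open WeierstrassCurve WeierstrassCurve.Affine

namespace Fermat.Agent.M12.KerNotMem2

open Fermat.Agent.S05 Fermat.Agent.S05.Inertia Fermat.Agent.M15.DictDefs8
  Fermat.Agent.M15.LocCaseA8 Fermat.Agent.M12.Defs4

section General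

variable {K : Type*} [Field K] [DecidableEq K] {Γ₀ : Type*} [LinearOrderedCommGroupWithZero Γ₀]
  {v : Valuation K Γ₀} {E : Affine K}

/-- outside the kernel of reduction the abscissa is integral. -/
theorem v_xOf_le_one_of_not_inE1 {P : E.Point} (h : ¬ Kernel.InE1 v P) : v (xOf P) ≤ 1 := by
  rcases P with _ | ⟨x, y, hxy⟩
  · exact absurd (Kernel.inE1_zero v) h
  · exact not_lt.1 fun hx => h ((Kernel.inE1_some v hxy).2 hx)

/-- a nonzero point with integral abscissa is outside the kernel of reduction. -/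
theorem not_inE1_of_v_xOf_le_one {P : E.Point} (h0 : P ≠ 0) (h : v (xOf P) ≤ 1) :
    ¬ Kernel.InE1 v P := by
  rcases P with _ | ⟨x, y, hxy⟩
  · exact absurd rfl h0
  · intro hP
    exact absurd ((Kernel.inE1_some v hxy).1 hP) (not_lt.2 h)

/-- a nonzero point with non-integral abscissa is in the kernel of reduction. -/
theorem inE1_of_one_lt_v_xOf {P : E.Point} (h : 1 < v (xOf P)) : Kernel.InE1 v P := by
  rcases P with _ | ⟨x, y, hxy⟩
  · exact Kernel.inE1_zero v
  · exact (Kernel.inE1_some v hxy).2 h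

/-- **(3d), general form**: integral Weierstrass equation, `Q` of odd prime order `p` prime to the
residue characteristic, `T i` outside and `T k` inside the kernel of reduction. -/
theorem val_veluFactor_notMem (hW : Kernel.IntegralCoeffs v E) {T : Fin 3 → E.Point}
    (hT : IsTwoTors T) {p : ℕ} (hp : p.Prime) (hp2 : p ≠ 2) (hvp : v (p : K) = 1) {Q : E.Point}
    (hQ : addOrderOf Q = p) {i k : Fin 3} (hk : 1 < v (xOf (T k))) (hi : v (xOf (T i)) ≤ 1) :
    v (veluFactor T Q p i k) = 1 := by
  have hodd : Odd p := hp.odd_of_ne_two hp2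
  have hpT : p • T i = T i := by
    obtain ⟨m, rfl⟩ := hodd
    rw [add_smul, mul_comm, mul_smul, (hT.2 i).2, smul_zero, zero_add, one_smul]
  have hTi : ¬ Kernel.InE1 v (T i) := not_inE1_of_v_xOf_le_one (hT.2 i).1 hi
  have key : ∀ z : K, v z ≤ 1 → v (xOf (T k) - z) = v (xOf (T k)) := fun z hz =>
    Valuation.map_sub_eq_of_lt_left v (lt_of_le_of_lt hz hk)
  have hterm : ∀ r ∈ Finset.Icc 1 (p - 1),
      v ((xOf (T k) - xOf (T i + r • Q)) / (xOf (T k) - xOf (r • Q))) = 1 := by
    intro r hr
    have hpR : p • (r • Q) = 0 := nsmul_nsmul_eq_zero hQ r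
    have hR0 : r • Q ≠ 0 := nsmul_ne_zero_of_mem hQ hr
    have hR : ¬ Kernel.InE1 v (r • Q) := fun h =>
      hR0 (Kernel.eq_zero_of_nsmul_eq_zero hW h hvp hpR)
    have hS : ¬ Kernel.InE1 v (T i + r • Q) := by
      intro h
      apply hTi
      have h1 := (Kernel.nsmul_estimate hW (h.zc_lt_one hW) h le_rfl p).1
      rwa [smul_add, hpR, add_zero, hpT] at h1
    have hne : v (xOf (T k)) ≠ 0 := (zero_lt_one.trans hk).ne'
    rw [map_div₀, key _ (v_xOf_le_one_of_not_inE1 hS), key _ (v_xOf_le_one_of_not_inE1 hR),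
      div_self hne]
  rw [veluFactor, map_prod, Finset.prod_congr rfl hterm, Finset.prod_const_one]

end General

/-- the integral model `W` has integral coefficients at every place. -/
theorem integralCoeffs_map (W : WeierstrassCurve ℤ) (A : ValuationSubring Qb) :
    Kernel.IntegralCoeffs A.valuation ((W.map (Int.castRingHom ℚ))⁄Qb) := by
  refine ⟨?_, ?_, ?_, ?_, ?_⟩ <;>
  · simp only [WeierstrassCurve.baseChange, map_a₁, map_a₂, map_a₃, map_a₄, map_a₆, eq_intCast,
      map_intCast]
    exact valuation_intCast_le_one _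

/-- **L3d** (`Contracts4.LeafNotMem`). -/
theorem val_veluFactor_of_notMem {ℓ : ℕ} (hℓ : ℓ.Prime) {p : ℕ} (hp : p.Prime) (hp2 : p ≠ 2)
    (hℓp : ℓ ≠ p) (W : WeierstrassCurve ℤ) (hΔ : W.Δ ≠ 0) (A : ValuationSubring Qb)
    (hA : A.LiesOverPrime ℓ) (T : Fin 3 → Pt W) (hT : IsTwoTors T) (Q : Pt W)
    (hQ : addOrderOf Q = p) {i k : Fin 3} (hik : i ≠ k) (hk : xOf (T k) ∉ A)
    (hi : xOf (T i) ∈ A) : A.valuation (veluFactor T Q p i k) = 1 := by
  have hvp : A.valuation ((p : ℕ) : Qb) = 1 := valuation_prime_eq_one hℓ hA hp hℓp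
  have hk' : 1 < A.valuation (xOf (T k)) := by
    rw [← not_le, ValuationSubring.valuation_le_one_iff]; exact hk
  have hi' : A.valuation (xOf (T i)) ≤ 1 := (ValuationSubring.valuation_le_one_iff A _).2 hi
  exact val_veluFactor_notMem (integralCoeffs_map W A) hT hp hp2 hvp hQ hk' hi'

example : Fermat.Agent.M12.Contracts4.LeafNotMem := @val_veluFactor_of_notMem

end Fermat.Agent.M12.KerNotMem2
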