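/-
M12 (helper2), leaf L3c': **a Galois-stable line `⟨Q⟩` of the Frey curve is the kernel of reduction at
every place `A` over `p`**: every nonzero multiple of `Q` has a non-integral abscissa at `A`.

If one multiple is outside the kernel of reduction then (prime order) `⟨Q⟩ ∩ V1 = 0`, so the inertia
group at `A` acts trivially on `⟨Q⟩` (`FreyE1.close_at_p`: `(σ - 1) E[p] ⊆ V1`); the inertia groups at
`2` (`Local2.local_at_2`) and at the odd primes `≠ p` (S05) act trivially as well, hence the whole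
Galois group does (no unramified extension of `ℚ`: `UnramMain`), and `Q` would be a rational point of
order `p` (`RatTors2`).  (`#E[p] = p²`, `DivPoly.CardEq29`, gives `⟨Q⟩ ≠ E[p]`.)
Imported by no statement.
-/
import Mathlib
import Fermat.Agent.M12.Contracts4
import Fermat.Agent.M12.KerNotMem2
import Fermat.Agent.Wire.FreyModel9
import Fermat.Agent.S13.Endgame
import Fermat.Agent.S13.RatBridge
import Fermat.Agent.S13.UnramMain
import Fermat.Agent.S13.UnramVal
import Fermat.Agent.S13.UnramBridge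
import Fermat.Agent.DivPoly.Count
import Fermat.Agent.DivPoly.TorsionFinal
import Fermat.Agent.DivPoly.CardEq29
import Fermat.Agent.S05
import Fermat.Agent.S13.FreyDelta
import Fermat.Agent.S13.Local2
import Fermat.Agent.S13.LocalP
import Fermat.Agent.S13.RatTors2

set_option autoImplicit false
set_option linter.unusedSectionVars false
set_option linter.unusedVariables false
set_option linter.style.haveILetI false

open WeierstrassCurve WeierstrassCurve.Affine WeierstrassCurve.Affine.Point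

namespace Fermat.Agent.M12.KerCofixed2

open Fermat.Agent.S05 Fermat.Agent.S13 Fermat.Agent.M15.DictDefs8 Fermat.Agent.M15.LocCaseA8
  Fermat.Agent.M12.Defs4 Fermat.Agent.M12.KerNotMem2

/-- **the Frey-curve form**: a Galois-stable cyclic subgroup of order `p` of the Frey curve lies in
the kernel of reduction at every place over `p`. -/
theorem stable_in_kernel_frey (P : FreyPackage) (Q : (P.freyCurve⁄Qb).Point)
    (hQ : addOrderOf Q = P.p) (hst : ∀ σ : GQ, ∃ k : ℕ, σ • Q = k • Q)
    (A : ValuationSubring Qb) (hA : A.LiesOverPrime P.p) :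
    ∀ r ∈ Finset.Icc 1 (P.p - 1), xOf (r • Q) ∉ A := by
  classical
  have hpp := P.pp
  have hoddp : Odd P.p := P.hp_odd
  haveI : Fact P.p.Prime := ⟨hpp⟩
  have hpF : ((P.p : ℕ) : Qb) ≠ 0 := by exact_mod_cast P.hp0
  have hΔ : (P.freyCurve⁄Qb).Δ ≠ 0 := FreyDelta.freyCurve_baseChange_Δ_ne_zero P Qb
  have htor : Fermat.Agent.DivPoly.Count.TorsionIff (P.freyCurve⁄Qb) P.p := by
    intro x y h
    convert Fermat.Agent.DivPoly.Torsion.torsionIff (P.freyCurve⁄Qb) hoddp x y h
  haveI hfinV : Finite (Submodule.torsionBy ℤ (P.freyCurve⁄Qb).Point P.p) :=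
    Fermat.Agent.DivPoly.Count.finite_torsionBy hoddp hpF htor
  have hcard : Nat.card (Submodule.torsionBy ℤ (P.freyCurve⁄Qb).Point P.p) ≤ P.p ^ 2 :=
    Fermat.Agent.DivPoly.Count.card_torsionBy_le hoddp hpF htor
  have hcardeq : Nat.card (Submodule.torsionBy ℤ (P.freyCurve⁄Qb).Point P.p) = P.p ^ 2 :=
    Fermat.Agent.DivPoly.CardEq29.card_torsionBy_eq hΔ hoddp
  intro r hr hxA
  -- `Q` as an element of `E[p]`
  have hpQ : P.p • Q = 0 := by rw [← hQ]; exact addOrderOf_nsmul_eq_zero Q
  have hQV : Q ∈ Submodule.torsionBy ℤ (P.freyCurve⁄Qb).Point P.p := by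
    rw [Submodule.mem_torsionBy_iff, natCast_zsmul]; exact hpQ
  set q : Submodule.torsionBy ℤ (P.freyCurve⁄Qb).Point P.p := ⟨Q, hQV⟩ with hq
  have hQ0 : Q ≠ 0 := by
    intro h
    rw [h, addOrderOf_zero] at hQ
    exact hpp.one_lt.ne hQ
  have hq0 : q ≠ 0 := fun h => hQ0 (congrArg Subtype.val h)
  -- scalars of `ZMod p` are natural multiples
  have hsmul : ∀ (c : ZMod P.p) (x : Submodule.torsionBy ℤ (P.freyCurve⁄Qb).Point P.p),
      c • x = c.val • x := by
    intro c x
    conv_lhs => rw [← ZMod.natCast_zmod_val c]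
    exact Nat.cast_smul_eq_nsmul _ _ _
  set N : Submodule (ZMod P.p) (Submodule.torsionBy ℤ (P.freyCurve⁄Qb).Point P.p) :=
    Submodule.span (ZMod P.p) {q} with hN
  have hqN : q ∈ N := Submodule.subset_span rfl
  -- stability
  have hσq : ∀ σ : GQ, ∃ k : ℕ, σ • q = k • q := by
    intro σ
    obtain ⟨k, hk⟩ := hst σ
    exact ⟨k, Subtype.ext hk⟩
  have hstab : IsGaloisStable ℚ N := by
    intro σ x hx
    obtain ⟨c, rfl⟩ := Submodule.mem_span_singleton.1 hx
    obtain ⟨k, hk⟩ := hσq σ
    rw [hsmul, smul_comm, hk]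
    exact N.nsmul_mem (N.nsmul_mem hqN _) _
  have hbot : N ≠ ⊥ := by
    intro h
    rw [h, Submodule.mem_bot] at hqN
    exact hq0 hqN
  have htop : N ≠ ⊤ := by
    intro h
    have hsurj : Function.Surjective
        (fun c : ZMod P.p => (c • q : Submodule.torsionBy ℤ (P.freyCurve⁄Qb).Point P.p)) := by
      intro x
      have hx : x ∈ N := by rw [h]; exact Submodule.mem_top
      exact Submodule.mem_span_singleton.1 hx
    have hle := Nat.card_le_card_of_surjective _ hsurj
    rw [hcardeq, Nat.card_eq_fintype_card, ZMod.card] at hle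
    have h2 := hpp.two_le
    nlinarith
  -- `q` is outside the kernel of reduction
  have hqV1 : q ∉ FreyE1.V1 P A := by
    intro hmem
    have h1 : r • q ∈ FreyE1.V1 P A := (FreyE1.V1 P A).nsmul_mem hmem r
    rw [FreyE1.mem_V1] at h1
    have h2 : ((r • q : Submodule.torsionBy ℤ (P.freyCurve⁄Qb).Point P.p) :
        (P.freyCurve⁄Qb).Point) = r • Q := by
      simp [hq]
    rw [h2] at h1
    exact not_inE1_of_v_xOf_le_one (nsmul_ne_zero_of_mem hQ hr)
      ((ValuationSubring.valuation_le_one_iff A _).2 hxA) h1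
  -- the inertia group at `A` acts trivially on `N`
  have hIp : ∀ σ ∈ A.inertiaSubgroupIn ℚ, ∀ x ∈ N, σ • x = x := by
    intro σ hσ x hx
    have h1 : σ • x - x ∈ FreyE1.V1 P A := FreyE1.close_at_p P hA hσ x
    have h2 : σ • x - x ∈ N := N.sub_mem (hstab σ x hx) hx
    obtain ⟨d, hd⟩ := Submodule.mem_span_singleton.1 h2
    by_cases hd0 : d = 0
    · rw [hd0, zero_smul] at hd
      exact (sub_eq_zero.1 hd.symm)
    · exfalso
      apply hqV1
      have : q = d⁻¹ • (σ • x - x) := by
        rw [← hd, smul_smul, inv_mul_cancel₀ hd0, one_smul]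
      rw [this]
      exact (FreyE1.V1 P A).smul_mem _ h1
  -- everywhere
  have bridge : Fermat.Agent.S13.UnramMain.Bridge := Fermat.Agent.S13.UnramBridge.bridge
  have hI : ∀ q' : ℕ, q'.Prime → ∃ A' : ValuationSubring Qb, A'.LiesOverPrime q' ∧
      ∀ σ ∈ A'.inertiaSubgroupIn ℚ, ∀ x ∈ N, σ • x = x := by
    intro q' hq'
    by_cases hqp : q' = P.p
    · subst hqp
      exact ⟨A, hA, hIp⟩
    by_cases hq2 : q' = 2
    · subst hq2
      obtain ⟨A2, hA2⟩ := Fermat.Agent.S13.UnramVal.exists_liesOverPrime (L := Qb) hq'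
      exact ⟨A2, hA2, fun σ hσ =>
        (Fermat.Agent.S13.Local2.local_at_2 P hcard N hstab hbot htop A2 hA2 σ hσ).1⟩
    · obtain ⟨A', hA'⟩ := Fermat.Agent.S13.UnramVal.exists_liesOverPrime (L := Qb) hq'
      exact ⟨A', hA', fun σ hσ x _ => Fermat.Agent.S05.result P hq' hq2 hqp A' hA' σ hσ x⟩
  have hfix := fun σ =>
    Fermat.Agent.S13.UnramMain.forall_smul_eq_of_inertia_of_bridge bridge hstab hI σ
  exact hq0 (RatBridge.no_fixed_torsion_of_no_rational P.freyCurve P.p
    (fun x y h => Fermat.Agent.S13.RatTors2.no_rational_torsion_coord P x y h) q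
    fun σ => hfix σ q hqN)

/-- **L3c'** (`Contracts4.LeafCofixedKernel`). -/
theorem cofixed_in_kernel (P : FreyPackage) (Q : Pt P.freyCurveInt) (hQ : addOrderOf Q = P.p)
    (hst : IsStable Q) (hcof : IsCofixed Q P.p) (A : ValuationSubring Qb)
    (hA : A.LiesOverPrime P.p) : ∀ r ∈ Finset.Icc 1 (P.p - 1), xOf (r • Q) ∉ A := by
  have key : ∀ (Wq : WeierstrassCurve ℚ) (hW : Wq = P.freyCurve) (Q : (Wq⁄Qb).Point),
      addOrderOf Q = P.p → (∀ σ : GQ, ∃ k : ℕ, σ • Q = k • Q) →
      ∀ r ∈ Finset.Icc 1 (P.p - 1), xOf (r • Q) ∉ A := by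
    intro Wq hW
    subst hW
    exact fun Q hQ hst => stable_in_kernel_frey P Q hQ hst A hA
  exact key _ (Fermat.Agent.Wire.FreyModel9.freyCurveInt_map P) Q hQ hst

example : Fermat.Agent.M12.Contracts4.LeafCofixedKernel := @cofixed_in_kernel

end Fermat.Agent.M12.KerCofixed2
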