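import Mathlib
import Fermat.Agent.M15.DictLoc8

/-!
# M12 (3a): the valuation of a single Vélu factor at a toric odd prime (helper8)

For a point `Q` of odd prime order `p ≠ ℓ` in the zero component at a place `A ∣ ℓ` of
multiplicative reduction (`ℓ` odd), every factor
`F(i,k) = (e'_i - e'_k)/(e_i - e_k)` of the Vélu discriminant ratio has
`v (F(i,k)) = v (e_i - e_k) ^ (p - 1)`.
-/

set_option autoImplicit false
set_option linter.unusedSectionVars false
set_option linter.unusedVariables false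

open WeierstrassCurve WeierstrassCurve.Affine

namespace Fermat.Agent.M12.LocToric8

open Fermat.Agent.S05 Fermat.Agent.S05.Transport Fermat.Agent.S05.Inertia
  Fermat.Agent.M15.DictDefs8 Fermat.Agent.M15.LocModel8 Fermat.Agent.M15.LocFactor8
  Fermat.Agent.M15.LocCaseA8 Fermat.Agent.M15.LocCaseB8 Fermat.Agent.M15.LocNormal8
  Fermat.Agent.M15.LocZero8

section Model

variable {K : Type*} [Field K] [DecidableEq K] {Γ₀ : Type*} [LinearOrderedCommGroupWithZero Γ₀]
  {v : Valuation K Γ₀} {a b : K}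

theorem fin3_cases : ∀ i0 iu ib : Fin 3, i0 ≠ iu → i0 ≠ ib → iu ≠ ib →
    ∀ i : Fin 3, i = i0 ∨ i = iu ∨ i = ib := by decide

variable {hb0 : b ≠ 0} {T : Fin 3 → (Wab a b).toAffine.Point} {i0 iu ib : Fin 3} {eu eb : K}

/-- **Case A, factor by factor** (model `y² = x³ + a x² + b x`). -/
theorem val_veluFactor_inE0 (h2 : v (2 : K) = 1) (ha : v a = 1) (hb : v b < 1)
    (L : Labels v hb0 T i0 iu ib eu eb) (hT : IsTwoTors T) {p : ℕ} (hp : p.Prime) (hp2 : p ≠ 2)
    (hvp : v (p : K) = 1) {Q : (Wab a b).toAffine.Point} (hQ : addOrderOf Q = p)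
    (hQ0 : InE0 v Q) {i k : Fin 3} (hik : i ≠ k) :
    v (veluFactor T Q p i k) = v (xOf (T i) - xOf (T k)) ^ (p - 1) := by
  have D := fun r hr => rdata_of_inE0 (r := r) h2 ha hb L hT hp hp2 hvp hQ hQ0 hr
  have hF : ∀ i k, v (veluFactor T Q p i k) =
      ∏ r ∈ Finset.Icc 1 (p - 1), v (term T (r • Q) i k) := by
    intro i k
    rw [veluFactor, map_prod]
    rfl
  have hx1 : ∀ r ∈ Finset.Icc 1 (p - 1), v (xOf (r • Q)) = 1 := by
    intro r hr
    have hR0 := (D r hr).ne0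
    have hpR : p • (r • Q) = 0 := by
      rw [smul_comm, ← hQ, addOrderOf_nsmul_eq_zero, smul_zero]
    exact v_xOf_eq_one ha.le hb.le hvp hR0 (inE0_nsmul hb hb0 ha.le hQ0 r) hpR
  have one : ∀ i k, (∀ r ∈ Finset.Icc 1 (p - 1), v (term T (r • Q) i k) = 1) →
      v (veluFactor T Q p i k) = 1 := by
    intro i k h
    rw [hF, Finset.prod_congr rfl h, Finset.prod_const_one]
  have big : ∀ i k, (∀ r ∈ Finset.Icc 1 (p - 1), v (term T (r • Q) i k) =
      v b / (v (xOf (r • Q)) * v (xOf (r • Q)))) → v (veluFactor T Q p i k) = v b ^ (p - 1) := by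
    intro i k h
    rw [hF, Finset.prod_congr rfl fun r hr => by rw [h r hr, hx1 r hr, mul_one, div_one],
      Finset.prod_const, Nat.card_Icc, Nat.add_sub_cancel]
  -- the valuations of the differences
  have hveb : v eb < v eu := by rw [L.hvu, L.hvb]; exact hb
  have hd0u : v (xOf (T i0) - xOf (T iu)) = 1 := by
    rw [L.hT0, xOf_T0, L.hxu, zero_sub, Valuation.map_neg, L.hvu]
  have hdu0 : v (xOf (T iu) - xOf (T i0)) = 1 := by
    rw [L.hT0, xOf_T0, L.hxu, sub_zero, L.hvu]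
  have hd0b : v (xOf (T i0) - xOf (T ib)) = v b := by
    rw [L.hT0, xOf_T0, L.hxb, zero_sub, Valuation.map_neg, L.hvb]
  have hdb0 : v (xOf (T ib) - xOf (T i0)) = v b := by
    rw [L.hT0, xOf_T0, L.hxb, sub_zero, L.hvb]
  have hdub : v (xOf (T iu) - xOf (T ib)) = 1 := by
    rw [L.hxu, L.hxb, sub_eq_add_neg,
      Valuation.map_add_eq_of_lt_left v (by rwa [Valuation.map_neg]), L.hvu]
  have hdbu : v (xOf (T ib) - xOf (T iu)) = 1 := by
    rw [← Valuation.map_neg, neg_sub]; exact hdub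
  rcases fin3_cases i0 iu ib L.h0u L.h0b L.hub i with rfl | rfl | rfl <;>
    rcases fin3_cases _ _ _ L.h0u L.h0b L.hub k with rfl | rfl | rfl
  · exact absurd rfl hik
  · rw [hd0u, one_pow]; exact one _ _ fun r hr => v_term_0u hb L (D r hr)
  · rw [hd0b]; exact big _ _ fun r hr => v_term_0b hb L (D r hr)
  · rw [hdu0, one_pow]; exact one _ _ fun r hr => v_term_u0 hb L (D r hr)
  · exact absurd rfl hik
  · rw [hdub, one_pow]; exact one _ _ fun r hr => v_term_ub hb L (D r hr)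
  · rw [hdb0]; exact big _ _ fun r hr => v_term_b0 hb L (D r hr)
  · rw [hdbu, one_pow]; exact one _ _ fun r hr => v_term_bu hb L (D r hr)
  · exact absurd rfl hik

end Model

section Transport

variable {K : Type*} [Field K] [DecidableEq K] {W₁ W₂ : WeierstrassCurve K}
  {C : VariableChange K}

/-- **every `veluFactor` is invariant under a change of variables.** -/
theorem veluFactor_pointEquiv (h : W₁ = C • W₂) {T : Fin 3 → W₁.toAffine.Point}
    (hT : IsTwoTors T) {p : ℕ} (hp : p.Prime) (hp2 : p ≠ 2) {Q : W₁.toAffine.Point}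
    (hQ : addOrderOf Q = p) (i k : Fin 3) :
    veluFactor (fun i => pointEquiv h (T i)) (pointEquiv h Q) p i k = veluFactor T Q p i k := by
  have hu : (C.u : K) ^ 2 ≠ 0 := pow_ne_zero 2 (u_ne_zero C)
  unfold veluFactor
  refine Finset.prod_congr rfl fun r hr => ?_
  have hR0 : r • Q ≠ 0 := nsmul_ne_zero_of_mem hQ hr
  have hS0 : T i + r • Q ≠ 0 := by
    intro h0
    have e : r • Q = -T i := (neg_eq_of_add_eq_zero_right h0).symm
    apply two_nsmul_ne_zero_of_mem hp hp2 hQ hr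
    rw [e, smul_neg, (hT.2 i).2, neg_zero]
  have e1 : pointEquiv h (T i) + r • pointEquiv h Q = pointEquiv h (T i + r • Q) := by
    rw [map_add, map_nsmul]
  have e2 : r • pointEquiv h Q = pointEquiv h (r • Q) := by rw [map_nsmul]
  simp only []
  rw [e1, e2, xOf_sub_pointEquiv h (hT.2 k).1 hS0, xOf_sub_pointEquiv h (hT.2 k).1 hR0,
    mul_div_mul_left _ _ hu]

end Transport

local notation "Qb" => AlgebraicClosure ℚ

/-- **(3a)** the valuation of each Vélu factor at a toric odd prime `ℓ ≠ p`, kernel in the zero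
component: `v (F(i,k)) = v (e_i - e_k) ^ (p - 1)`. -/
theorem val_veluFactor_of_inZero {ℓ : ℕ} (hℓ : ℓ.Prime) (hℓ2 : ℓ ≠ 2) {p : ℕ} (hp : p.Prime)
    (hp2 : p ≠ 2) (hℓp : ℓ ≠ p) (W : WeierstrassCurve ℤ) (hΔ : W.Δ ≠ 0) (hℓΔ : (ℓ : ℤ) ∣ W.Δ)
    (hℓc₄ : ¬ (ℓ : ℤ) ∣ W.c₄) (A : ValuationSubring Qb) (hA : A.LiesOverPrime ℓ)
    (T : Fin 3 → ((W.map (Int.castRingHom ℚ))⁄Qb).Point) (hT : IsTwoTors T)
    (Q : ((W.map (Int.castRingHom ℚ))⁄Qb).Point) (hQ : addOrderOf Q = p)
    (hz : W.InZeroComponentAt A Q) {i k : Fin 3} (hik : i ≠ k) :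
    A.valuation (veluFactor T Q p i k) = A.valuation (xOf (T i) - xOf (T k)) ^ (p - 1) := by
  set v := A.valuation with hv
  set E : WeierstrassCurve Qb := (W.map (Int.castRingHom ℚ)).baseChange Qb with hEdef
  have h2 : v (2 : Qb) = 1 := valuation_two_eq_one hℓ hA hℓ2
  have hvp : v (p : Qb) = 1 := valuation_prime_eq_one hℓ hA hp hℓp
  have h2K : (2 : Qb) ≠ 0 := two_ne_zero
  have hE1 : E.a₁ = ((W.a₁ : ℤ) : Qb) := by simp [hEdef]
  have hE3 : E.a₃ = ((W.a₃ : ℤ) : Qb) := by simp [hEdef]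
  have hEb2 : E.b₂ = ((W.b₂ : ℤ) : Qb) := by
    simp only [hEdef, WeierstrassCurve.baseChange, map_b₂, eq_intCast, map_intCast]
  have hEb4 : E.b₄ = ((W.b₄ : ℤ) : Qb) := by
    simp only [hEdef, WeierstrassCurve.baseChange, map_b₄, eq_intCast, map_intCast]
  have hEb6 : E.b₆ = ((W.b₆ : ℤ) : Qb) := by
    simp only [hEdef, WeierstrassCurve.baseChange, map_b₆, eq_intCast, map_intCast]
  have hEΔ : E.Δ = ((W.Δ : ℤ) : Qb) := by
    simp only [hEdef, WeierstrassCurve.baseChange, map_Δ, eq_intCast, map_intCast]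
  have hEc4 : E.c₄ = ((W.c₄ : ℤ) : Qb) := by
    simp only [hEdef, WeierstrassCurve.baseChange, map_c₄, eq_intCast, map_intCast]
  have hΔ0 : E.Δ ≠ 0 := by rw [hEΔ]; exact_mod_cast hΔ
  have hvΔ : v E.Δ < 1 := by rw [hEΔ]; exact (valuation_intCast_lt_one_iff hℓ hA _).2 hℓΔ
  have hvc4 : v E.c₄ = 1 := by rw [hEc4]; exact valuation_intCast_eq_one hℓ hA hℓc₄
  obtain ⟨a, b, α, C, h, hu, hr, hs, ht, hsE, htE, hα, hvα, hva, hb0, hvb, hvD⟩ :=
    exists_normal_form (v := v) (E := E) h2 (by rw [hE1]; exact valuation_intCast_le_one _)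
      (by rw [hE3]; exact valuation_intCast_le_one _)
      (by rw [hEb2]; exact valuation_intCast_le_one _)
      (by rw [hEb4]; exact valuation_intCast_le_one _)
      (by rw [hEb6]; exact valuation_intCast_le_one _) hΔ0 hvΔ hvc4
  rw [hE1] at hsE
  rw [hE3, hE1] at htE
  set T' : Fin 3 → (Wab a b).toAffine.Point := fun i => (pointEquiv h).symm (T i) with hT'def
  set Q' : (Wab a b).toAffine.Point := (pointEquiv h).symm Q with hQ'def
  have hT' : IsTwoTors T' := isTwoTors_symm h hT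
  have hQ' : addOrderOf Q' = p := by rw [hQ'def, addOrderOf_symm h Q, hQ]
  have hTT : (fun i => pointEquiv h (T' i)) = T := by
    funext i; simp [hT'def]
  have hQQ : pointEquiv h Q' = Q := by simp [hQ'def]
  have hfac : veluFactor T Q p i k = veluFactor T' Q' p i k := by
    have := veluFactor_pointEquiv h hT' hp hp2 hQ' i k
    rw [hTT, hQQ] at this
    exact this
  have hdiff : xOf (T i) - xOf (T k) = xOf (T' i) - xOf (T' k) := by
    have := xOf_sub_pointEquiv h (hT'.2 i).1 (hT'.2 k).1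
    rw [hu, one_pow, one_mul] at this
    rw [← this]
    simp [hT'def]
  have hzero : W.InZeroComponentAt A Q ↔ InE0 v Q' := by
    have := inZero_iff_inE0 W A h hu hr hs ht hsE htE h2 hva hvb Q'
    rw [hQQ] at this
    exact this
  obtain ⟨i0, iu, ib, eu, eb, h0u, h0b, hub, hT0, hxu, hxb, hsum, hprod, hvu, hvb', hTb⟩ :=
    exists_labels v h2K hb0 hva hvb hT'
  have L : Labels v hb0 T' i0 iu ib eu eb :=
    ⟨h0u, h0b, hub, hT0, hxu, hxb, hsum, hprod, hvu, hvb', hTb⟩
  rw [hfac, hdiff]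
  exact val_veluFactor_inE0 h2 hva hvb L hT' hp hp2 hvp hQ' (hzero.1 hz) hik

end Fermat.Agent.M12.LocToric8
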