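import Mathlib
import Fermat.Agent.M12.LocToric8
import Fermat.Agent.S05.Good

/-!
# M12 (3b): the Vélu factors at an odd prime of good reduction (helper8)

At an odd prime `ℓ ≠ p` of good reduction every term
`(e_k - x(T_i + rQ)) / (e_k - x(rQ))` of a Vélu factor is a unit: two points `P, P'` outside the
kernel of reduction `E¹` with `P ± P' ∉ E¹` have `v (x(P) - x(P')) = 1`, and `E¹` has no
torsion of order prime to `ℓ`.
-/

set_option autoImplicit false
set_option linter.unusedSectionVars false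
set_option linter.unusedVariables false

open WeierstrassCurve WeierstrassCurve.Affine

namespace Fermat.Agent.M12.LocGood8

open Fermat.Agent.S05 Fermat.Agent.S05.Transport Fermat.Agent.S05.Inertia
  Fermat.Agent.M15.DictDefs8 Fermat.Agent.M15.LocModel8 Fermat.Agent.M15.LocFactor8
  Fermat.Agent.M15.LocCaseA8 Fermat.Agent.M15.LocNormal8
  Fermat.Agent.M15.LocZero8 Fermat.Agent.M12.LocToric8

section Model

variable {K : Type*} [Field K] [DecidableEq K] {Γ₀ : Type*} [LinearOrderedCommGroupWithZero Γ₀]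
  {v : Valuation K Γ₀} {a b : K}

/-- a point close to `T0 = (0,0)` becomes a point of `E¹` after translation by `T0`. -/
theorem inE1_add_T0 (hb : v b = 1) (hb0 : b ≠ 0) {P : (Wab a b).toAffine.Point} (h0 : P ≠ 0)
    (hx : v (xOf P) < 1) : InE1 v (P + T0 hb0) := by
  by_cases hT : P = T0 hb0
  · rw [hT, T0_add_T0]; trivial
  · have hne := add_T0_ne_zero hb0 hT
    have hxx := xOf_add_T0 hb0 h0 hT
    have hx0 : xOf P ≠ 0 := fun h => (xOf_eq_zero_iff hb0 P).1 h |>.elim h0 hT
    rcases hS : P + T0 hb0 with _ | ⟨x', y', h'⟩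
    · exact absurd hS hne
    · rw [hS] at hxx
      show 1 < v x'
      have : x' = b / xOf P := hxx
      rw [this, map_div₀, hb]
      exact (one_lt_div₀ (zero_lt_iff.mpr ((Valuation.ne_zero_iff v).mpr hx0))).mpr hx

/-- **Injectivity of the reduction on `x`-coordinates**: if `P`, `P'`, `P + P'`, `P - P'` are
outside the kernel of reduction, `x(P) - x(P')` is a unit. -/
theorem v_xOf_sub_eq_one (h2 : v (2 : K) = 1) (ha : v a ≤ 1) (hb : v b = 1)
    (hd : v (a ^ 2 - 4 * b) = 1) {P P' : (Wab a b).toAffine.Point} (hP : ¬ InE1 v P)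
    (hP' : ¬ InE1 v P') (hadd : ¬ InE1 v (P + P')) (hsub : ¬ InE1 v (P - P')) :
    v (xOf P - xOf P') = 1 := by
  have hb0 : b ≠ 0 := by
    intro h; rw [h, map_zero] at hb; exact zero_ne_one hb
  have hP0 : P ≠ 0 := fun h => hP (by rw [h]; trivial)
  have hP'0 : P' ≠ 0 := fun h => hP' (by rw [h]; trivial)
  have hxP : v (xOf P) ≤ 1 := by
    rcases P with _ | ⟨x, y, h⟩
    · exact absurd rfl hP0
    · exact not_lt.1 hP
  have hxP' : v (xOf P') ≤ 1 := by
    rcases P' with _ | ⟨x, y, h⟩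
    · exact absurd rfl hP'0
    · exact not_lt.1 hP'
  have hle : v (xOf P - xOf P') ≤ 1 := (Valuation.map_sub v _ _).trans (max_le hxP hxP')
  rcases lt_or_eq_of_le hxP with h1 | h1 <;> rcases lt_or_eq_of_le hxP' with h1' | h1'
  · -- both reduce to `T0`
    exfalso
    apply hsub
    have e : P - P' = (P + T0 hb0) + -(P' + T0 hb0) := by abel
    rw [e]
    exact KernelContract.inE1_add v ha hb.le _ _ (inE1_add_T0 hb hb0 hP0 h1)
      (KernelContract.inE1_neg v _ (inE1_add_T0 hb hb0 hP'0 h1'))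
  · rw [Valuation.map_sub_eq_of_lt_right v (by rw [h1']; exact h1), h1']
  · rw [Valuation.map_sub_eq_of_lt_left v (by rw [h1]; exact h1'), h1]
  · -- both `x`-coordinates are units
    by_contra hne
    have hlt : v (xOf P - xOf P') < 1 := lt_of_le_of_ne hle hne
    rcases point_cases hb0 P with rfl | rfl | ⟨x, s, hns, hx0, rfl⟩
    · exact hP0 rfl
    · rw [xOf_T0, map_zero] at h1; exact zero_ne_one h1
    rcases point_cases hb0 P' with rfl | rfl | ⟨x', s', hns', hx'0, rfl⟩
    · exact hP'0 rfl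
    · rw [xOf_T0, map_zero] at h1'; exact zero_ne_one h1'
    have hvx : v x = 1 := h1
    have hvx' : v x' = 1 := h1'
    have hxx : v (x - x') < 1 := hlt
    have e₁ : (x * s) ^ 2 = x ^ 3 + a * x ^ 2 + b * x := ((Wab_nonsingular_iff _ _).1 hns).1
    have e₂ : (x' * s') ^ 2 = x' ^ 3 + a * x' ^ 2 + b * x' :=
      ((Wab_nonsingular_iff _ _).1 hns').1
    have hs : v s ≤ 1 := by
      have := ClaimC.val_s_le_one ha hb.le hvx e₁
      rwa [mul_div_cancel_left₀ _ hx0] at this
    have hs' : v s' ≤ 1 := by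
      have := ClaimC.val_s_le_one ha hb.le hvx' e₂
      rwa [mul_div_cancel_left₀ _ hx'0] at this
    have hsm : v s = 1 ∨ v (x ^ 2 - b) = 1 := by
      have := Good.smooth_of_disc h2 ha hd e₁ hvx (by rwa [mul_div_cancel_left₀ _ hx0])
      rwa [mul_div_cancel_left₀ _ hx0] at this
    have key := ssub_mul_sadd hns hns' hx0 hx'0
    have hprod : v ((s - s') * (s + s')) < 1 := by
      rw [key, map_mul]
      have h3 : v (1 - b / (x * x')) ≤ 1 := by
        refine (Valuation.map_sub v _ _).trans (max_le (by rw [map_one]) ?_)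
        rw [map_div₀, map_mul, hvx, hvx', hb, mul_one, div_one]
      calc v (x - x') * v (1 - b / (x * x')) ≤ v (x - x') * 1 := mul_le_mul_right h3 _
        _ = v (x - x') := mul_one _
        _ < 1 := hxx
    have hcase : v (s - s') < 1 ∨ v (s + s') < 1 := by
      by_contra hcon
      push Not at hcon
      rw [map_mul] at hprod
      exact absurd hprod (not_lt.2 (one_le_mul_of_one_le_of_one_le hcon.1 hcon.2))
    rcases hcase with hc | hc
    · exact hsub (S05.claimC v h2 ha hb.le hns hns' hvx hvx' hxx hc hsm)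
    · obtain ⟨hn, en⟩ := neg_xs hns'
      apply hadd
      have := S05.claimC v h2 ha hb.le hns hn hvx hvx' hxx (by rwa [sub_neg_eq_add]) hsm
      rwa [← en, sub_neg_eq_add] at this

/-- a nonzero torsion point of order prime to the residue characteristic is outside `E¹`. -/
theorem not_inE1_of_nsmul (ha : v a ≤ 1) (hb : v b ≤ 1) {n : ℕ} (hn : v (n : K) = 1)
    {P : (Wab a b).toAffine.Point} (h0 : P ≠ 0) (h : n • P = 0) : ¬ InE1 v P :=
  fun hP => h0 (KernelContract.inE1_torsion_free v ha hb hn P hP h)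

/-- **(3b), model**: every Vélu factor is a unit at a place of good reduction. -/
theorem val_veluFactor_good (h2 : v (2 : K) = 1) (ha : v a ≤ 1) (hb : v b = 1)
    (hd : v (a ^ 2 - 4 * b) = 1) {T : Fin 3 → (Wab a b).toAffine.Point} (hT : IsTwoTors T)
    {p : ℕ} (hp : p.Prime) (hp2 : p ≠ 2) (hvp : v (p : K) = 1)
    {Q : (Wab a b).toAffine.Point} (hQ : addOrderOf Q = p) (i k : Fin 3) :
    v (veluFactor T Q p i k) = 1 := by
  have hv2p : v ((2 * p : ℕ) : K) = 1 := by
    rw [Nat.cast_mul, map_mul, hvp, mul_one]; exact_mod_cast h2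
  have tors : ∀ (j : Fin 3) (R : (Wab a b).toAffine.Point), p • R = 0 →
      (2 * p) • (T j + R) = 0 := by
    intro j R hR
    have e1 : (2 * p) • T j = 0 := by rw [mul_comm, mul_smul, (hT.2 j).2, smul_zero]
    have e2 : (2 * p) • R = 0 := by rw [mul_smul, hR, smul_zero]
    rw [smul_add, e1, e2, add_zero]
  -- a two-torsion point plus a point of exact order `p` is outside `E¹`
  have out : ∀ (S R : (Wab a b).toAffine.Point), 2 • S = 0 → p • R = 0 → 2 • R ≠ 0 →
      ¬ InE1 v (S + R) := by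
    intro S R hS hR hR2
    have h0 : S + R ≠ 0 := by
      intro h
      have e : R = -S := (neg_eq_of_add_eq_zero_right h).symm
      apply hR2
      rw [e, smul_neg, hS, neg_zero]
    have h2p : (2 * p) • (S + R) = 0 := by
      have e1 : (2 * p) • S = 0 := by rw [mul_comm, mul_smul, hS, smul_zero]
      have e2 : (2 * p) • R = 0 := by rw [mul_smul, hR, smul_zero]
      rw [smul_add, e1, e2, add_zero]
    exact not_inE1_of_nsmul ha hb.le hv2p h0 h2p
  have hterm : ∀ r ∈ Finset.Icc 1 (p - 1),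
      v ((xOf (T k) - xOf (T i + r • Q)) / (xOf (T k) - xOf (r • Q))) = 1 := by
    intro r hr
    have hpR : p • (r • Q) = 0 := nsmul_nsmul_eq_zero hQ r
    have hR2 : 2 • (r • Q) ≠ 0 := two_nsmul_ne_zero_of_mem hp hp2 hQ hr
    have hR2' : 2 • (-(r • Q)) ≠ 0 := by
      rw [smul_neg, neg_ne_zero]; exact hR2
    have hpR' : p • (-(r • Q)) = 0 := by rw [smul_neg, hpR, neg_zero]
    have hTk : ¬ InE1 v (T k) := by
      have := out (T k) 0 (hT.2 k).2 (smul_zero _)
      have h0 : (2 * p) • T k = 0 := by rw [mul_comm, mul_smul, (hT.2 k).2, smul_zero]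
      exact not_inE1_of_nsmul ha hb.le hv2p (hT.2 k).1 h0
    have hTT : ∀ j l : Fin 3, 2 • (T j + T l) = 0 := by
      intro j l; rw [smul_add, (hT.2 j).2, (hT.2 l).2, add_zero]
    have hTT' : ∀ j l : Fin 3, 2 • (T j - T l) = 0 := by
      intro j l; rw [smul_sub, (hT.2 j).2, (hT.2 l).2, sub_zero]
    -- numerator
    have hnum : v (xOf (T k) - xOf (T i + r • Q)) = 1 := by
      refine v_xOf_sub_eq_one h2 ha hb hd hTk (out _ _ (hT.2 i).2 hpR hR2) ?_ ?_
      · have e : T k + (T i + r • Q) = (T k + T i) + r • Q := by abel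
        rw [e]; exact out _ _ (hTT k i) hpR hR2
      · have e : T k - (T i + r • Q) = (T k - T i) + -(r • Q) := by abel
        rw [e]; exact out _ _ (hTT' k i) hpR' hR2'
    -- denominator
    have hden : v (xOf (T k) - xOf (r • Q)) = 1 := by
      have hzero2 : 2 • (0 : (Wab a b).toAffine.Point) = 0 := smul_zero _
      refine v_xOf_sub_eq_one h2 ha hb hd hTk ?_ (out _ _ (hT.2 k).2 hpR hR2) ?_
      · have := out 0 _ hzero2 hpR hR2
        rwa [zero_add] at this
      · have := out (T k) _ (hT.2 k).2 hpR' hR2'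
        rwa [← sub_eq_add_neg] at this
    rw [map_div₀, hnum, hden, div_one]
  rw [veluFactor, map_prod, Finset.prod_congr rfl hterm, Finset.prod_const_one]

/-- **(3b'), model**: the differences of the `2`-torsion abscissae are units at a place of good
reduction. -/
theorem val_xOf_sub_good (h2 : v (2 : K) = 1) (ha : v a ≤ 1) (hb : v b = 1)
    (hd : v (a ^ 2 - 4 * b) = 1) {T : Fin 3 → (Wab a b).toAffine.Point} (hT : IsTwoTors T)
    {i k : Fin 3} (hik : i ≠ k) : v (xOf (T i) - xOf (T k)) = 1 := by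
  have out : ∀ S : (Wab a b).toAffine.Point, S ≠ 0 → 2 • S = 0 → ¬ InE1 v S := by
    intro S h0 hS
    exact not_inE1_of_nsmul ha hb.le (by exact_mod_cast h2) h0 hS
  have hne : T i ≠ T k := fun h => hik (hT.1 h)
  have hneg : -T k = T k := by
    have := (hT.2 k).2
    rw [two_nsmul] at this
    exact neg_eq_of_add_eq_zero_left this
  refine v_xOf_sub_eq_one h2 ha hb hd (out _ (hT.2 i).1 (hT.2 i).2) (out _ (hT.2 k).1 (hT.2 k).2)
    (out _ ?_ ?_) (out _ ?_ ?_)
  · intro h
    apply hne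
    rw [← hneg]; exact eq_neg_of_add_eq_zero_left h
  · rw [smul_add, (hT.2 i).2, (hT.2 k).2, add_zero]
  · exact sub_ne_zero.2 hne
  · rw [smul_sub, (hT.2 i).2, (hT.2 k).2, sub_zero]

end Model

section Normal

variable {K : Type*} [Field K] {Γ₀ : Type*} [LinearOrderedCommGroupWithZero Γ₀]
  {v : Valuation K Γ₀} [IsAlgClosed K]

/-- **The normal form at a place of good reduction.** -/
theorem exists_normal_form_good {E : WeierstrassCurve K} (h2 : v (2 : K) = 1)
    (hb₂ : v E.b₂ ≤ 1) (hb₄ : v E.b₄ ≤ 1) (hb₆ : v E.b₆ ≤ 1) (hΔ : v E.Δ = 1) :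
    ∃ (a b : K) (C : VariableChange K), Wab a b = C • E ∧ (C.u : K) = 1 ∧
      v a ≤ 1 ∧ v b = 1 ∧ v (a ^ 2 - 4 * b) = 1 := by
  have h2K : (2 : K) ≠ 0 := by
    intro h; rw [h, map_zero] at h2; exact zero_ne_one h2
  have h4K := four_ne_zero' h2K
  obtain ⟨r, hr⟩ : ∃ r : K, gOf E r = 0 := by
    have hdeg : (Cubic.toPoly ⟨(4 : K), E.b₂, 2 * E.b₄, E.b₆⟩).degree ≠ 0 := by
      rw [Cubic.degree_of_a_ne_zero (by exact h4K)]
      norm_num
    obtain ⟨r₀, hr₀⟩ := IsAlgClosed.exists_root _ hdeg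
    refine ⟨r₀, ?_⟩
    simpa [Cubic.toPoly, gOf, Polynomial.IsRoot] using hr₀
  have hvr := v_root_le_one h2 hb₂ hb₄ hb₆ hr
  have h3 : v (3 : K) ≤ 1 := by
    have := v_natCast_le_one v 3
    simpa using this
  have h4 : v (4 : K) = 1 := (v_ofNat v h2).1
  have h16 : v (16 : K) = 1 := (v_ofNat v h2).2
  have hmul : ∀ x y : K, v x ≤ 1 → v y ≤ 1 → v (x * y) ≤ 1 := by
    intro x y hx hy
    rw [map_mul]
    calc v x * v y ≤ 1 * 1 := mul_le_mul' hx hy
      _ = 1 := one_mul 1
  have hdiv2 : ∀ x : K, v x ≤ 1 → v (x / 2) ≤ 1 := by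
    intro x hx; rw [map_div₀, h2, div_one]; exact hx
  have hdiv4 : ∀ x : K, v x ≤ 1 → v (x / 4) ≤ 1 := by
    intro x hx; rw [map_div₀, h4, div_one]; exact hx
  have hva : v (aOf E r) ≤ 1 := by
    unfold aOf
    exact Valuation.map_add_le v (hmul _ _ h3 hvr) (hdiv4 _ hb₂)
  have hvb : v (bOf E r) ≤ 1 := by
    unfold bOf
    refine Valuation.map_add_le v (Valuation.map_add_le v (hmul _ _ h3 ?_) ?_) (hdiv2 _ hb₄)
    · rw [map_pow]; exact pow_le_one₀ zero_le hvr
    · exact hmul _ _ (hdiv2 _ hb₂) hvr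
  have hvd : v (aOf E r ^ 2 - 4 * bOf E r) ≤ 1 := by
    refine (Valuation.map_sub v _ _).trans (max_le ?_ ?_)
    · rw [map_pow]; exact pow_le_one₀ zero_le hva
    · rw [map_mul, h4, one_mul]; exact hvb
  have hD := Δ_eq h2K hr
  rw [hD, map_mul, map_mul, h16, one_mul, map_pow] at hΔ
  have hb2 : v (bOf E r) ^ 2 ≤ 1 := pow_le_one₀ zero_le hvb
  have hb1 : v (bOf E r) ^ 2 = 1 := eq_one_of_mul_eq_one hb2 hvd hΔ
  have hd1 : v (aOf E r ^ 2 - 4 * bOf E r) = 1 := by
    rw [hb1, one_mul] at hΔ; exact hΔ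
  have hb1' : v (bOf E r) = 1 := by
    rw [← map_pow] at hb1
    exact v_eq_one_of_sq v hb1
  exact ⟨aOf E r, bOf E r, vcOf E r, wab_eq h2K hr, rfl, hva, hb1', hd1⟩

end Normal

local notation "Qb" => AlgebraicClosure ℚ

/-- **(3b)** every Vélu factor is a unit at an odd prime `ℓ ≠ p` of good reduction. -/
theorem val_veluFactor_of_good {ℓ : ℕ} (hℓ : ℓ.Prime) (hℓ2 : ℓ ≠ 2) {p : ℕ} (hp : p.Prime)
    (hp2 : p ≠ 2) (hℓp : ℓ ≠ p) (W : WeierstrassCurve ℤ) (hℓΔ : ¬ (ℓ : ℤ) ∣ W.Δ)
    (A : ValuationSubring Qb) (hA : A.LiesOverPrime ℓ)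
    (T : Fin 3 → ((W.map (Int.castRingHom ℚ))⁄Qb).Point) (hT : IsTwoTors T)
    (Q : ((W.map (Int.castRingHom ℚ))⁄Qb).Point) (hQ : addOrderOf Q = p) (i k : Fin 3) :
    A.valuation (veluFactor T Q p i k) = 1 := by
  set v := A.valuation with hv
  set E : WeierstrassCurve Qb := (W.map (Int.castRingHom ℚ)).baseChange Qb with hEdef
  have h2 : v (2 : Qb) = 1 := valuation_two_eq_one hℓ hA hℓ2
  have hvp : v (p : Qb) = 1 := valuation_prime_eq_one hℓ hA hp hℓp
  have hEb2 : E.b₂ = ((W.b₂ : ℤ) : Qb) := by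
    simp only [hEdef, WeierstrassCurve.baseChange, map_b₂, eq_intCast, map_intCast]
  have hEb4 : E.b₄ = ((W.b₄ : ℤ) : Qb) := by
    simp only [hEdef, WeierstrassCurve.baseChange, map_b₄, eq_intCast, map_intCast]
  have hEb6 : E.b₆ = ((W.b₆ : ℤ) : Qb) := by
    simp only [hEdef, WeierstrassCurve.baseChange, map_b₆, eq_intCast, map_intCast]
  have hEΔ : E.Δ = ((W.Δ : ℤ) : Qb) := by
    simp only [hEdef, WeierstrassCurve.baseChange, map_Δ, eq_intCast, map_intCast]
  have hvΔ : v E.Δ = 1 := by rw [hEΔ]; exact valuation_intCast_eq_one hℓ hA hℓΔ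
  obtain ⟨a, b, C, h, hu, hva, hvb, hvd⟩ :=
    exists_normal_form_good (v := v) (E := E) h2
      (by rw [hEb2]; exact valuation_intCast_le_one _)
      (by rw [hEb4]; exact valuation_intCast_le_one _)
      (by rw [hEb6]; exact valuation_intCast_le_one _) hvΔ
  set T' : Fin 3 → (Wab a b).toAffine.Point := fun i => (pointEquiv h).symm (T i) with hT'def
  set Q' : (Wab a b).toAffine.Point := (pointEquiv h).symm Q with hQ'def
  have hT' : IsTwoTors T' := isTwoTors_symm h hT
  have hQ' : addOrderOf Q' = p := by rw [hQ'def, addOrderOf_symm h Q, hQ]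
  have hTT : (fun i => pointEquiv h (T' i)) = T := by
    funext i; simp [hT'def]
  have hQQ : pointEquiv h Q' = Q := by simp [hQ'def]
  have hfac : veluFactor T Q p i k = veluFactor T' Q' p i k := by
    have := veluFactor_pointEquiv h hT' hp hp2 hQ' i k
    rw [hTT, hQQ] at this
    exact this
  rw [hfac]
  exact val_veluFactor_good h2 hva hvb hvd hT' hp hp2 hvp hQ' i k

/-- **(3b')** the differences of the `2`-torsion abscissae are units at an odd prime of good
reduction. -/
theorem val_xOf_sub_of_good {ℓ : ℕ} (hℓ : ℓ.Prime) (hℓ2 : ℓ ≠ 2) (W : WeierstrassCurve ℤ)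
    (hℓΔ : ¬ (ℓ : ℤ) ∣ W.Δ) (A : ValuationSubring Qb) (hA : A.LiesOverPrime ℓ)
    (T : Fin 3 → ((W.map (Int.castRingHom ℚ))⁄Qb).Point) (hT : IsTwoTors T) {i k : Fin 3}
    (hik : i ≠ k) : A.valuation (xOf (T i) - xOf (T k)) = 1 := by
  set v := A.valuation with hv
  set E : WeierstrassCurve Qb := (W.map (Int.castRingHom ℚ)).baseChange Qb with hEdef
  have h2 : v (2 : Qb) = 1 := valuation_two_eq_one hℓ hA hℓ2
  have hEb2 : E.b₂ = ((W.b₂ : ℤ) : Qb) := by
    simp only [hEdef, WeierstrassCurve.baseChange, map_b₂, eq_intCast, map_intCast]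
  have hEb4 : E.b₄ = ((W.b₄ : ℤ) : Qb) := by
    simp only [hEdef, WeierstrassCurve.baseChange, map_b₄, eq_intCast, map_intCast]
  have hEb6 : E.b₆ = ((W.b₆ : ℤ) : Qb) := by
    simp only [hEdef, WeierstrassCurve.baseChange, map_b₆, eq_intCast, map_intCast]
  have hEΔ : E.Δ = ((W.Δ : ℤ) : Qb) := by
    simp only [hEdef, WeierstrassCurve.baseChange, map_Δ, eq_intCast, map_intCast]
  have hvΔ : v E.Δ = 1 := by rw [hEΔ]; exact valuation_intCast_eq_one hℓ hA hℓΔ
  obtain ⟨a, b, C, h, hu, hva, hvb, hvd⟩ :=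
    exists_normal_form_good (v := v) (E := E) h2
      (by rw [hEb2]; exact valuation_intCast_le_one _)
      (by rw [hEb4]; exact valuation_intCast_le_one _)
      (by rw [hEb6]; exact valuation_intCast_le_one _) hvΔ
  set T' : Fin 3 → (Wab a b).toAffine.Point := fun i => (pointEquiv h).symm (T i) with hT'def
  have hT' : IsTwoTors T' := isTwoTors_symm h hT
  have hdiff : xOf (T i) - xOf (T k) = xOf (T' i) - xOf (T' k) := by
    have := xOf_sub_pointEquiv h (hT'.2 i).1 (hT'.2 k).1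
    rw [hu, one_pow, one_mul] at this
    rw [← this]
    simp [hT'def]
  rw [hdiff]
  exact val_xOf_sub_good h2 hva hvb hvd hT' hik

end Fermat.Agent.M12.LocGood8
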