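/-
M12 (helper2), leaf L3c: **the Vélu factors when every nonzero multiple of `Q` lies in the kernel of
reduction** at a place `A` over an odd prime `ℓ` (`ℓ = p` allowed):

  `v (F(i,k)) * ∏_{r=1}^{p-1} v (x(rQ)) = v (x(T_i) - x(T_k)) ^ (p - 1)`.

Normal form `Y² = X³ + a X² + b X` at the root `x(T_i)` of the `2`-division polynomial
(`LocNormal8.wab_eq`, `u = 1`), so that `T_i = T0 = (0,0)` and `x(T0 + R) = b / x(R)`; for `R` in the
kernel of reduction (`1 < v (x R)`) and `e = x(T_k)` (a root of `X² + a X + b`, integral)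
`e - b / x(R) = e (1 + (e + a) / x(R))` has the valuation of `e`, and `v (e - x(R)) = v (x R)`.
Imported by no statement.
-/
import Mathlib
import Fermat.Agent.M12.Contracts4
import Fermat.Agent.M12.LocGood8

set_option autoImplicit false
set_option linter.unusedSectionVars false
set_option linter.unusedVariables false

open WeierstrassCurve WeierstrassCurve.Affine

namespace Fermat.Agent.M12.KerModel2

open Fermat.Agent.S05 Fermat.Agent.S05.Transport Fermat.Agent.S05.Inertia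
  Fermat.Agent.M15.DictDefs8 Fermat.Agent.M15.LocModel8 Fermat.Agent.M15.LocCaseA8
  Fermat.Agent.M15.LocNormal8 Fermat.Agent.M15.LocZero8 Fermat.Agent.M15.LocInt8
  Fermat.Agent.M12.LocToric8 Fermat.Agent.M12.Defs4

section Model

variable {K : Type*} [Field K] [DecidableEq K] {Γ₀ : Type*} [LinearOrderedCommGroupWithZero Γ₀]
  {v : Valuation K Γ₀} {a b : K}

/-- one term of the Vélu factor `F(0,k)`, `R` in the kernel of reduction. -/
theorem val_term_kernel (h2K : (2 : K) ≠ 0) (ha : v a ≤ 1) (hb : v b ≤ 1) (hb0 : b ≠ 0)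
    {Tk R : (Wab a b).toAffine.Point} (hTk0 : Tk ≠ 0) (hTk2 : 2 • Tk = 0) (hTk : Tk ≠ T0 hb0)
    (hR : 1 < v (xOf R)) :
    v ((xOf Tk - xOf (T0 hb0 + R)) / (xOf Tk - xOf R)) * v (xOf R) = v (xOf Tk) := by
  obtain ⟨e, hns, rfl, hcub⟩ := exists_of_two_tors h2K hTk0 hTk2
  have hxe : xOf (Point.some e 0 hns : (Wab a b).toAffine.Point) = e := rfl
  rw [hxe]
  have he0 : e ≠ 0 := by
    intro h
    rcases (xOf_eq_zero_iff hb0 _).1 (hxe.trans h) with h' | h'
    · exact hTk0 h'
    · exact hTk h'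
  have hquad : e ^ 2 + a * e + b = 0 := by
    apply mul_left_cancel₀ he0
    linear_combination hcub
  have hve : v e ≤ 1 := v_le_one_of_quadratic v ha hb hquad
  have hR0 : R ≠ 0 := by
    rintro rfl
    rw [xOf_zero, map_zero] at hR
    exact absurd hR (not_lt.2 zero_le_one)
  have hRT : R ≠ T0 hb0 := by
    rintro rfl
    rw [xOf_T0, map_zero] at hR
    exact absurd hR (not_lt.2 zero_le_one)
  have hx0 : xOf R ≠ 0 := by
    intro h
    rw [h, map_zero] at hR
    exact absurd hR (not_lt.2 zero_le_one)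
  have hvx0 : v (xOf R) ≠ 0 := (Valuation.ne_zero_iff v).2 hx0
  have hvxpos : 0 < v (xOf R) := zero_lt_iff.2 hvx0
  have hadd : xOf (T0 hb0 + R) = b / xOf R := by
    rw [add_comm]; exact xOf_add_T0 hb0 hR0 hRT
  rw [hadd]
  have hnum : e - b / xOf R = e * (1 + (e + a) / xOf R) := by
    field_simp
    linear_combination (-1 : K) * hquad
  have hsmall : v ((e + a) / xOf R) < 1 := by
    rw [map_div₀, div_lt_one₀ hvxpos]
    exact lt_of_le_of_lt (Valuation.map_add_le v hve ha) hR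
  have hvnum : v (e - b / xOf R) = v e := by
    rw [hnum, map_mul, v.map_one_add_of_lt hsmall, mul_one]
  have hvden : v (e - xOf R) = v (xOf R) :=
    Valuation.map_sub_eq_of_lt_right v (lt_of_le_of_lt hve hR)
  rw [map_div₀, hvnum, hvden, div_mul_cancel₀ _ hvx0]

/-- **(3c), model**: `T i = T0`, every nonzero multiple of `Q` in the kernel of reduction. -/
theorem val_veluFactor_kernel_model (h2K : (2 : K) ≠ 0) (ha : v a ≤ 1) (hb : v b ≤ 1)
    (hb0 : b ≠ 0) {T : Fin 3 → (Wab a b).toAffine.Point} (hT : IsTwoTors T) {p : ℕ}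
    {Q : (Wab a b).toAffine.Point} {i k : Fin 3} (hik : i ≠ k) (hTi : T i = T0 hb0)
    (hker : ∀ r ∈ Finset.Icc 1 (p - 1), 1 < v (xOf (r • Q))) :
    v (veluFactor T Q p i k) * ∏ r ∈ Finset.Icc 1 (p - 1), v (xOf (r • Q)) =
      v (xOf (T i) - xOf (T k)) ^ (p - 1) := by
  have hTk : T k ≠ T0 hb0 := fun h => hik (hT.1 (hTi.trans h.symm))
  have hterm : ∀ r ∈ Finset.Icc 1 (p - 1),
      v ((xOf (T k) - xOf (T i + r • Q)) / (xOf (T k) - xOf (r • Q))) * v (xOf (r • Q)) =
        v (xOf (T k)) := by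
    intro r hr
    rw [hTi]
    exact val_term_kernel h2K ha hb hb0 (hT.2 k).1 (hT.2 k).2 hTk (hker r hr)
  rw [veluFactor, map_prod, ← Finset.prod_mul_distrib, Finset.prod_congr rfl hterm,
    Finset.prod_const, Nat.card_Icc, Nat.add_sub_cancel, hTi, xOf_T0, zero_sub,
    Valuation.map_neg]

end Model

section Root

variable {K : Type*} [Field K] [DecidableEq K]

/-- the abscissa of a point of order two is a root of the `2`-division polynomial. -/
theorem gOf_xOf_of_two_tors {E : WeierstrassCurve K} {P : E.toAffine.Point} (h0 : P ≠ 0)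
    (ht : 2 • P = 0) : gOf E (xOf P) = 0 := by
  rcases P with _ | ⟨x, y, h⟩
  · exact absurd rfl h0
  · rw [two_nsmul, add_eq_zero_iff_eq_neg, Point.neg_some] at ht
    have hy : y = E.toAffine.negY x y := (Point.some.injEq ..).mp ht |>.2
    have heq := (Affine.equation_iff x y).1 h.1
    rw [Affine.negY] at hy
    show gOf E x = 0
    unfold gOf
    simp only [b₂, b₄, b₆]
    linear_combination (-4 : K) * heq + (2 * y + E.a₁ * x + E.a₃) * hy

end Root

local notation "Qb" => AlgebraicClosure ℚ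

/-- **L3c** (`Contracts4.LeafKernel`). -/
theorem val_veluFactor_kernel {ℓ : ℕ} (hℓ : ℓ.Prime) (hℓ2 : ℓ ≠ 2) {p : ℕ} (hp : p.Prime)
    (hp2 : p ≠ 2) (W : WeierstrassCurve ℤ) (hΔ : W.Δ ≠ 0) (A : ValuationSubring Qb)
    (hA : A.LiesOverPrime ℓ) (T : Fin 3 → Pt W) (hT : IsTwoTors T) (Q : Pt W)
    (hQ : addOrderOf Q = p) (hker : ∀ r ∈ Finset.Icc 1 (p - 1), xOf (r • Q) ∉ A) {i k : Fin 3}
    (hik : i ≠ k) :
    A.valuation (veluFactor T Q p i k) * ∏ r ∈ Finset.Icc 1 (p - 1), A.valuation (xOf (r • Q)) =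
      A.valuation (xOf (T i) - xOf (T k)) ^ (p - 1) := by
  set v := A.valuation with hv
  set E : WeierstrassCurve Qb := (W.map (Int.castRingHom ℚ)).baseChange Qb with hEdef
  have h2 : v (2 : Qb) = 1 := valuation_two_eq_one hℓ hA hℓ2
  have h2K : (2 : Qb) ≠ 0 := two_ne_zero
  have hEb2 : E.b₂ = ((W.b₂ : ℤ) : Qb) := by
    simp only [hEdef, WeierstrassCurve.baseChange, map_b₂, eq_intCast, map_intCast]
  have hEb4 : E.b₄ = ((W.b₄ : ℤ) : Qb) := by
    simp only [hEdef, WeierstrassCurve.baseChange, map_b₄, eq_intCast, map_intCast]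
  have hEb6 : E.b₆ = ((W.b₆ : ℤ) : Qb) := by
    simp only [hEdef, WeierstrassCurve.baseChange, map_b₆, eq_intCast, map_intCast]
  have hEΔ : E.Δ = ((W.Δ : ℤ) : Qb) := by
    simp only [hEdef, WeierstrassCurve.baseChange, map_Δ, eq_intCast, map_intCast]
  have hΔ0 : E.Δ ≠ 0 := by rw [hEΔ]; exact_mod_cast hΔ
  have hb₂ : v E.b₂ ≤ 1 := by rw [hEb2]; exact valuation_intCast_le_one _
  have hb₄ : v E.b₄ ≤ 1 := by rw [hEb4]; exact valuation_intCast_le_one _
  have hb₆ : v E.b₆ ≤ 1 := by rw [hEb6]; exact valuation_intCast_le_one _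
  -- the root
  set ρ : Qb := xOf (T i) with hρ
  have hr : gOf E ρ = 0 := gOf_xOf_of_two_tors (E := E) (hT.2 i).1 (hT.2 i).2
  have hvr : v ρ ≤ 1 := v_root_le_one h2 hb₂ hb₄ hb₆ hr
  have h3 : v (3 : Qb) ≤ 1 := by
    have := v_natCast_le_one v 3
    simpa using this
  have h4 : v (4 : Qb) = 1 := (v_ofNat v h2).1
  have hmul : ∀ x y : Qb, v x ≤ 1 → v y ≤ 1 → v (x * y) ≤ 1 := by
    intro x y hx hy
    rw [map_mul]
    calc v x * v y ≤ 1 * 1 := mul_le_mul' hx hy
      _ = 1 := one_mul 1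
  have hdiv2 : ∀ x : Qb, v x ≤ 1 → v (x / 2) ≤ 1 := by
    intro x hx; rw [map_div₀, h2, div_one]; exact hx
  have hdiv4 : ∀ x : Qb, v x ≤ 1 → v (x / 4) ≤ 1 := by
    intro x hx; rw [map_div₀, h4, div_one]; exact hx
  have hva : v (aOf E ρ) ≤ 1 := by
    unfold aOf
    exact Valuation.map_add_le v (hmul _ _ h3 hvr) (hdiv4 _ hb₂)
  have hvb : v (bOf E ρ) ≤ 1 := by
    unfold bOf
    refine Valuation.map_add_le v (Valuation.map_add_le v (hmul _ _ h3 ?_) ?_) (hdiv2 _ hb₄)
    · rw [map_pow]; exact pow_le_one₀ zero_le hvr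
    · exact hmul _ _ (hdiv2 _ hb₂) hvr
  have hb0 : bOf E ρ ≠ 0 := by
    intro h0
    apply hΔ0
    rw [Δ_eq h2K hr, h0]; ring
  have h : Wab (aOf E ρ) (bOf E ρ) = vcOf E ρ • E := wab_eq h2K hr
  have hu : ((vcOf E ρ).u : Qb) = 1 := rfl
  have hCr : (vcOf E ρ).r = ρ := rfl
  set T' : Fin 3 → (Wab (aOf E ρ) (bOf E ρ)).toAffine.Point :=
    fun i => (pointEquiv h).symm (T i) with hT'def
  set Q' : (Wab (aOf E ρ) (bOf E ρ)).toAffine.Point := (pointEquiv h).symm Q with hQ'def
  have hT' : IsTwoTors T' := isTwoTors_symm h hT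
  have hQ' : addOrderOf Q' = p := by rw [hQ'def, addOrderOf_symm h Q, hQ]
  have hTT : (fun i => pointEquiv h (T' i)) = T := by
    funext i; simp [hT'def]
  have hQQ : pointEquiv h Q' = Q := by simp [hQ'def]
  have hfac : veluFactor T Q p i k = veluFactor T' Q' p i k := by
    have := veluFactor_pointEquiv h hT' hp hp2 hQ' i k
    rw [hTT, hQQ] at this
    exact this
  have hdiff : xOf (T i) - xOf (T k) = xOf (T' i) - xOf (T' k) := by
    have := xOf_sub_pointEquiv h (hT'.2 i).1 (hT'.2 k).1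
    rw [hu, one_pow, one_mul] at this
    rw [← this]
    simp [hT'def]
  -- `T i` becomes `T0`
  have hTi : T' i = T0 hb0 := by
    have hx := xOf_pointEquiv h (hT'.2 i).1
    rw [hu, one_pow, one_mul, hCr] at hx
    have hTi' : pointEquiv h (T' i) = T i := congrFun hTT i
    rw [hTi'] at hx
    have hx0 : xOf (T' i) = 0 := by
      have : ρ = xOf (T' i) + ρ := hx
      linear_combination -this
    rcases (xOf_eq_zero_iff hb0 _).1 hx0 with h' | h'
    · exact absurd h' (hT'.2 i).1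
    · exact h'
  -- the abscissae of the multiples of `Q`
  have hxR : ∀ r ∈ Finset.Icc 1 (p - 1), xOf (r • Q) = xOf (r • Q') + ρ := by
    intro r hr'
    have hR0 : r • Q' ≠ 0 := nsmul_ne_zero_of_mem hQ' hr'
    have hx := xOf_pointEquiv h hR0
    rw [hu, one_pow, one_mul, hCr, map_nsmul, hQQ] at hx
    exact hx
  have hker' : ∀ r ∈ Finset.Icc 1 (p - 1), 1 < v (xOf (r • Q)) := by
    intro r hr'
    rw [← not_le, hv, ValuationSubring.valuation_le_one_iff]
    exact hker r hr'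
  have hvx : ∀ r ∈ Finset.Icc 1 (p - 1), v (xOf (r • Q')) = v (xOf (r • Q)) := by
    intro r hr'
    have e : xOf (r • Q') = xOf (r • Q) - ρ := by rw [hxR r hr']; ring
    rw [e]
    exact Valuation.map_sub_eq_of_lt_left v (lt_of_le_of_lt hvr (hker' r hr'))
  have hker'' : ∀ r ∈ Finset.Icc 1 (p - 1), 1 < v (xOf (r • Q')) := by
    intro r hr'
    rw [hvx r hr']; exact hker' r hr'
  have key := val_veluFactor_kernel_model (v := v) h2K hva hvb hb0 hT' (p := p) (Q := Q') hik hTi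
    hker''
  rw [hfac, hdiff, ← Finset.prod_congr rfl hvx]
  exact key

example : Fermat.Agent.M12.Contracts4.LeafKernel := @val_veluFactor_kernel

end Fermat.Agent.M12.KerModel2
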