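/-
M12 (helper2): the leaves **L3c, L3c', L3d** of programme M12, with the literal signatures of
`Contracts4` (`LeafKernel`, `LeafCofixedKernel`, `LeafNotMem`).

* `val_veluFactor_kernel`     (L3c, `KerModel2`)  : every nonzero multiple of `Q` in the kernel of
  reduction at `A ∣ ℓ`, `ℓ` odd (`ℓ = p` allowed) ⇒
  `v (F(i,k)) * ∏_r v (x(rQ)) = v (x(T_i) - x(T_k)) ^ (p - 1)`;
* `cofixed_in_kernel`         (L3c', `KerCofixed2`): a Galois-stable (cofixed) line of the Frey curve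
  is the kernel of reduction at every place over `p`;
* `val_veluFactor_of_notMem`  (L3d, `KerNotMem2`) : `x(T_k) ∉ A`, `x(T_i) ∈ A`, `A ∣ ℓ ≠ p`
  (`ℓ = 2` allowed) ⇒ `v (F(i,k)) = 1`.
Imported by no statement.
-/
import Mathlib
import Fermat.Agent.M12.KerNotMem2
import Fermat.Agent.M12.KerModel2
import Fermat.Agent.M12.KerCofixed2

set_option autoImplicit false
set_option linter.unusedVariables false

open WeierstrassCurve WeierstrassCurve.Affine

namespace Fermat.Agent.M12.FactorKer2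

open Fermat.Agent.M12.Defs4 Fermat.Agent.M15.DictDefs8

/-- **L3c**. -/
theorem val_veluFactor_kernel {ℓ : ℕ} (hℓ : ℓ.Prime) (hℓ2 : ℓ ≠ 2) {p : ℕ} (hp : p.Prime)
    (hp2 : p ≠ 2) (W : WeierstrassCurve ℤ) (hΔ : W.Δ ≠ 0) (A : ValuationSubring Qb)
    (hA : A.LiesOverPrime ℓ) (T : Fin 3 → Pt W) (hT : IsTwoTors T) (Q : Pt W)
    (hQ : addOrderOf Q = p) (hker : ∀ r ∈ Finset.Icc 1 (p - 1), xOf (r • Q) ∉ A) {i k : Fin 3}
    (hik : i ≠ k) :
    A.valuation (veluFactor T Q p i k) * ∏ r ∈ Finset.Icc 1 (p - 1), A.valuation (xOf (r • Q)) =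
      A.valuation (xOf (T i) - xOf (T k)) ^ (p - 1) :=
  Fermat.Agent.M12.KerModel2.val_veluFactor_kernel hℓ hℓ2 hp hp2 W hΔ A hA T hT Q hQ hker hik

/-- **L3c'**. -/
theorem cofixed_in_kernel (P : FreyPackage) (Q : Pt P.freyCurveInt) (hQ : addOrderOf Q = P.p)
    (hst : IsStable Q) (hcof : IsCofixed Q P.p) (A : ValuationSubring Qb)
    (hA : A.LiesOverPrime P.p) : ∀ r ∈ Finset.Icc 1 (P.p - 1), xOf (r • Q) ∉ A :=
  Fermat.Agent.M12.KerCofixed2.cofixed_in_kernel P Q hQ hst hcof A hA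

/-- **L3d**. -/
theorem val_veluFactor_of_notMem {ℓ : ℕ} (hℓ : ℓ.Prime) {p : ℕ} (hp : p.Prime) (hp2 : p ≠ 2)
    (hℓp : ℓ ≠ p) (W : WeierstrassCurve ℤ) (hΔ : W.Δ ≠ 0) (A : ValuationSubring Qb)
    (hA : A.LiesOverPrime ℓ) (T : Fin 3 → Pt W) (hT : IsTwoTors T) (Q : Pt W)
    (hQ : addOrderOf Q = p) {i k : Fin 3} (hik : i ≠ k) (hk : xOf (T k) ∉ A)
    (hi : xOf (T i) ∈ A) : A.valuation (veluFactor T Q p i k) = 1 :=
  Fermat.Agent.M12.KerNotMem2.val_veluFactor_of_notMem hℓ hp hp2 hℓp W hΔ A hA T hT Q hQ hik hk hi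

example : Fermat.Agent.M12.Contracts4.LeafKernel := @val_veluFactor_kernel
example : Fermat.Agent.M12.Contracts4.LeafCofixedKernel := @cofixed_in_kernel
example : Fermat.Agent.M12.Contracts4.LeafNotMem := @val_veluFactor_of_notMem

end Fermat.Agent.M12.FactorKer2
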