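import Mathlib
import Fermat.Agent.M12.Contracts4
import Fermat.Agent.M12.LocToric8
import Fermat.Agent.S05.Kernel

/-!
# M12, leaves (L3c) + (L3d) (helper8)

* `val_veluFactor_of_notMem` (L3d, `Contracts4.LeafNotMem`): if `T k` is in the kernel of
  reduction at `A ∣ ℓ` (`ℓ ≠ p` any prime, `ℓ = 2` allowed) and `T i` is not, the Vélu factor
  `F(i,k)` is a unit at `A`;
* `val_veluFactor_kernel` (L3c, `Contracts4.LeafKernel`): if every nonzero multiple of `Q` is in
  the kernel of reduction at `A ∣ ℓ` (`ℓ` odd, `ℓ = p` allowed), then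
  `v (F(i,k)) · ∏_r v (x(rQ)) = v (e_i - e_k) ^ (p - 1)`.
-/

set_option autoImplicit false
set_option linter.unusedSectionVars false
set_option linter.unusedVariables false

open WeierstrassCurve WeierstrassCurve.Affine

namespace Fermat.Agent.M12.FactorKer8

open Fermat.Agent.S05 Fermat.Agent.S05.Transport Fermat.Agent.S05.Inertia
  Fermat.Agent.M15.DictDefs8 Fermat.Agent.M15.LocModel8 Fermat.Agent.M15.LocCaseA8
  Fermat.Agent.M15.LocNormal8 Fermat.Agent.M15.LocInt8 Fermat.Agent.M15.LocZero8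
  Fermat.Agent.M12.LocToric8 Fermat.Agent.M12.Defs4

/-! ### (L3d): a general Weierstrass curve with integral coefficients -/

section NotMem

variable {K : Type*} [Field K] [DecidableEq K] {Γ₀ : Type*} [LinearOrderedCommGroupWithZero Γ₀]
  {v : Valuation K Γ₀} {E : WeierstrassCurve.Affine K}

theorem v_xOf_le_one_of_not_inE1 {P : E.Point} (h : ¬ Kernel.InE1 v P) : v (xOf P) ≤ 1 := by
  rcases P with _ | ⟨x, y, hxy⟩
  · exact absurd (Kernel.inE1_zero v) h
  · by_contra hx
    exact h ((Kernel.inE1_some v hxy).2 (not_le.1 hx))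

theorem inE1_of_one_lt {P : E.Point} (h : 1 < v (xOf P)) : Kernel.InE1 v P := by
  rcases P with _ | ⟨x, y, hxy⟩
  · exact Kernel.inE1_zero v
  · exact (Kernel.inE1_some v hxy).2 h

theorem one_lt_of_inE1 {P : E.Point} (h0 : P ≠ 0) (h : Kernel.InE1 v P) : 1 < v (xOf P) := by
  rcases P with _ | ⟨x, y, hxy⟩
  · exact absurd rfl h0
  · exact (Kernel.inE1_some v hxy).1 h

/-- an odd multiple of a point of order two is the point itself. -/
theorem odd_nsmul_two_tors {G : Type*} [AddCommGroup G] {S : G} (hS : 2 • S = 0) {p : ℕ}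
    (hp : Odd p) : p • S = S := by
  obtain ⟨m, rfl⟩ := hp
  rw [add_nsmul, mul_nsmul, hS, smul_zero, zero_add, one_nsmul]

/-- **(L3d), general form**: the Vélu factor `F(i,k)` is a unit when `T k` is in the kernel of
reduction and `T i` is not. -/
theorem val_veluFactor_notMem (hW : Kernel.IntegralCoeffs v E) {T : Fin 3 → E.Point}
    (hT : IsTwoTors T) {p : ℕ} (hp : p.Prime) (hp2 : p ≠ 2) (hvp : v (p : K) = 1) {Q : E.Point}
    (hQ : addOrderOf Q = p) {i k : Fin 3} (hk : 1 < v (xOf (T k))) (hi : v (xOf (T i)) ≤ 1) :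
    v (veluFactor T Q p i k) = 1 := by
  have hodd : Odd p := hp.odd_of_ne_two hp2
  have hterm : ∀ r ∈ Finset.Icc 1 (p - 1),
      v ((xOf (T k) - xOf (T i + r • Q)) / (xOf (T k) - xOf (r • Q))) = 1 := by
    intro r hr
    have hpR : p • (r • Q) = 0 := nsmul_nsmul_eq_zero hQ r
    have hR0 : r • Q ≠ 0 := nsmul_ne_zero_of_mem hQ hr
    -- `rQ ∉ E¹`
    have hR1 : ¬ Kernel.InE1 v (r • Q) := fun h =>
      hR0 (Kernel.eq_zero_of_nsmul_eq_zero hW h hvp hpR)
    -- `T_i + rQ ∉ E¹`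
    have hS1 : ¬ Kernel.InE1 v (T i + r • Q) := by
      intro h
      have h' : Kernel.InE1 v (p • (T i + r • Q)) :=
        (Kernel.E1 v E hW).nsmul_mem ((Kernel.mem_E1 hW).2 h) p
      rw [smul_add, hpR, add_zero, odd_nsmul_two_tors (hT.2 i).2 hodd] at h'
      exact absurd hi (not_le.2 (one_lt_of_inE1 (hT.2 i).1 h'))
    have hx1 := v_xOf_le_one_of_not_inE1 hR1
    have hx2 := v_xOf_le_one_of_not_inE1 hS1
    rw [map_div₀, Valuation.map_sub_eq_of_lt_left v (hx2.trans_lt hk),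
      Valuation.map_sub_eq_of_lt_left v (hx1.trans_lt hk)]
    exact div_self (ne_of_gt (lt_trans zero_lt_one hk))
  rw [veluFactor, map_prod, Finset.prod_congr rfl hterm, Finset.prod_const_one]

end NotMem

local notation "Qb'" => AlgebraicClosure ℚ

/-- **(L3d)** `Contracts4.LeafNotMem`. -/
theorem val_veluFactor_of_notMem {ℓ : ℕ} (hℓ : ℓ.Prime) {p : ℕ} (hp : p.Prime) (hp2 : p ≠ 2)
    (hℓp : ℓ ≠ p) (W : WeierstrassCurve ℤ) (hΔ : W.Δ ≠ 0) (A : ValuationSubring Qb)
    (hA : A.LiesOverPrime ℓ) (T : Fin 3 → Pt W) (hT : IsTwoTors T) (Q : Pt W)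
    (hQ : addOrderOf Q = p) {i k : Fin 3} (hik : i ≠ k) (hk : xOf (T k) ∉ A)
    (hi : xOf (T i) ∈ A) : A.valuation (veluFactor T Q p i k) = 1 := by
  have hvp : A.valuation (p : Qb) = 1 := valuation_prime_eq_one hℓ hA hp hℓp
  have hW : Kernel.IntegralCoeffs A.valuation
      ((W.map (Int.castRingHom ℚ)).baseChange Qb).toAffine := by
    refine ⟨?_, ?_, ?_, ?_, ?_⟩ <;>
    · simp only [WeierstrassCurve.baseChange, map_a₁, map_a₂, map_a₃, map_a₄, map_a₆, eq_intCast,
        map_intCast]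
      exact valuation_intCast_le_one _
  refine val_veluFactor_notMem hW hT hp hp2 hvp hQ ?_ ?_
  · exact not_le.1 fun h => hk ((A.valuation_le_one_iff _).1 h)
  · exact (A.valuation_le_one_iff _).2 hi

/-! ### (L3c): the model -/

section Model

variable {K : Type*} [Field K] [DecidableEq K] {Γ₀ : Type*} [LinearOrderedCommGroupWithZero Γ₀]
  {v : Valuation K Γ₀} {a b : K}

/-- one term of the Vélu factor `F(i,k)` when `T i = T0` and `R` is in the kernel of reduction. -/
theorem v_term_kernel (h2K : (2 : K) ≠ 0) (ha : v a ≤ 1) (hb : v b ≤ 1) (hb0 : b ≠ 0)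
    {T : Fin 3 → (Wab a b).toAffine.Point} (hT : IsTwoTors T) {i k : Fin 3} (hik : i ≠ k)
    (hTi : T i = T0 hb0) {R : (Wab a b).toAffine.Point} (hR : 1 < v (xOf R)) :
    v ((xOf (T k) - xOf (T i + R)) / (xOf (T k) - xOf R)) =
      v (xOf (T i) - xOf (T k)) / v (xOf R) := by
  have hR0 : R ≠ 0 := by
    rintro rfl
    rw [xOf_zero, map_zero] at hR
    exact absurd hR (not_lt.2 zero_le)
  have hRT0 : R ≠ T0 hb0 := by
    rintro rfl
    rw [xOf_T0, map_zero] at hR
    exact absurd hR (not_lt.2 zero_le)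
  have hxR0 : 0 < v (xOf R) := lt_trans zero_lt_one hR
  obtain ⟨e, hns, hTe, hcub⟩ := exists_of_two_tors h2K (hT.2 k).1 (hT.2 k).2
  have hxe : xOf (T k) = e := by rw [hTe]; rfl
  have hTk : T k ≠ T0 hb0 := by
    intro h; exact hik (hT.1 (hTi.trans h.symm))
  have he0 : e ≠ 0 := by
    intro h0
    rw [← hxe] at h0
    rcases (xOf_eq_zero_iff hb0 (T k)).1 h0 with h | h
    · exact (hT.2 k).1 h
    · exact hTk h
  have hquad : e ^ 2 + a * e + b = 0 := by
    have : e * (e ^ 2 + a * e + b) = 0 := by linear_combination hcub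
    exact (mul_eq_zero.1 this).resolve_left he0
  have hve : v e ≤ 1 := v_le_one_of_quadratic v ha hb hquad
  have hvb : v b ≤ v e := by
    have e1 : b = -(e * (e + a)) := by linear_combination hquad
    have h1 : v (e + a) ≤ 1 := Valuation.map_add_le v hve ha
    rw [e1, Valuation.map_neg, map_mul]
    calc v e * v (e + a) ≤ v e * 1 := mul_le_mul_right h1 _
      _ = v e := mul_one _
  have hvb0 : 0 < v b := zero_lt_iff.2 ((Valuation.ne_zero_iff v).2 hb0)
  have hadd : xOf (T i + R) = b / xOf R := by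
    rw [hTi, add_comm, xOf_add_T0 hb0 hR0 hRT0]
  have hsmall : v (b / xOf R) < v e := by
    rw [map_div₀]
    refine lt_of_lt_of_le ?_ hvb
    rw [div_lt_iff₀ hxR0]
    calc v b = v b * 1 := (mul_one _).symm
      _ < v b * v (xOf R) := mul_lt_mul_of_pos_left hR hvb0
  have hnum : v (e - b / xOf R) = v e := Valuation.map_sub_eq_of_lt_left v hsmall
  have hden : v (e - xOf R) = v (xOf R) :=
    Valuation.map_sub_eq_of_lt_right v (hve.trans_lt hR)
  have hdiff : v (xOf (T i) - xOf (T k)) = v e := by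
    rw [hTi, xOf_T0, hxe, zero_sub, Valuation.map_neg]
  rw [hdiff, hxe, hadd, map_div₀, hnum, hden]

/-- **(L3c), model.** -/
theorem val_veluFactor_kernel_model (h2K : (2 : K) ≠ 0) (ha : v a ≤ 1) (hb : v b ≤ 1)
    (hb0 : b ≠ 0) {T : Fin 3 → (Wab a b).toAffine.Point} (hT : IsTwoTors T) {i k : Fin 3}
    (hik : i ≠ k) (hTi : T i = T0 hb0) {Q : (Wab a b).toAffine.Point} {p : ℕ}
    (hker : ∀ r ∈ Finset.Icc 1 (p - 1), 1 < v (xOf (r • Q))) :
    v (veluFactor T Q p i k) * ∏ r ∈ Finset.Icc 1 (p - 1), v (xOf (r • Q)) =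
      v (xOf (T i) - xOf (T k)) ^ (p - 1) := by
  have hterm : ∀ r ∈ Finset.Icc 1 (p - 1),
      v ((xOf (T k) - xOf (T i + r • Q)) / (xOf (T k) - xOf (r • Q))) =
        v (xOf (T i) - xOf (T k)) / v (xOf (r • Q)) :=
    fun r hr => v_term_kernel h2K ha hb hb0 hT hik hTi (hker r hr)
  have hne : ∏ r ∈ Finset.Icc 1 (p - 1), v (xOf (r • Q)) ≠ 0 := by
    rw [Finset.prod_ne_zero_iff]
    intro r hr
    exact ne_of_gt (lt_trans zero_lt_one (hker r hr))
  rw [veluFactor, map_prod, Finset.prod_congr rfl hterm, Finset.prod_div_distrib,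
    Finset.prod_const, Nat.card_Icc, Nat.add_sub_cancel, div_mul_cancel₀ _ hne]

end Model

/-! ### (L3c): transfer -/

section TwoTors

variable {K : Type*} [Field K] [DecidableEq K]

/-- the abscissa of a point of order two is a root of the `2`-division polynomial. -/
theorem gOf_xOf_of_two_tors {E : WeierstrassCurve K} {P : E.toAffine.Point} (h0 : P ≠ 0)
    (h2 : 2 • P = 0) : gOf E (xOf P) = 0 := by
  rcases P with _ | ⟨x, y, h⟩
  · exact absurd rfl h0
  · rw [two_nsmul, add_eq_zero_iff_eq_neg, Point.neg_some] at h2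
    have hy : y = E.toAffine.negY x y := ((Point.some.injEq ..).mp h2).2
    have heq := (equation_iff x y).1 h.1
    simp only [negY] at hy
    show gOf E x = 0
    unfold gOf
    simp only [b₂, b₄, b₆]
    linear_combination (2 * y + E.a₁ * x + E.a₃) * hy - 4 * heq

end TwoTors

/-- **(L3c)** `Contracts4.LeafKernel`. -/
theorem val_veluFactor_kernel {ℓ : ℕ} (hℓ : ℓ.Prime) (hℓ2 : ℓ ≠ 2) {p : ℕ} (hp : p.Prime)
    (hp2 : p ≠ 2) (W : WeierstrassCurve ℤ) (hΔ : W.Δ ≠ 0) (A : ValuationSubring Qb)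
    (hA : A.LiesOverPrime ℓ) (T : Fin 3 → Pt W) (hT : IsTwoTors T) (Q : Pt W)
    (hQ : addOrderOf Q = p) (hker : ∀ r ∈ Finset.Icc 1 (p - 1), xOf (r • Q) ∉ A) {i k : Fin 3}
    (hik : i ≠ k) :
    A.valuation (veluFactor T Q p i k) * ∏ r ∈ Finset.Icc 1 (p - 1), A.valuation (xOf (r • Q)) =
      A.valuation (xOf (T i) - xOf (T k)) ^ (p - 1) := by
  set v := A.valuation with hv
  set E : WeierstrassCurve Qb := (W.map (Int.castRingHom ℚ)).baseChange Qb with hEdef
  have h2 : v (2 : Qb) = 1 := valuation_two_eq_one hℓ hA hℓ2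
  have h2K : (2 : Qb) ≠ 0 := two_ne_zero
  have hEb2 : E.b₂ = ((W.b₂ : ℤ) : Qb) := by
    simp only [hEdef, WeierstrassCurve.baseChange, map_b₂, eq_intCast, map_intCast]
  have hEb4 : E.b₄ = ((W.b₄ : ℤ) : Qb) := by
    simp only [hEdef, WeierstrassCurve.baseChange, map_b₄, eq_intCast, map_intCast]
  have hEb6 : E.b₆ = ((W.b₆ : ℤ) : Qb) := by
    simp only [hEdef, WeierstrassCurve.baseChange, map_b₆, eq_intCast, map_intCast]
  have hEΔ : E.Δ = ((W.Δ : ℤ) : Qb) := by
    simp only [hEdef, WeierstrassCurve.baseChange, map_Δ, eq_intCast, map_intCast]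
  have hΔ0 : E.Δ ≠ 0 := by rw [hEΔ]; exact_mod_cast hΔ
  have hb₂ : v E.b₂ ≤ 1 := by rw [hEb2]; exact valuation_intCast_le_one _
  have hb₄ : v E.b₄ ≤ 1 := by rw [hEb4]; exact valuation_intCast_le_one _
  have hb₆ : v E.b₆ ≤ 1 := by rw [hEb6]; exact valuation_intCast_le_one _
  -- the root
  set ρ : Qb := xOf (T i) with hρ
  have hroot : gOf E ρ = 0 := gOf_xOf_of_two_tors (E := E) (hT.2 i).1 (hT.2 i).2
  have hvρ : v ρ ≤ 1 := v_root_le_one h2 hb₂ hb₄ hb₆ hroot
  have h := wab_eq h2K hroot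
  have hu : ((vcOf E ρ).u : Qb) = 1 := rfl
  have hCr : (vcOf E ρ).r = ρ := rfl
  -- integrality of the model
  have h3 : v (3 : Qb) ≤ 1 := by
    have := v_natCast_le_one v 3
    simpa using this
  have h4 : v (4 : Qb) = 1 := (v_ofNat v h2).1
  have hmul : ∀ x y : Qb, v x ≤ 1 → v y ≤ 1 → v (x * y) ≤ 1 := by
    intro x y hx hy
    rw [map_mul]
    calc v x * v y ≤ 1 * 1 := mul_le_mul' hx hy
      _ = 1 := one_mul 1
  have hdiv2 : ∀ x : Qb, v x ≤ 1 → v (x / 2) ≤ 1 := by
    intro x hx; rw [map_div₀, h2, div_one]; exact hx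
  have hdiv4 : ∀ x : Qb, v x ≤ 1 → v (x / 4) ≤ 1 := by
    intro x hx; rw [map_div₀, h4, div_one]; exact hx
  have hva : v (aOf E ρ) ≤ 1 := by
    unfold aOf
    exact Valuation.map_add_le v (hmul _ _ h3 hvρ) (hdiv4 _ hb₂)
  have hvb : v (bOf E ρ) ≤ 1 := by
    unfold bOf
    refine Valuation.map_add_le v (Valuation.map_add_le v (hmul _ _ h3 ?_) ?_) (hdiv2 _ hb₄)
    · rw [map_pow]; exact pow_le_one₀ zero_le hvρ
    · exact hmul _ _ (hdiv2 _ hb₂) hvρ
  have hb0 : bOf E ρ ≠ 0 := by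
    intro h0
    apply hΔ0
    rw [Δ_eq h2K hroot, h0]; ring
  -- transport
  set T' : Fin 3 → (Wab (aOf E ρ) (bOf E ρ)).toAffine.Point :=
    fun i => (pointEquiv h).symm (T i) with hT'def
  set Q' : (Wab (aOf E ρ) (bOf E ρ)).toAffine.Point := (pointEquiv h).symm Q with hQ'def
  have hT' : IsTwoTors T' := isTwoTors_symm h hT
  have hQ' : addOrderOf Q' = p := by rw [hQ'def, addOrderOf_symm h Q, hQ]
  have hTT : (fun i => pointEquiv h (T' i)) = T := by
    funext i; simp [hT'def]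
  have hQQ : pointEquiv h Q' = Q := by simp [hQ'def]
  have hfac : veluFactor T Q p i k = veluFactor T' Q' p i k := by
    have := veluFactor_pointEquiv h hT' hp hp2 hQ' i k
    rw [hTT, hQQ] at this
    exact this
  have hx : ∀ P' : (Wab (aOf E ρ) (bOf E ρ)).toAffine.Point, P' ≠ 0 →
      xOf (pointEquiv h P') = xOf P' + ρ := by
    intro P' hP'
    rw [xOf_pointEquiv h hP', hu, one_pow, one_mul, hCr]
  have hdiff : xOf (T i) - xOf (T k) = xOf (T' i) - xOf (T' k) := by
    have := xOf_sub_pointEquiv h (hT'.2 i).1 (hT'.2 k).1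
    rw [hu, one_pow, one_mul] at this
    rw [← this]
    simp [hT'def]
  -- `T' i = T0`
  have hTi : T' i = T0 hb0 := by
    have h1 := hx (T' i) (hT'.2 i).1
    have h2' : pointEquiv h (T' i) = T i := by simp [hT'def]
    rw [h2', ← hρ] at h1
    have h0 : xOf (T' i) = 0 := by linear_combination -h1
    rcases (xOf_eq_zero_iff hb0 (T' i)).1 h0 with h' | h'
    · exact absurd h' (hT'.2 i).1
    · exact h'
  -- the kernel
  have hmulQ : ∀ r : ℕ, pointEquiv h (r • Q') = r • Q := by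
    intro r; rw [map_nsmul, hQQ]
  have hkerv : ∀ r ∈ Finset.Icc 1 (p - 1), 1 < v (xOf (r • Q)) := fun r hr =>
    not_le.1 fun hle => hker r hr ((A.valuation_le_one_iff _).1 hle)
  have hxr : ∀ r ∈ Finset.Icc 1 (p - 1), v (xOf (r • Q')) = v (xOf (r • Q)) := by
    intro r hr
    have hR0 : r • Q' ≠ 0 := nsmul_ne_zero_of_mem hQ' hr
    have h1 := hx (r • Q') hR0
    rw [hmulQ r] at h1
    have e : xOf (r • Q') = xOf (r • Q) - ρ := by linear_combination -h1
    rw [e]
    exact Valuation.map_sub_eq_of_lt_left v (hvρ.trans_lt (hkerv r hr))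
  have hker' : ∀ r ∈ Finset.Icc 1 (p - 1), 1 < v (xOf (r • Q')) := fun r hr => by
    rw [hxr r hr]; exact hkerv r hr
  rw [hfac, hdiff, ← Finset.prod_congr rfl hxr]
  exact val_veluFactor_kernel_model h2K hva hvb hb0 hT' hik hTi hker'

/-! ### the contracts -/

example : Contracts4.LeafKernel := @val_veluFactor_kernel
example : Contracts4.LeafNotMem := @val_veluFactor_of_notMem

end Fermat.Agent.M12.FactorKer8
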