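import Mathlib
import Fermat.Agent.M12.Defs4
import Fermat.Agent.M12.LocToric8
import Fermat.Agent.M12.LocGood8

/-!
# M12, leaves (L3a) + (L3b) with the literal signatures of the leaf list (helper8)

* `val_veluFactor_toric`: at an odd prime `ℓ ≠ p` of multiplicative reduction with the kernel in
  the zero component, `v (F(i,k)) = v (e_i - e_k) ^ (p - 1)`;
* `val_veluFactor_good`: at an odd prime `ℓ ≠ p` of good reduction, `F(i,k)` and `e_i - e_k` are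
  units.
-/

set_option autoImplicit false
set_option linter.unusedSectionVars false
set_option linter.unusedVariables false

open WeierstrassCurve WeierstrassCurve.Affine

namespace Fermat.Agent.M12.FactorLoc8

open Fermat.Agent.M12.Defs4 Fermat.Agent.M15.DictDefs8

/-- **(L3a)** -/
theorem val_veluFactor_toric {ℓ : ℕ} (hℓ : ℓ.Prime) (hℓ2 : ℓ ≠ 2) {p : ℕ} (hp : p.Prime)
    (hp2 : p ≠ 2) (hℓp : ℓ ≠ p) (W : WeierstrassCurve ℤ) (hΔ : W.Δ ≠ 0) (hℓΔ : (ℓ : ℤ) ∣ W.Δ)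
    (hℓc : ¬ (ℓ : ℤ) ∣ W.c₄) (A : ValuationSubring Qb) (hA : A.LiesOverPrime ℓ)
    (T : Fin 3 → Pt W) (hT : IsTwoTors T) (Q : Pt W) (hQ : addOrderOf Q = p)
    (hz : W.InZeroComponentAt A Q) {i k : Fin 3} (hik : i ≠ k) :
    A.valuation (veluFactor T Q p i k) = A.valuation (xOf (T i) - xOf (T k)) ^ (p - 1) :=
  LocToric8.val_veluFactor_of_inZero hℓ hℓ2 hp hp2 hℓp W hΔ hℓΔ hℓc A hA T hT Q hQ hz hik

/-- **(L3b)** -/
theorem val_veluFactor_good {ℓ : ℕ} (hℓ : ℓ.Prime) (hℓ2 : ℓ ≠ 2) {p : ℕ} (hp : p.Prime)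
    (hp2 : p ≠ 2) (hℓp : ℓ ≠ p) (W : WeierstrassCurve ℤ) (hΔ : W.Δ ≠ 0)
    (hℓΔ : ¬ (ℓ : ℤ) ∣ W.Δ) (A : ValuationSubring Qb) (hA : A.LiesOverPrime ℓ)
    (T : Fin 3 → Pt W) (hT : IsTwoTors T) (Q : Pt W) (hQ : addOrderOf Q = p) {i k : Fin 3}
    (hik : i ≠ k) :
    A.valuation (veluFactor T Q p i k) = 1 ∧ A.valuation (xOf (T i) - xOf (T k)) = 1 :=
  ⟨LocGood8.val_veluFactor_of_good hℓ hℓ2 hp hp2 hℓp W hℓΔ A hA T hT Q hQ i k,
    LocGood8.val_xOf_sub_of_good hℓ hℓ2 W hℓΔ A hA T hT hik⟩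

end Fermat.Agent.M12.FactorLoc8
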