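/-
M12 (helper2), leaf L2, group-theoretic part (Mathlib only): **products of an even function over the
nonzero multiples of a point of odd prime order.**

`Q` of order `p` (odd prime) in an additive group, `t` an even function (`t (-R) = t R`) with values
in a commutative monoid:

* `prod_full_eq_sq`  : `∏_{r=1}^{p-1} t (r • Q) = (∏_{x=1}^{(p-1)/2} t (x • Q)) ^ 2`;
* `prod_half_mul`    : `∏_{x=1}^{(p-1)/2} t ((x * k) • Q) = ∏_{x=1}^{(p-1)/2} t (x • Q)` for `p ∤ k`
  (Gauss' lemma: `x ↦ ±(k x) mod p` permutes `1, …, (p-1)/2`).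
Imported by no statement.
-/
import Mathlib

set_option autoImplicit false
set_option linter.unusedSectionVars false
set_option linter.unusedVariables false

namespace Fermat.Agent.M12.HalfProd2

open Finset

variable {G : Type*} [AddGroup G] {M : Type*} [CommMonoid M] {p : ℕ} [hp : Fact p.Prime] {Q : G}

/-- multiples of `Q` only depend on the residue class mod `p`. -/
theorem nsmul_eq_of_natCast_eq (hQ : addOrderOf Q = p) {n m : ℕ}
    (h : (n : ZMod p) = (m : ZMod p)) : n • Q = m • Q := by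
  rw [ZMod.natCast_eq_natCast_iff'] at h
  rw [← mod_addOrderOf_nsmul, ← mod_addOrderOf_nsmul Q m, hQ, h]

theorem nsmul_eq_neg_of_natCast_eq (hQ : addOrderOf Q = p) {n m : ℕ}
    (h : (n : ZMod p) = -(m : ZMod p)) : n • Q = -(m • Q) := by
  have h0 : ((n + m : ℕ) : ZMod p) = ((0 : ℕ) : ZMod p) := by
    push_cast; rw [h]; ring
  have := nsmul_eq_of_natCast_eq hQ h0
  rw [zero_nsmul, add_nsmul] at this
  exact eq_neg_of_add_eq_zero_left this

variable (t : G → M) (ht : ∀ R, t (-R) = t R)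

include ht in
/-- an even function at `n • Q` only depends on `± n mod p`. -/
theorem t_nsmul_natAbs_valMinAbs (hQ : addOrderOf Q = p) (a : ZMod p) :
    t (a.valMinAbs.natAbs • Q) = t (a.val • Q) := by
  haveI : NeZero p := ⟨hp.out.ne_zero⟩
  have h := ZMod.natCast_natAbs_valMinAbs a
  split_ifs at h with hle
  · rw [nsmul_eq_of_natCast_eq hQ (h.trans (ZMod.natCast_zmod_val a).symm)]
  · have h' : ((a.valMinAbs.natAbs : ℕ) : ZMod p) = -((a.val : ℕ) : ZMod p) := by
      rw [h, ZMod.natCast_zmod_val]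
    rw [nsmul_eq_neg_of_natCast_eq hQ h', ht]

include ht in
/-- **Gauss' lemma for even functions**: multiplication by `k` prime to `p` permutes the classes
`± x`, `1 ≤ x ≤ (p-1)/2`. -/
theorem prod_half_mul (hQ : addOrderOf Q = p) {k : ℕ} (hk : ¬ p ∣ k) :
    ∏ x ∈ Ico 1 (p / 2).succ, t ((x * k) • Q) = ∏ x ∈ Ico 1 (p / 2).succ, t (x • Q) := by
  haveI : NeZero p := ⟨hp.out.ne_zero⟩
  set a : ZMod p := (k : ZMod p) with ha
  have ha0 : a ≠ 0 := by
    rw [ha, Ne, ZMod.natCast_eq_zero_iff]; exact hk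
  have h1 : ∀ x : ℕ, t ((x * k) • Q) = t ((a * x).valMinAbs.natAbs • Q) := by
    intro x
    rw [t_nsmul_natAbs_valMinAbs t ht hQ]
    congr 1
    apply nsmul_eq_of_natCast_eq hQ
    rw [ZMod.natCast_zmod_val, ha]
    push_cast; ring
  have hG := ZMod.Ico_map_valMinAbs_natAbs_eq_Ico_map_id p a ha0
  have h2 : (∏ x ∈ Ico 1 (p / 2).succ, t ((a * x).valMinAbs.natAbs • Q)) =
      (((Ico 1 (p / 2).succ).1.map fun x : ℕ => (a * x).valMinAbs.natAbs).map
        fun n : ℕ => t (n • Q)).prod := by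
    rw [Multiset.map_map]; rfl
  have h3 : (∏ x ∈ Ico 1 (p / 2).succ, t (x • Q)) =
      (((Ico 1 (p / 2).succ).1.map fun x : ℕ => x).map fun n : ℕ => t (n • Q)).prod := by
    rw [Multiset.map_map]; rfl
  rw [Finset.prod_congr rfl fun x _ => h1 x, h2, h3, hG]

include ht in
/-- **the full product is the square of the half product.** -/
theorem prod_full_eq_sq (hQ : addOrderOf Q = p) (hp2 : p ≠ 2) :
    ∏ r ∈ Icc 1 (p - 1), t (r • Q) = (∏ x ∈ Ico 1 (p / 2).succ, t (x • Q)) ^ 2 := by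
  obtain ⟨m, hm⟩ := hp.out.odd_of_ne_two hp2
  have hdiv : p / 2 = m := by omega
  have hIcc : Icc 1 (p - 1) = Ico 1 (2 * m + 1) := by
    ext x; simp only [mem_Icc, mem_Ico]; omega
  rw [hdiv, hIcc, ← prod_Ico_consecutive (fun r => t (r • Q)) (show 1 ≤ m.succ by omega)
    (show m.succ ≤ 2 * m + 1 by omega), sq]
  congr 1
  have hrefl := prod_Ico_reflect (fun r => t (r • Q)) 1 (m := m.succ) (n := p) (by omega)
  have e1 : p + 1 - m.succ = m.succ := by omega
  have e2 : p + 1 - 1 = 2 * m + 1 := by omega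
  rw [e1, e2] at hrefl
  rw [← hrefl]
  refine Finset.prod_congr rfl fun x hx => ?_
  rw [mem_Ico] at hx
  show t ((p - x) • Q) = t (x • Q)
  have hxp : x ≤ p := by omega
  have h0 : ((p - x : ℕ) : ZMod p) = -((x : ℕ) : ZMod p) := by
    rw [Nat.cast_sub hxp, ZMod.natCast_self, zero_sub]
  rw [nsmul_eq_neg_of_natCast_eq hQ h0, ht]

end Fermat.Agent.M12.HalfProd2
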