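/-
M12 (helper4), leaf (1): **the Vélu cocycle identity**.  For a Weierstrass curve `Wq` over `ℚ`, a
point `Q ∈ E(ℚbar)` of odd prime order `p` and the three points `T` of order two, the quantities
`d i k := (x(T_i) - x(T_k)) · veluFactor T Q p i k` (`= e'_i - e'_k`, the differences of the
`2`-torsion abscissae of `E/⟨Q⟩` in Vélu's model) satisfy `d i j + d j k = d i k`.
Proof: analytic (`EllDisc8.sub_eq_mul_anFactor`, `VeluDefs7.veluFactor_Phi`), as in
`PlaceTau7.exists_tau`.  Imported by no statement.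
-/
import Fermat.Agent.M15.PlaceTau7

set_option autoImplicit false
set_option linter.unusedSectionVars false
set_option linter.unusedVariables false

open UpperHalfPlane hiding I
open scoped MatrixGroups PeriodPair

noncomputable section

namespace Fermat.Agent.M12.VeluCocycle4

open WeierstrassCurve WeierstrassCurve.Affine AlgebraicCurve
open Fermat.Agent.X0 Fermat.Agent.X0.PointPlacesD Fermat.Agent.X0.FF
open Fermat.Agent.RED.BASE.Unbranched14 Fermat.Agent.RED.BASE.Hauptmodul12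
open Fermat.Agent.M15.DictDefs8 Fermat.Agent.M15.VeluDefs7 Fermat.Agent.M15.VeluMap7
open Fermat.Agent.M15.Unif7 Fermat.Agent.M15.LatNorm7 Fermat.Agent.M15.LatCongr7
open Fermat.Agent.M15.TorsBasis7 Fermat.Agent.M15.PlaceVal7 Fermat.Agent.M15.PlaceTau7
open Fermat.Agent.M15.EllDisc8 Fermat.Agent.M15.EllHalf8 Fermat.Agent.M15.EllSub8

variable {p : ℕ} [NeZero p] (hp : p.Prime) (Wq : WeierstrassCurve ℚ) (hΔ : Wq.Δ ≠ 0)

include hp hΔ in
/-- **the `2`-torsion abscissae of `E/⟨Q⟩`**: complex numbers `e'_i` with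
`e'_i - e'_k = ι((x(T_i) - x(T_k)) · veluFactor T Q p i k)` for every ordered pair. -/
theorem exists_velu_roots (hodd : Odd p) (Q : (Wq⁄Kbar).Point) (hQ : addOrderOf Q = p)
    (T : Fin 3 → (Wq⁄Kbar).Point) (hT : IsTwoTors T) :
    ∃ e' : Fin 3 → ℂ, ∀ i k : Fin 3, i ≠ k → e' i ≠ e' k ∧
      e' i - e' k = iotaK ((xOf (T i) - xOf (T k)) * veluFactor T Q p i k) := by
  have hΔc : (Wq⁄ℂ).Δ = ((Wq.Δ : ℚ) : ℂ) := by
    show (Wq.map (algebraMap ℚ ℂ)).Δ = _
    rw [WeierstrassCurve.map_Δ]; rfl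
  have hΔ' : ((Wq.Δ : ℚ) : ℂ) ≠ 0 := by exact_mod_cast hΔ
  have hΔc0 : (Wq⁄ℂ).Δ ≠ 0 := by rw [hΔc]; exact hΔ'
  obtain ⟨τ, c, hc, hL⟩ := exists_isUnif (Wq⁄ℂ) hΔc0
  have hQc_ord : addOrderOf (Point.map iotaA Q) = p := by rw [addOrderOf_map, hQ]
  obtain ⟨z, hz⟩ := Phi_surjective hL (Point.map iotaA Q)
  have hz_not : z ∉ (X0.LatticeEis.scalePair c hc (X0.LatticeEis.pairOfUHP τ)).lattice := by
    intro hmem
    have : Point.map iotaA Q = 0 := by rw [← hz, Phi_of_mem hL hmem]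
    rw [← AddMonoid.addOrderOf_eq_one_iff, hQc_ord] at this
    exact hp.one_lt.ne' this
  have hz_p : (p : ℂ) * z ∈ (X0.LatticeEis.scalePair c hc (X0.LatticeEis.pairOfUHP τ)).lattice := by
    rw [← Phi_eq_zero_iff hL, ← nsmul_Phi, hz, ← hQc_ord]
    exact addOrderOf_nsmul_eq_zero _
  obtain ⟨M, hlat, hcong, hτ⟩ := exists_adapted_basis _ hp hz_not hz_p
  have hM : IsUnif (Wq⁄ℂ) M := isUnif_congr hL hlat
  have hPhiM : Phi hM (M.ω₁ / p) = Point.map iotaA Q := by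
    rw [Phi_congr hL hM hlat, ← hz, Phi_eq_iff hL]
    exact hcong
  obtain ⟨w, hw, hwT⟩ := exists_halfTriple hM (isTwoTors_map iotaA hT)
  refine ⟨fun i => ℘[subPair M p] (w i), fun i k hik =>
    ⟨(halfTriple_subPair (p := p) hodd hwT).ne hik, ?_⟩⟩
  have hF := veluFactor_Phi hM p hodd hw hwT i k
  rw [hPhiM, veluFactor_map iotaA T Q p i k] at hF
  have hx : ∀ i, iotaK (xOf (T i)) = ℘[M] (w i) - (Wq⁄ℂ).b₂ / 12 := by
    intro i
    have h1 := xOf_Phi hM (hwT.half i).notMem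
    rw [hw i, xOf_map] at h1
    exact h1
  rw [sub_eq_mul_anFactor hodd hwT hik, map_mul, map_sub, hx i, hx k, ← hF]
  simp only [iotaA_apply]
  ring

include hp hΔ in
/-- **The Vélu cocycle identity.** -/
theorem velu_cocycle (hodd : Odd p) (Q : (Wq⁄Kbar).Point) (hQ : addOrderOf Q = p)
    (T : Fin 3 → (Wq⁄Kbar).Point) (hT : IsTwoTors T) {i j k : Fin 3} (hij : i ≠ j)
    (hjk : j ≠ k) (hik : i ≠ k) :
    (xOf (T i) - xOf (T j)) * veluFactor T Q p i j +
        (xOf (T j) - xOf (T k)) * veluFactor T Q p j k =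
      (xOf (T i) - xOf (T k)) * veluFactor T Q p i k := by
  obtain ⟨e', he'⟩ := exists_velu_roots hp Wq hΔ hodd Q hQ T hT
  apply iotaK.injective
  rw [map_add, ← (he' i j hij).2, ← (he' j k hjk).2, ← (he' i k hik).2]
  ring

include hp hΔ in
/-- the Vélu factors do not vanish. -/
theorem veluFactor_ne_zero (hodd : Odd p) (Q : (Wq⁄Kbar).Point) (hQ : addOrderOf Q = p)
    (T : Fin 3 → (Wq⁄Kbar).Point) (hT : IsTwoTors T) {i k : Fin 3} (hik : i ≠ k) :
    veluFactor T Q p i k ≠ 0 := by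
  obtain ⟨e', he'⟩ := exists_velu_roots hp Wq hΔ hodd Q hQ T hT
  obtain ⟨hne, heq⟩ := he' i k hik
  intro h0
  apply hne
  rw [h0, mul_zero, map_zero] at heq
  exact sub_eq_zero.mp heq

end Fermat.Agent.M12.VeluCocycle4
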