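/-
M12 (helper2), leaf L2: **the Vélu factors of a Galois-stable cyclic subgroup `⟨Q⟩` of odd prime order
`p` and rational `2`-torsion are positive rational numbers** (`Contracts4.LeafRatPos`).

`F(i,k) = ∏_{r=1}^{p-1} t (r • Q)`, `t R = (x(T_k) - x(T_i + R)) / (x(T_k) - x R)`.  The function `t` is
even (`x(-P) = x(P)`, `-T_i = T_i`) and Galois-equivariant (`σ (t R) = t (σ • R)`, `T` rational).  Hence
`F = G²` with `G = ∏_{x=1}^{(p-1)/2} t (x • Q)` (`HalfProd2.prod_full_eq_sq`) and `σ G = G`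
(`σ • Q = k • Q`, `p ∤ k`, Gauss' lemma `HalfProd2.prod_half_mul`): `G` is rational, and `F ≠ 0`
(`VeluCocycle4.veluFactor_ne_zero`).
Imported by no statement.
-/
import Mathlib
import Fermat.Agent.M12.Contracts4
import Fermat.Agent.M12.HalfProd2
import Fermat.Agent.M12.VeluCocycle4
import Fermat.Agent.S13.GalRat

set_option autoImplicit false
set_option linter.unusedSectionVars false
set_option linter.unusedVariables false
set_option linter.style.haveILetI false

open WeierstrassCurve WeierstrassCurve.Affine WeierstrassCurve.Affine.Point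

namespace Fermat.Agent.M12.FactorRat2

open Fermat.Agent.M15.DictDefs8 Fermat.Agent.M12.Defs4 Fermat.Agent.M12.HalfProd2

section General

variable {K : Type*} [Field K] [DecidableEq K] {E : Affine K}

/-- `x(-P) = x(P)`. -/
theorem xOf_neg' (P : E.Point) : xOf (-P) = xOf P := by
  rcases P with _ | ⟨x, y, h⟩
  · rfl
  · rw [Point.neg_some]; rfl

/-- one term of a Vélu factor. -/
def vterm (T : Fin 3 → E.Point) (i k : Fin 3) (R : E.Point) : K :=
  (xOf (T k) - xOf (T i + R)) / (xOf (T k) - xOf R)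

theorem vterm_neg {T : Fin 3 → E.Point} {i : Fin 3} (hT2 : 2 • T i = 0) (k : Fin 3)
    (R : E.Point) : vterm T i k (-R) = vterm T i k R := by
  have hneg : -T i = T i := by
    rw [two_nsmul] at hT2
    exact neg_eq_of_add_eq_zero_left hT2
  have e : T i + -R = -(T i + R) := by
    rw [neg_add, hneg]
  unfold vterm
  rw [e, xOf_neg', xOf_neg']

theorem veluFactor_eq_prod (T : Fin 3 → E.Point) (Q : E.Point) (p : ℕ) (i k : Fin 3) :
    veluFactor T Q p i k = ∏ r ∈ Finset.Icc 1 (p - 1), vterm T i k (r • Q) := rfl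

end General

section Galois

variable (Wq : WeierstrassCurve ℚ)

/-- the abscissa is Galois-equivariant. -/
theorem xOf_smul (σ : GQ) (P : (Wq⁄Qb).Point) : xOf (σ • P) = σ (xOf P) := by
  rcases P with _ | ⟨x, y, h⟩
  · exact (map_zero σ).symm
  · rfl

theorem smul_nsmul' (σ : GQ) (n : ℕ) (P : (Wq⁄Qb).Point) : σ • (n • P) = n • (σ • P) :=
  (Point.map σ.toAlgHom).map_nsmul n P

theorem vterm_smul {T : Fin 3 → (Wq⁄Qb).Point} (hT : ∀ (σ : GQ) (i : Fin 3), σ • T i = T i)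
    (σ : GQ) (i k : Fin 3) (R : (Wq⁄Qb).Point) :
    σ (vterm T i k R) = vterm T i k (σ • R) := by
  have hadd : σ • (T i + R) = T i + σ • R := by
    rw [smul_add σ (T i) R, hT σ i]
  unfold vterm
  rw [map_div₀, map_sub, map_sub, ← xOf_smul, ← xOf_smul, ← xOf_smul, hT σ k, hadd]

/-- **L2, over `ℚ`**. -/
theorem veluFactor_rat_pos_of_rat {p : ℕ} (hp : p.Prime) (hp2 : p ≠ 2) (hΔ : Wq.Δ ≠ 0)
    (Q : (Wq⁄Qb).Point) (hQ : addOrderOf Q = p) (hst : ∀ σ : GQ, ∃ k : ℕ, σ • Q = k • Q)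
    (T : Fin 3 → (Wq⁄Qb).Point) (hT : IsTwoTors T) (hTrat : ∀ (σ : GQ) (i : Fin 3), σ • T i = T i)
    {i k : Fin 3} (hik : i ≠ k) :
    ∃ q : ℚ, 0 < q ∧ veluFactor T Q p i k = algebraMap ℚ Qb q := by
  haveI : Fact p.Prime := ⟨hp⟩
  haveI : NeZero p := ⟨hp.ne_zero⟩
  have hodd : Odd p := hp.odd_of_ne_two hp2
  have heven : ∀ R : (Wq⁄Qb).Point, vterm T i k (-R) = vterm T i k R :=
    fun R => vterm_neg (hT.2 i).2 k R
  set G : Qb := ∏ x ∈ Finset.Ico 1 (p / 2).succ, vterm T i k (x • Q) with hG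
  have hFG : veluFactor T Q p i k = G ^ 2 := by
    rw [veluFactor_eq_prod]
    exact prod_full_eq_sq (vterm T i k) heven hQ hp2
  have hF0 : veluFactor T Q p i k ≠ 0 :=
    Fermat.Agent.M12.VeluCocycle4.veluFactor_ne_zero hp Wq hΔ hodd Q hQ T hT hik
  have hQ0 : Q ≠ 0 := by
    intro h
    rw [h, addOrderOf_zero] at hQ
    exact hp.one_lt.ne hQ
  -- `G` is Galois-fixed
  have hfix : ∀ σ : GQ, σ G = G := by
    intro σ
    obtain ⟨m, hm⟩ := hst σ
    have hpm : ¬ p ∣ m := by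
      intro hdvd
      have h0 : m • Q = 0 := by
        rw [← hQ] at hdvd
        exact addOrderOf_dvd_iff_nsmul_eq_zero.1 hdvd
      have h1 : σ • Q = 0 := hm.trans h0
      have h2 : σ⁻¹ • σ • Q = σ⁻¹ • (0 : (Wq⁄Qb).Point) := congrArg (σ⁻¹ • ·) h1
      rw [inv_smul_smul σ Q] at h2
      exact hQ0 h2
    rw [hG, map_prod]
    have hterm : ∀ x ∈ Finset.Ico 1 (p / 2).succ,
        σ (vterm T i k (x • Q)) = vterm T i k ((x * m) • Q) := by
      intro x _
      have hcomm : σ • (x • Q) = (x * m) • Q := by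
        rw [smul_nsmul' Wq σ x Q, hm, mul_nsmul']
      rw [vterm_smul Wq hTrat, hcomm]
    rw [Finset.prod_congr rfl hterm]
    exact prod_half_mul (vterm T i k) heven hQ hpm
  obtain ⟨g, hg⟩ := Fermat.Agent.S13.GalRat.exists_ratCast_of_fixed G hfix
  have hg0 : g ≠ 0 := by
    rintro rfl
    apply hF0
    rw [hFG, ← hg]; simp
  refine ⟨g ^ 2, by positivity, ?_⟩
  rw [hFG, ← hg, map_pow, eq_ratCast]

end Galois

/-- **L2** (`Contracts4.LeafRatPos`). -/
theorem veluFactor_rat_pos {p : ℕ} (hp : p.Prime) (hp2 : p ≠ 2) (W : WeierstrassCurve ℤ)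
    (hΔ : W.Δ ≠ 0) (Q : Pt W) (hQ : addOrderOf Q = p) (hst : IsStable Q) (T : Fin 3 → Pt W)
    (hT : IsRatTwoTors T) {i k : Fin 3} (hik : i ≠ k) :
    ∃ q : ℚ, 0 < q ∧ veluFactor T Q p i k = algebraMap ℚ Qb q := by
  have hΔq : (W.map (Int.castRingHom ℚ)).Δ ≠ 0 := by
    rw [WeierstrassCurve.map_Δ]
    simpa using hΔ
  exact veluFactor_rat_pos_of_rat (W.map (Int.castRingHom ℚ)) hp hp2 hΔq Q hQ hst T hT.1 hT.2 hik

example : Fermat.Agent.M12.Contracts4.LeafRatPos := @veluFactor_rat_pos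

end Fermat.Agent.M12.FactorRat2
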