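/-
M12 (helper4): the three rational points of order two of the integral Frey model
`y² + x y = x³ + a₂ x² + a₄ x` (`4 a₂ = B - 1 - A`, `16 a₄ = -A B`): `x = 0, A/4, -B/4`, `y = -x/2`.
Imported by no statement.
-/
import Fermat.Agent.M12.Defs4
import Fermat.Agent.Wire.FreyModel9
import Fermat.Agent.M15.TwoTors8

set_option autoImplicit false
set_option linter.unusedSectionVars false
set_option linter.unusedVariables false

open WeierstrassCurve WeierstrassCurve.Affine WeierstrassCurve.Affine.Point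

namespace Fermat.Agent.M12.FreyTors4

open Fermat.Agent.M12.Defs4 Fermat.Agent.M15.DictDefs8 Fermat.Agent.Wire.FreyModel9

variable (P : FreyPackage)

/-- `A = a^p`, `B = b^p`, `C = c^p` in `ℚ̄`. -/
noncomputable def cA : Qb := ((P.a ^ P.p : ℤ) : Qb)
noncomputable def cB : Qb := ((P.b ^ P.p : ℤ) : Qb)
noncomputable def cC : Qb := ((P.c ^ P.p : ℤ) : Qb)

theorem cA_add_cB : cA P + cB P = cC P := by
  unfold cA cB cC
  exact_mod_cast congrArg (fun z : ℤ => (z : Qb)) P.hFLT

theorem cA_ne_zero : cA P ≠ 0 := by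
  unfold cA; exact_mod_cast pow_ne_zero _ P.ha0

theorem cB_ne_zero : cB P ≠ 0 := by
  unfold cB; exact_mod_cast pow_ne_zero _ P.hb0

theorem cC_ne_zero : cC P ≠ 0 := by
  unfold cC; exact_mod_cast pow_ne_zero _ P.hc0

/-- the curve over `ℚ̄`. -/
noncomputable abbrev EQ : WeierstrassCurve Qb :=
  (P.freyCurveInt.map (Int.castRingHom ℚ)).baseChange Qb

theorem a₁_eq : (EQ P).a₁ = 1 := by simp [EQ, WeierstrassCurve.baseChange, freyCurveInt_a₁]
theorem a₃_eq : (EQ P).a₃ = 0 := by simp [EQ, WeierstrassCurve.baseChange, freyCurveInt_a₃]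
theorem a₆_eq : (EQ P).a₆ = 0 := by simp [EQ, WeierstrassCurve.baseChange, freyCurveInt_a₆]

theorem a₂_eq : (EQ P).a₂ = (cB P - 1 - cA P) / 4 := by
  have h := congrArg (fun z : ℤ => (z : Qb)) (a₂_mul P)
  simp only [Int.cast_mul, Int.cast_sub, Int.cast_one] at h
  have e : (EQ P).a₂ = ((P.freyCurveInt.a₂ : ℤ) : Qb) := by
    simp [EQ, WeierstrassCurve.baseChange]
  rw [e, eq_div_iff (by norm_num : (4 : Qb) ≠ 0)]
  unfold cA cB
  exact_mod_cast h

theorem a₄_eq : (EQ P).a₄ = -(cA P * cB P) / 16 := by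
  have h := congrArg (fun z : ℤ => (z : Qb)) (a₄_mul P)
  have e : (EQ P).a₄ = ((P.freyCurveInt.a₄ : ℤ) : Qb) := by
    simp [EQ, WeierstrassCurve.baseChange]
  rw [e, eq_div_iff (by norm_num : (16 : Qb) ≠ 0)]
  unfold cA cB
  push_cast at h ⊢
  linear_combination h

/-- a point `(x, -x/2)` with `x (x - A/4) (x + B/4) = 0` lies on the curve. -/
theorem equation_of_root {x : Qb} (hx : x * (x - cA P / 4) * (x + cB P / 4) = 0) :
    (EQ P).toAffine.Equation x (-x / 2) := by
  rw [Affine.equation_iff, a₁_eq, a₃_eq, a₆_eq, a₂_eq, a₄_eq]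
  linear_combination (-1 : Qb) * hx

theorem nonsingular_of_root {x : Qb} (hx : x * (x - cA P / 4) * (x + cB P / 4) = 0)
    (hd : 3 * x ^ 2 + 2 * ((cB P - 1 - cA P) / 4) * x + -(cA P * cB P) / 16 + x / 2 ≠ 0) :
    (EQ P).toAffine.Nonsingular x (-x / 2) := by
  rw [Affine.nonsingular_iff]
  refine ⟨equation_of_root P hx, Or.inl ?_⟩
  rw [a₁_eq, a₂_eq, a₄_eq]
  intro h
  apply hd
  linear_combination (-1 : Qb) * h

theorem two_nsmul_eq_zero {x : Qb} (h : (EQ P).toAffine.Nonsingular x (-x / 2)) :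
    2 • (Point.some x (-x / 2) h : (EQ P).toAffine.Point) = 0 := by
  rw [two_nsmul, add_eq_zero_iff_eq_neg, Point.neg_some]
  congr 1
  rw [Affine.negY, a₁_eq, a₃_eq]
  ring

theorem smul_some_rat (σ : GQ) {q : ℚ}
    (h : (EQ P).toAffine.Nonsingular (algebraMap ℚ Qb q) (-(algebraMap ℚ Qb q) / 2)) :
    σ • (Point.some _ _ h : Pt P.freyCurveInt) = Point.some _ _ h := by
  rw [algEquiv_smul_def, Point.map_some]
  congr 1
  · exact σ.commutes q
  · have hq : σ (algebraMap ℚ Qb q) = algebraMap ℚ Qb q := σ.commutes q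
    simp only [map_div₀, map_neg, map_ofNat]
    erw [hq]

/-- the three abscissae, as rational numbers. -/
noncomputable def eRat : Fin 3 → ℚ := ![0, ((P.a ^ P.p : ℤ) : ℚ) / 4, -((P.b ^ P.p : ℤ) : ℚ) / 4]

theorem eRat_zero : algebraMap ℚ Qb (eRat P 0) = 0 := by simp [eRat]

theorem eRat_one : algebraMap ℚ Qb (eRat P 1) = cA P / 4 := by
  simp [eRat, cA]

theorem eRat_two : algebraMap ℚ Qb (eRat P 2) = -cB P / 4 := by
  simp [eRat, cB]

theorem root_eRat (i : Fin 3) :
    algebraMap ℚ Qb (eRat P i) * (algebraMap ℚ Qb (eRat P i) - cA P / 4) *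
      (algebraMap ℚ Qb (eRat P i) + cB P / 4) = 0 := by
  fin_cases i
  · show algebraMap ℚ Qb (eRat P 0) * _ * _ = 0
    rw [eRat_zero]; ring
  · show algebraMap ℚ Qb (eRat P 1) * (algebraMap ℚ Qb (eRat P 1) - _) * _ = 0
    rw [eRat_one]; ring
  · show algebraMap ℚ Qb (eRat P 2) * _ * (algebraMap ℚ Qb (eRat P 2) + _) = 0
    rw [eRat_two]; ring

theorem deriv_eRat (i : Fin 3) :
    3 * (algebraMap ℚ Qb (eRat P i)) ^ 2 +
      2 * ((cB P - 1 - cA P) / 4) * (algebraMap ℚ Qb (eRat P i)) + -(cA P * cB P) / 16 +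
      (algebraMap ℚ Qb (eRat P i)) / 2 ≠ 0 := by
  have hA := cA_ne_zero P
  have hB := cB_ne_zero P
  have hC := cC_ne_zero P
  have hABC := cA_add_cB P
  fin_cases i
  · show 3 * (algebraMap ℚ Qb (eRat P 0)) ^ 2 + _ * (algebraMap ℚ Qb (eRat P 0)) + _ +
      (algebraMap ℚ Qb (eRat P 0)) / 2 ≠ 0
    rw [eRat_zero]
    intro h
    have : cA P * cB P = 0 := by linear_combination (-16 : Qb) * h
    exact mul_ne_zero hA hB this
  · show 3 * (algebraMap ℚ Qb (eRat P 1)) ^ 2 + _ * (algebraMap ℚ Qb (eRat P 1)) + _ +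
      (algebraMap ℚ Qb (eRat P 1)) / 2 ≠ 0
    rw [eRat_one]
    intro h
    have : cA P * cC P = 0 := by
      rw [← hABC]; linear_combination (16 : Qb) * h
    exact mul_ne_zero hA hC this
  · show 3 * (algebraMap ℚ Qb (eRat P 2)) ^ 2 + _ * (algebraMap ℚ Qb (eRat P 2)) + _ +
      (algebraMap ℚ Qb (eRat P 2)) / 2 ≠ 0
    rw [eRat_two]
    intro h
    have : cB P * cC P = 0 := by
      rw [← hABC]; linear_combination (16 : Qb) * h
    exact mul_ne_zero hB hC this

theorem nonsingular_eRat (i : Fin 3) :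
    (EQ P).toAffine.Nonsingular (algebraMap ℚ Qb (eRat P i)) (-(algebraMap ℚ Qb (eRat P i)) / 2) :=
  nonsingular_of_root P (root_eRat P i) (deriv_eRat P i)

/-- **the three rational points of order two.** -/
noncomputable def T : Fin 3 → Pt P.freyCurveInt := fun i => Point.some _ _ (nonsingular_eRat P i)

theorem xOf_T (i : Fin 3) : xOf (T P i) = algebraMap ℚ Qb (eRat P i) := rfl

theorem xOf_T_zero : xOf (T P 0) = 0 := by rw [xOf_T, eRat_zero]
theorem xOf_T_one : xOf (T P 1) = cA P / 4 := by rw [xOf_T, eRat_one]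
theorem xOf_T_two : xOf (T P 2) = -cB P / 4 := by rw [xOf_T, eRat_two]

theorem eRat_injective : Function.Injective (eRat P) := by
  have hA : ((P.a ^ P.p : ℤ) : ℚ) ≠ 0 := by exact_mod_cast pow_ne_zero _ P.ha0
  have hB : ((P.b ^ P.p : ℤ) : ℚ) ≠ 0 := by exact_mod_cast pow_ne_zero _ P.hb0
  have hC : ((P.a ^ P.p : ℤ) : ℚ) + ((P.b ^ P.p : ℤ) : ℚ) ≠ 0 := by
    have : ((P.c ^ P.p : ℤ) : ℚ) ≠ 0 := by exact_mod_cast pow_ne_zero _ P.hc0
    rw [← P.hFLT] at this
    exact_mod_cast this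
  intro i k h
  fin_cases i <;> fin_cases k <;> simp only [eRat, Matrix.cons_val_zero, Matrix.cons_val_one,
    Matrix.cons_val_two, Matrix.head_cons, Matrix.tail_cons, Fin.zero_eta, Fin.mk_one,
    Fin.reduceFinMk] at h ⊢
  all_goals first
    | rfl
    | (exfalso; first
        | (apply hA; linear_combination (4 : ℚ) * h)
        | (apply hA; linear_combination (-4 : ℚ) * h)
        | (apply hB; linear_combination (4 : ℚ) * h)
        | (apply hB; linear_combination (-4 : ℚ) * h)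
        | (apply hC; linear_combination (4 : ℚ) * h)
        | (apply hC; linear_combination (-4 : ℚ) * h))

theorem isRatTwoTors_T : IsRatTwoTors (T P) := by
  refine ⟨⟨fun i k h => ?_, fun i => ⟨Point.some_ne_zero _, two_nsmul_eq_zero P _⟩⟩,
    fun σ i => smul_some_rat P σ _⟩
  have hx : xOf (T P i) = xOf (T P k) := by rw [h]
  rw [xOf_T, xOf_T] at hx
  exact eRat_injective P ((algebraMap ℚ Qb).injective hx)

end Fermat.Agent.M12.FreyTors4
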