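/-
M12 (helper4): the Frey facts used by the assembly of S12, in literal shapes.

* parity: `A = a^p`, `C = c^p` odd, `4 ∣ B = b^p`;
* at a place `A` over `2`: `xOf (T P 1) ∉ A`, `xOf (T P 0) ∈ A`, `xOf (T P 2) ∈ A`;
* the differences of the abscissae as rational numbers: `x₀ - x₁ = -A/4`, `x₀ - x₂ = B/4`,
  `x₂ - x₁ = -C/4`;
* the hypotheses of `theoremM` / `LeafToric` for `freyCurveInt`: `ℓ ∣ Δ → ¬ ℓ ∣ c₄`;
* `17 ≤ p ⇒ p ∉ {2, 3, 5, 7, 13}`.
Imported by no statement.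
-/
import Fermat.Agent.M12.FreyTors4
import Fermat.Agent.S05.Inertia

set_option autoImplicit false
set_option linter.unusedSectionVars false
set_option linter.unusedVariables false

open WeierstrassCurve WeierstrassCurve.Affine WeierstrassCurve.Affine.Point

namespace Fermat.Agent.M12.FreyVal4

open Fermat.Agent.M12.Defs4 Fermat.Agent.M15.DictDefs8 Fermat.Agent.Wire.FreyModel9
open Fermat.Agent.M12.FreyTors4

variable (P : FreyPackage)

/-! ### parity -/

theorem odd_a_pow : Odd (P.a ^ P.p) := by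
  have h := a_pow_zmod_four P
  rw [← Int.not_even_iff_odd]
  intro he
  obtain ⟨k, hk⟩ := he
  have h2 : ((P.a ^ P.p : ℤ) : ZMod 4) = ((k + k : ℤ) : ZMod 4) := by rw [hk]
  rw [h] at h2
  push_cast at h2
  have : ∀ z : ZMod 4, (3 : ZMod 4) ≠ z + z := by decide
  exact this _ h2

theorem four_dvd_b_pow' : (4 : ℤ) ∣ P.b ^ P.p := four_dvd_b_pow P

theorem odd_c_pow : Odd (P.c ^ P.p) := by
  rw [← P.hFLT]
  have hb : Even (P.b ^ P.p) := by
    obtain ⟨k, hk⟩ := four_dvd_b_pow P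
    exact ⟨2 * k, by rw [hk]; ring⟩
  exact (odd_a_pow P).add_even hb

theorem b_pow_ne_zero : P.b ^ P.p ≠ 0 := pow_ne_zero _ P.hb0

theorem three_le_p : 3 ≤ P.p := le_trans (by norm_num) P.hp5

theorem p_ne_two : P.p ≠ 2 := by have := P.hp5; omega

/-- `17 ≤ p ⇒ p ∉ {2, 3, 5, 7, 13}`. -/
theorem p_notMem (hp : 17 ≤ P.p) : P.p ∉ ({2, 3, 5, 7, 13} : Finset ℕ) := by
  simp only [Finset.mem_insert, Finset.mem_singleton]
  omega

theorem three_ne_p (hp : 17 ≤ P.p) : (3 : ℕ) ≠ P.p := by omega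

/-! ### semistability in the shape of the leaves -/

theorem not_dvd_c₄ {ℓ : ℕ} (hℓ : ℓ.Prime) (h : (ℓ : ℤ) ∣ P.freyCurveInt.Δ) :
    ¬ (ℓ : ℤ) ∣ P.freyCurveInt.c₄ :=
  freyCurveInt_isSemistableModel P ℓ hℓ h

theorem Δ_ne_zero : P.freyCurveInt.Δ ≠ 0 := freyCurveInt_Δ_ne_zero P

/-! ### the differences of the abscissae -/

theorem xOf_sub_zero_one :
    xOf (T P 0) - xOf (T P 1) = algebraMap ℚ Qb (-((P.a ^ P.p : ℤ) : ℚ) / 4) := by
  rw [xOf_T_zero, xOf_T_one]
  simp [cA]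
  ring

theorem xOf_sub_zero_two :
    xOf (T P 0) - xOf (T P 2) = algebraMap ℚ Qb (((P.b ^ P.p : ℤ) : ℚ) / 4) := by
  rw [xOf_T_zero, xOf_T_two]
  simp [cB]
  ring

theorem xOf_sub_two_one :
    xOf (T P 2) - xOf (T P 1) = algebraMap ℚ Qb (-((P.c ^ P.p : ℤ) : ℚ) / 4) := by
  rw [xOf_T_two, xOf_T_one]
  have h := cA_add_cB P
  have e : algebraMap ℚ Qb (-((P.c ^ P.p : ℤ) : ℚ) / 4) = -cC P / 4 := by
    simp [cC]
  rw [e, ← h]
  ring

/-! ### at a place over `2` -/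

variable {A : ValuationSubring Qb}

theorem xOf_T_zero_mem : xOf (T P 0) ∈ A := by
  rw [xOf_T_zero]; exact A.zero_mem

theorem xOf_T_two_mem : xOf (T P 2) ∈ A := by
  rw [xOf_T_two]
  obtain ⟨k, hk⟩ := four_dvd_b_pow P
  have : -cB P / 4 = ((-k : ℤ) : Qb) := by
    unfold cB
    rw [hk]
    push_cast
    ring
  rw [this]
  exact intCast_mem A _

theorem xOf_T_one_notMem (hA : A.LiesOverPrime 2) : xOf (T P 1) ∉ A := by
  rw [xOf_T_one]
  intro hmem
  have h1 : A.valuation (cA P / 4) ≤ 1 := (ValuationSubring.valuation_le_one_iff A _).mpr hmem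
  have hodd : ¬ ((2 : ℕ) : ℤ) ∣ P.a ^ P.p := by
    intro h
    have : Even (P.a ^ P.p) := by
      obtain ⟨k, hk⟩ := h
      exact ⟨k, by rw [hk]; push_cast; ring⟩
    exact (Int.not_even_iff_odd.mpr (odd_a_pow P)) this
  have hvA : A.valuation (cA P) = 1 := by
    unfold cA
    exact Fermat.Agent.S05.Inertia.valuation_intCast_eq_one Nat.prime_two hA hodd
  have hv2 : A.valuation (2 : Qb) < 1 := by
    have := Fermat.Agent.S05.Inertia.valuation_prime_lt_one (L := Qb) hA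
    simpa using this
  have hv2pos : 0 < A.valuation (2 : Qb) := by
    rw [zero_lt_iff, Valuation.ne_zero_iff]; norm_num
  have hv4 : A.valuation (4 : Qb) < 1 := by
    have : (4 : Qb) = 2 * 2 := by norm_num
    rw [this, map_mul]
    calc A.valuation 2 * A.valuation 2 < 1 * 1 := by
          exact mul_lt_mul'' hv2 hv2 (le_of_lt hv2pos) (le_of_lt hv2pos)
      _ = 1 := one_mul 1
  have hv4ne : A.valuation (4 : Qb) ≠ 0 := by
    rw [Valuation.ne_zero_iff]; norm_num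
  rw [map_div₀, hvA] at h1
  have : (1 : _) ≤ A.valuation (4 : Qb) := by
    have h2 := mul_le_mul_left h1 (A.valuation (4 : Qb))
    rwa [one_mul, div_mul_cancel₀ _ hv4ne] at h2
  exact absurd hv4 (not_lt.mpr this)

end Fermat.Agent.M12.FreyVal4
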