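/-
M12 (helper6), leaves L4b/L4c, the counting step: a Frobenius element `σ` at a valuation subring
`A` over `3` fixes at most `9` residue classes of pairs of `A`-integral elements.  Hence among
`n ≥ 10` pairs `(x i, y i)` of `σ`-fixed integral elements two are congruent modulo the maximal
ideal.  (Applied to the coordinates of the multiples of a `σ`-fixed point of order `p ≥ 11` in
the zero component: two multiples are congruent, so they differ by an element of the kernel of
reduction, which has no `p`-torsion.)
Pure valuation theory; imported by no statement.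
-/
import Mathlib
import Fermat.Prelude.Def_EllipticCurve_FrobeniusTrace

set_option autoImplicit false
set_option linter.unusedSectionVars false
set_option linter.unusedVariables false
set_option linter.unusedSimpArgs false

namespace Fermat.Agent.M12.FrobCount6

variable {K L : Type*} [Field K] [Field L] [Algebra K L] {A : ValuationSubring L}
  {σ : L ≃ₐ[K] L}

/-- the Frobenius congruence `σ x ≡ x ^ q` modulo the maximal ideal of `A`. -/
theorem frob_congr {q : ℕ} (h : A.IsFrobeniusAt σ q) {x : L} (hx : A.valuation x ≤ 1) :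
    A.valuation (σ x - x ^ q) < 1 := by
  have hxA : x ∈ A := (A.valuation_le_one_iff x).mp hx
  set g : A.decompositionSubgroup K := ⟨σ, h.mem_decompositionSubgroup⟩ with hg
  set xA : A := ⟨x, hxA⟩ with hxAdef
  have h1 := h.smul_residue_eq (IsLocalRing.residue A xA)
  rw [← IsLocalRing.ResidueField.residue_smul, ← map_pow, ← sub_eq_zero, ← map_sub,
    IsLocalRing.residue_eq_zero_iff, ← ValuationSubring.coe_mem_nonunits_iff] at h1
  exact (ValuationSubring.mem_nonunits_iff (A := A)).mp h1

/-- the three residue classes of the prime field `𝔽₃`. -/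
def cls : Fin 3 → ℤ := ![0, 1, -1]

/-- a `σ`-fixed element (`σ` Frobenius at `3`) is congruent to `0`, `1` or `-1`. -/
theorem exists_cls (h : A.IsFrobeniusAt σ 3) {z : L} (hz : A.valuation z ≤ 1) (hfix : σ z = z) :
    ∃ c : Fin 3, A.valuation (z - ((cls c : ℤ) : L)) < 1 := by
  have h1 := frob_congr h hz
  rw [hfix] at h1
  have e : z - z ^ 3 = -(z * (z - 1) * (z + 1)) := by ring
  rw [e, Valuation.map_neg, map_mul, map_mul] at h1
  by_contra hcon
  push Not at hcon
  have c0 := hcon 0
  have c1 := hcon 1
  have c2 := hcon 2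
  simp only [cls, Matrix.cons_val_zero, Matrix.cons_val_one, Matrix.cons_val_two,
    Int.cast_zero, sub_zero, Int.cast_one, Int.cast_neg, sub_neg_eq_add] at c0 c1 c2
  have c2' : 1 ≤ A.valuation (z + 1) := by simpa using c2
  exact absurd h1 (not_lt.mpr (one_le_mul_of_one_le_of_one_le
    (one_le_mul_of_one_le_of_one_le c0 c1) c2'))

/-- **the counting step.** -/
theorem exists_congruent_pair (h : A.IsFrobeniusAt σ 3) {n : ℕ} (hn : 10 ≤ n)
    (x y : Fin n → L) (hx : ∀ i, A.valuation (x i) ≤ 1) (hy : ∀ i, A.valuation (y i) ≤ 1)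
    (hσx : ∀ i, σ (x i) = x i) (hσy : ∀ i, σ (y i) = y i) :
    ∃ i j, i ≠ j ∧ A.valuation (x i - x j) < 1 ∧ A.valuation (y i - y j) < 1 := by
  classical
  choose cx hcx using fun i => exists_cls h (hx i) (hσx i)
  choose cy hcy using fun i => exists_cls h (hy i) (hσy i)
  have hcard : Fintype.card (Fin 3 × Fin 3) < Fintype.card (Fin n) := by
    simp only [Fintype.card_prod, Fintype.card_fin]
    omega
  obtain ⟨i, j, hij, he⟩ :=
    Fintype.exists_ne_map_eq_of_card_lt (fun i => (cx i, cy i)) hcard
  have hex : cx i = cx j := congrArg Prod.fst he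
  have hey : cy i = cy j := congrArg Prod.snd he
  refine ⟨i, j, hij, ?_, ?_⟩
  · have e : x i - x j = (x i - ((cls (cx i) : ℤ) : L)) - (x j - ((cls (cx j) : ℤ) : L)) := by
      rw [hex]; ring
    rw [e]
    exact Valuation.map_sub_lt _ (hcx i) (hcx j)
  · have e : y i - y j = (y i - ((cls (cy i) : ℤ) : L)) - (y j - ((cls (cy j) : ℤ) : L)) := by
      rw [hey]; ring
    rw [e]
    exact Valuation.map_sub_lt _ (hcy i) (hcy j)

end Fermat.Agent.M12.FrobCount6
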