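import Mathlib
import Fermat.Agent.M15.LocCaseB8
import Fermat.Agent.S05.Good

/-!
# M12 (L4c), model part (helper8)

On the model `Y² = X³ + a X² + b X` with multiplicative reduction (`a = α²`, `v α = 1`,
`0 < v b < 1`, `v 2 = 1`):

* `exists_inE0_sub`: among more than `p` points killed by `p`, two differ by a point of `E⁰`
  (the component group has at most `p` elements killed by `p`);
* `inE1_sub_or_add`: two points of `E⁰ \ E¹` with congruent `x`-coordinates are congruent up to
  sign modulo `E¹`;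
* `no_small_residues`: a point `R ∈ E⁰` of prime order `p ≥ 7` (prime to the residue
  characteristic) cannot have `x(jR) ≡ ±1` for `j = 1, 2, 3`.
-/

set_option autoImplicit false
set_option linter.unusedSectionVars false
set_option linter.unusedVariables false

open WeierstrassCurve WeierstrassCurve.Affine

namespace Fermat.Agent.M12.ToricModel8

open Fermat.Agent.S05 Fermat.Agent.S05.CompH3 Fermat.Agent.M15.DictDefs8
  Fermat.Agent.M15.LocModel8 Fermat.Agent.M15.LocFactor8 Fermat.Agent.M15.LocCaseA8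
  Fermat.Agent.M15.LocCaseB8 Fermat.Agent.M15.LocCount8

variable {K : Type*} [Field K] [DecidableEq K] {Γ₀ : Type*} [LinearOrderedCommGroupWithZero Γ₀]
  {v : Valuation K Γ₀} {a b α : K}

/-! ### bounds for the component value -/

section Bounds

variable (hb : v b < 1) (hb0 : b ≠ 0)

include hb hb0

theorem vb_sq_le : v b ^ 2 ≤ v b := by
  rw [sq]
  calc v b * v b ≤ v b * 1 := mul_le_mul_right hb.le _
    _ = v b := mul_one _

theorem cval_le_one (P : (Wab a b).toAffine.Point) : cval v α P ≤ 1 := by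
  have ht : v b ≠ 0 := (Valuation.ne_zero_iff v).mpr hb0
  rcases P with _ | ⟨x, y, h⟩
  · exact le_of_eq rfl
  · simp only [cval]
    split_ifs with h1 h2 h3
    · exact le_rfl
    · exact hb.le
    · exact (not_le.1 h1).le
    · have hx : v b < v x := not_le.1 h2
      have hx0 : 0 < v x := lt_of_le_of_lt zero_le hx
      rw [div_le_one₀ hx0]
      exact (vb_sq_le hb hb0).trans hx.le

theorem sq_lt_cval (P : (Wab a b).toAffine.Point) : v b ^ 2 < cval v α P := by
  have ht : v b ≠ 0 := (Valuation.ne_zero_iff v).mpr hb0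
  have ht0 : 0 < v b := zero_lt_iff.2 ht
  have hlt : v b ^ 2 < v b := by
    rw [sq]
    calc v b * v b < v b * 1 := mul_lt_mul_of_pos_left hb ht0
      _ = v b := mul_one _
  rcases P with _ | ⟨x, y, h⟩
  · exact hlt.trans hb
  · simp only [cval]
    split_ifs with h1 h2 h3
    · exact hlt.trans hb
    · exact hlt
    · exact hlt.trans (not_le.1 h2)
    · have hx : v b < v x := not_le.1 h2
      have hx0 : 0 < v x := lt_of_le_of_lt zero_le hx
      have hx1 : v x < 1 := not_le.1 h1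
      rw [lt_div_iff₀ hx0]
      calc v b ^ 2 * v x < v b ^ 2 * 1 := mul_lt_mul_of_pos_left hx1 (pow_pos ht0 2)
        _ = v b ^ 2 := mul_one _

theorem inE0_of_cval_eq_one {P : (Wab a b).toAffine.Point} (h : cval v α P = 1) : InE0 v P := by
  rcases P with _ | ⟨x, y, hxy⟩
  · trivial
  · simp only [cval] at h
    split_ifs at h with h1 h2 h3
    · exact h1
    · exact absurd h hb.ne
    · exact absurd h.ge h1
    · exfalso
      have hx : v b < v x := not_le.1 h2
      have hx0 : 0 < v x := lt_of_le_of_lt zero_le hx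
      rw [div_eq_one_iff_eq hx0.ne'] at h
      exact absurd ((vb_sq_le hb hb0).trans_lt hx) h.not_lt

/-- a power `(v b)^(2m)` in the window `((v b)², 1]` is `1`. -/
theorem zpow_window {m : ℤ} (h1 : v b ^ 2 < v b ^ (2 * m)) (h2 : v b ^ (2 * m) ≤ 1) :
    m = 0 := by
  have ht : v b ≠ 0 := (Valuation.ne_zero_iff v).mpr hb0
  have l1 : 2 * m < 2 := by
    have : v b ^ (2 : ℤ) < v b ^ (2 * m) := by rw [zpow_ofNat]; exact h1
    exact (zpow_lt_zpow ht hb).1 this
  have l2 : ¬ 2 * m < 0 := by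
    intro hneg
    have : v b ^ (0 : ℤ) < v b ^ (2 * m) := (zpow_lt_zpow ht hb).2 hneg
    rw [zpow_zero] at this
    exact absurd h2 (not_le.2 this)
  omega

end Bounds

/-! ### the component map on points killed by `p` -/

section Comp

variable (h2 : v (2 : K) = 1) (hb : v b < 1) (hb0 : b ≠ 0) (hα : α ^ 2 = a) (hαv : v α = 1)

include h2 hb hb0 hα hαv

/-- the exponent of a point killed by `p`. -/
theorem exists_exponent {p : ℕ} (hp0 : 0 < p) {R : (Wab a b).toAffine.Point} (hR : p • R = 0) :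
    ∃ k : ℕ, k < p ∧ cval v α R ^ p = v b ^ (2 * (k : ℤ)) := by
  have ht : v b ≠ 0 := (Valuation.ne_zero_iff v).mpr hb0
  obtain ⟨k, hk⟩ := cval_nsmul h2 hb hb0 hα hαv R p
  rw [hR, cval_zero] at hk
  have hJ : cval v α R ^ p = v b ^ (2 * (-k)) := by
    rw [mul_neg, zpow_neg]
    exact eq_inv_of_mul_eq_one_left hk.symm
  have hle : cval v α R ^ p ≤ 1 := pow_le_one₀ zero_le (cval_le_one hb hb0 R)
  have hlt : (v b ^ 2) ^ p < cval v α R ^ p :=
    pow_lt_pow_left₀ (sq_lt_cval hb hb0 R) zero_le hp0.ne'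
  rw [hJ] at hle hlt
  have l1 : 2 * (-k) < 2 * (p : ℤ) := by
    have : v b ^ (2 * (p : ℤ)) < v b ^ (2 * (-k)) := by
      have e : v b ^ (2 * (p : ℤ)) = (v b ^ 2) ^ p := by
        rw [zpow_mul, zpow_ofNat, zpow_natCast]
      rw [e]; exact hlt
    exact (zpow_lt_zpow ht hb).1 this
  have l2 : ¬ 2 * (-k) < 0 := by
    intro hneg
    have : v b ^ (0 : ℤ) < v b ^ (2 * (-k)) := (zpow_lt_zpow ht hb).2 hneg
    rw [zpow_zero] at this
    exact absurd hle (not_le.2 this)
  refine ⟨(-k).toNat, ?_, ?_⟩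
  · omega
  · rw [hJ]
    congr 2
    omega

/-- two points with the same component value differ by a point of `E⁰`. -/
theorem inE0_sub_of_cval_eq {R₁ R₂ : (Wab a b).toAffine.Point}
    (h : cval v α R₁ = cval v α R₂) : InE0 v (R₁ - R₂) := by
  have ht : v b ≠ 0 := (Valuation.ne_zero_iff v).mpr hb0
  obtain ⟨k₁, hk₁⟩ := cval_add h2 hb hb0 hα hαv R₁ (-R₂)
  obtain ⟨k₂, hk₂⟩ := cval_add h2 hb hb0 hα hαv R₂ (-R₂)
  rw [add_neg_cancel, cval_zero] at hk₂
  rw [← sub_eq_add_neg, h] at hk₁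
  have e : cval v α (R₁ - R₂) = v b ^ (2 * (k₁ - k₂)) := by
    have h0 : v b ^ (2 * k₂) ≠ 0 := zpow_ne_zero _ ht
    have e1 : cval v α (R₁ - R₂) * v b ^ (2 * k₂) = v b ^ (2 * k₁) := by
      rw [hk₁, mul_assoc, mul_comm (v b ^ (2 * k₁)), ← mul_assoc, ← hk₂, one_mul]
    have e2 : v b ^ (2 * (k₁ - k₂)) * v b ^ (2 * k₂) = v b ^ (2 * k₁) := by
      rw [← zpow_add₀ ht]; congr 1; ring
    exact mul_right_cancel₀ h0 (e1.trans e2.symm)
  have hm : k₁ - k₂ = 0 :=
    zpow_window hb hb0 (by rw [← e]; exact sq_lt_cval hb hb0 _)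
      (by rw [← e]; exact cval_le_one hb hb0 _)
  rw [hm, mul_zero, zpow_zero] at e
  exact inE0_of_cval_eq_one hb hb0 e

/-- **Pigeonhole on the component group**: among more than `p` points killed by `p`, two differ
by a point of `E⁰`. -/
theorem exists_inE0_sub {p : ℕ} (hp0 : 0 < p) {ι : Type*} [Fintype ι]
    (hcard : p < Fintype.card ι) (F : ι → (Wab a b).toAffine.Point) (hF : ∀ i, p • F i = 0) :
    ∃ i j, i ≠ j ∧ InE0 v (F i - F j) := by
  classical
  have key := fun i => exists_exponent h2 hb hb0 hα hαv hp0 (hF i)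
  choose k hk1 hk2 using key
  let f : ι → Fin p := fun i => ⟨k i, hk1 i⟩
  obtain ⟨i, j, hij, hf⟩ := Fintype.exists_ne_map_eq_of_card_lt f (by rwa [Fintype.card_fin])
  refine ⟨i, j, hij, inE0_sub_of_cval_eq h2 hb hb0 hα hαv ?_⟩
  have hkk : k i = k j := congrArg Fin.val hf
  have : cval v α (F i) ^ p = cval v α (F j) ^ p := by rw [hk2 i, hk2 j, hkk]
  exact (pow_left_inj₀ zero_le zero_le hp0.ne').1 this

end Comp

/-! ### injectivity of the reduction on `x`-coordinates -/

/-- two points with unit, congruent `x`-coordinates (and smooth reduction) are congruent up to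
sign modulo the kernel of reduction. -/
theorem inE1_sub_or_add (h2 : v (2 : K) = 1) (ha : v a ≤ 1) (hb : v b ≤ 1) (hb0 : b ≠ 0)
    {P P' : (Wab a b).toAffine.Point} (h1 : v (xOf P) = 1) (h1' : v (xOf P') = 1)
    (hsm : v (xOf P ^ 2 - b) = 1) (hlt : v (xOf P - xOf P') < 1) :
    InE1 v (P - P') ∨ InE1 v (P + P') := by
  rcases point_cases hb0 P with rfl | rfl | ⟨x, s, hns, hx0, rfl⟩
  · rw [xOf_zero, map_zero] at h1; exact absurd h1 zero_ne_one
  · rw [xOf_T0, map_zero] at h1; exact absurd h1 zero_ne_one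
  rcases point_cases hb0 P' with rfl | rfl | ⟨x', s', hns', hx'0, rfl⟩
  · rw [xOf_zero, map_zero] at h1'; exact absurd h1' zero_ne_one
  · rw [xOf_T0, map_zero] at h1'; exact absurd h1' zero_ne_one
  have hvx : v x = 1 := h1
  have hvx' : v x' = 1 := h1'
  have hxx : v (x - x') < 1 := hlt
  have hsm' : v s = 1 ∨ v (x ^ 2 - b) = 1 := Or.inr hsm
  have key := ssub_mul_sadd hns hns' hx0 hx'0
  have hprod : v ((s - s') * (s + s')) < 1 := by
    rw [key, map_mul]
    have h3 : v (1 - b / (x * x')) ≤ 1 := by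
      refine (Valuation.map_sub v _ _).trans (max_le (by rw [map_one]) ?_)
      rw [map_div₀, map_mul, hvx, hvx', mul_one, div_one]
      exact hb
    calc v (x - x') * v (1 - b / (x * x')) ≤ v (x - x') * 1 := mul_le_mul_right h3 _
      _ = v (x - x') := mul_one _
      _ < 1 := hxx
  have hcase : v (s - s') < 1 ∨ v (s + s') < 1 := by
    by_contra hcon
    push Not at hcon
    rw [map_mul] at hprod
    exact absurd hprod (not_lt.2 (one_le_mul_of_one_le_of_one_le hcon.1 hcon.2))
  rcases hcase with hc | hc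
  · exact Or.inl (S05.claimC v h2 ha hb hns hns' hvx hvx' hxx hc hsm')
  · obtain ⟨hn, en⟩ := neg_xs hns'
    right
    have := S05.claimC v h2 ha hb hns hn hvx hvx' hxx (by rwa [sub_neg_eq_add]) hsm'
    rwa [← en, sub_neg_eq_add] at this

/-! ### the residues of the multiples of a point of `E⁰` -/

/-- `x ≡ x³` and `x` a unit: `x ≡ 1` or `x ≡ -1`. -/
theorem close_to_sign {x : K} (hx : v x = 1) (h : v (x - x ^ 3) < 1) :
    v (x - 1) < 1 ∨ v (x + 1) < 1 := by
  by_contra hcon
  push Not at hcon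
  have e : x - x ^ 3 = -(x * ((x - 1) * (x + 1))) := by ring
  rw [e, Valuation.map_neg, map_mul, map_mul, hx, one_mul] at h
  exact absurd h (not_lt.2 (one_le_mul_of_one_le_of_one_le hcon.1 hcon.2))

theorem close_of_same_sign {x y : K} (ε : K) (hx : v (x - ε) < 1) (hy : v (y - ε) < 1) :
    v (x - y) < 1 := by
  have e : x - y = (x - ε) - (y - ε) := by ring
  rw [e]
  exact Valuation.map_sub_lt v hx hy

/-- among three elements each congruent to `1` or `-1`, two are congruent. -/
theorem two_of_three_close {x₁ x₂ x₃ : K} (h₁ : v (x₁ - 1) < 1 ∨ v (x₁ + 1) < 1)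
    (h₂ : v (x₂ - 1) < 1 ∨ v (x₂ + 1) < 1) (h₃ : v (x₃ - 1) < 1 ∨ v (x₃ + 1) < 1) :
    v (x₁ - x₂) < 1 ∨ v (x₁ - x₃) < 1 ∨ v (x₂ - x₃) < 1 := by
  have neg : ∀ x : K, x + 1 = x - (-1) := fun x => by ring
  simp only [neg] at h₁ h₂ h₃
  rcases h₁ with h₁ | h₁ <;> rcases h₂ with h₂ | h₂ <;> rcases h₃ with h₃ | h₃
  · exact Or.inl (close_of_same_sign 1 h₁ h₂)
  · exact Or.inl (close_of_same_sign 1 h₁ h₂)
  · exact Or.inr (Or.inl (close_of_same_sign 1 h₁ h₃))
  · exact Or.inr (Or.inr (close_of_same_sign (-1) h₂ h₃))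
  · exact Or.inr (Or.inr (close_of_same_sign 1 h₂ h₃))
  · exact Or.inr (Or.inl (close_of_same_sign (-1) h₁ h₃))
  · exact Or.inl (close_of_same_sign (-1) h₁ h₂)
  · exact Or.inl (close_of_same_sign (-1) h₁ h₂)

/-- **no room in `𝔽₃`**: a point `R ∈ E⁰` of prime order `p ≥ 7` (with `v p = 1`) cannot have
`x(R), x(2R), x(3R)` all congruent to `±1`. -/
theorem no_small_residues (h2 : v (2 : K) = 1) (ha : v a ≤ 1) (hb : v b < 1) (hb0 : b ≠ 0)
    {p : ℕ} (hp : p.Prime) (hp7 : 7 ≤ p) (hvp : v (p : K) = 1)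
    {R : (Wab a b).toAffine.Point} (hR : addOrderOf R = p) (hRE : InE0 v R)
    (hres : ∀ j ∈ ({1, 2, 3} : Finset ℕ),
      v (xOf (j • R) - 1) < 1 ∨ v (xOf (j • R) + 1) < 1) : False := by
  have hpR : ∀ j : ℕ, p • (j • R) = 0 := fun j => nsmul_nsmul_eq_zero hR j
  have hne : ∀ j : ℕ, 0 < j → j < p → j • R ≠ 0 := by
    intro j hj0 hjp h0
    have hd : p ∣ j := by rw [← hR]; exact addOrderOf_dvd_iff_nsmul_eq_zero.2 h0
    exact absurd (Nat.le_of_dvd hj0 hd) (not_le.2 hjp)
  have hE : ∀ j : ℕ, InE0 v (j • R) := fun j => inE0_nsmul hb hb0 ha hRE j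
  have hvx : ∀ j : ℕ, 0 < j → j < p → v (xOf (j • R)) = 1 := fun j hj0 hjp =>
    v_xOf_eq_one ha hb.le hvp (hne j hj0 hjp) (hE j) (hpR j)
  have hsm : ∀ j : ℕ, 0 < j → j < p → v (xOf (j • R) ^ 2 - b) = 1 := by
    intro j hj0 hjp
    have h1 : v (xOf (j • R) ^ 2) = 1 := by rw [map_pow, hvx j hj0 hjp, one_pow]
    rw [Valuation.map_sub_eq_of_lt_left v (by rw [h1]; exact hb), h1]
  -- two congruent multiples
  have main : ∀ j j' : ℕ, 0 < j → j < j' → j' ≤ 3 →
      v (xOf (j • R) - xOf (j' • R)) < 1 → False := by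
    intro j j' hj0 hjj' hj'3 hlt
    have hjp : j < p := by omega
    have hj'p : j' < p := by omega
    rcases inE1_sub_or_add h2 ha hb.le hb0 (hvx j hj0 hjp) (hvx j' (by omega) hj'p)
      (hsm j hj0 hjp) hlt with h | h
    · -- `(j' - j) R ∈ E¹`
      have e : j' • R - j • R = (j' - j) • R := by
        rw [sub_nsmul R hjj'.le, sub_eq_add_neg]
      have h' : InE1 v (j' • R - j • R) := by
        have := KernelContract.inE1_neg v _ h
        rwa [neg_sub] at this
      rw [e] at h'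
      have h0 := KernelContract.inE1_torsion_free v ha hb.le hvp _ h' (hpR _)
      exact hne (j' - j) (by omega) (by omega) h0
    · have e : j • R + j' • R = (j + j') • R := (add_nsmul R j j').symm
      rw [e] at h
      have h0 := KernelContract.inE1_torsion_free v ha hb.le hvp _ h (hpR _)
      exact hne (j + j') (by omega) (by omega) h0
  rcases two_of_three_close (hres 1 (by simp)) (hres 2 (by simp)) (hres 3 (by simp)) with h | h | h
  · exact main 1 2 (by norm_num) (by norm_num) (by norm_num) h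
  · exact main 1 3 (by norm_num) (by norm_num) (by norm_num) h
  · exact main 2 3 (by norm_num) (by norm_num) (by norm_num) h

end Fermat.Agent.M12.ToricModel8
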