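import Mathlib
import Fermat.Agent.M12.Defs4
import Fermat.Agent.M12.LocGood8
import Fermat.Agent.M12.ToricModel8
import Fermat.Agent.M15.DictLoc8
import Fermat.Agent.DivPoly.CardEq29
import Fermat.Agent.S05.Kernel

/-!
# M12: the local theory at a place `A` over an odd prime, on the level of `W` (helper8)

Everything here is stated for `W : WeierstrassCurve ℤ`, points `Pt W` and a valuation subring
`A` of `ℚ̄` over an odd prime `ℓ`; the normal forms `Wab a b` only appear in the proofs.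

* `inZero_smul`: the zero component at `A` is stable under the decomposition group of `A`;
* multiplicative reduction at `ℓ`: `inZero_add`, `inZero_neg`, `inZero_nsmul`, `inZero_of_nsmul`,
  `exists_inZero_of_order` (a point of order `p` in the zero component),
  `val_xOf_sub_of_inZero` (injectivity of the reduction on `x`-coordinates of torsion points of
  the zero component);
* good reduction at `ℓ`: `val_xOf_sub_of_good'`;
* `v_xOf_le_one_of_nsmul`: torsion points of order prime to `ℓ` are integral.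
-/

set_option autoImplicit false
set_option linter.unusedSectionVars false
set_option linter.unusedVariables false

open WeierstrassCurve WeierstrassCurve.Affine

namespace Fermat.Agent.M12.Transfer8

open Fermat.Agent.S05 Fermat.Agent.S05.Transport Fermat.Agent.S05.Inertia
  Fermat.Agent.M15.DictDefs8 Fermat.Agent.M15.LocModel8 Fermat.Agent.M15.LocCaseA8
  Fermat.Agent.M15.LocNormal8 Fermat.Agent.M15.LocInt8 Fermat.Agent.M15.LocZero8
  Fermat.Agent.M12.Defs4 Fermat.Agent.M12.ToricModel8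

/-! ### Galois action -/

section Galois

variable {W : WeierstrassCurve ℤ}

theorem smul_some (σ : GQ) {x y : Qb}
    (h : ((W.map (Int.castRingHom ℚ))⁄Qb).toAffine.Nonsingular x y) :
    ∃ h' : ((W.map (Int.castRingHom ℚ))⁄Qb).toAffine.Nonsingular (σ x) (σ y),
      σ • (Point.some x y h : Pt W) = Point.some (σ x) (σ y) h' :=
  ⟨_, Point.map_some σ.toAlgHom h⟩

theorem xOf_smul (σ : GQ) (P : Pt W) : xOf (σ • P) = σ (xOf P) := by
  rcases P with _ | ⟨x, y, h⟩
  · show xOf (0 : Pt W) = σ (xOf (0 : Pt W))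
    simp
  · obtain ⟨h', e⟩ := smul_some σ h
    rw [e]; rfl

theorem smul_nsmul' (σ : GQ) (n : ℕ) (P : Pt W) : σ • (n • P) = n • (σ • P) :=
  (Point.map σ.toAlgHom).map_nsmul n P

/-- **the zero component at `A` is stable under the decomposition group of `A`.** -/
theorem inZero_smul (W : WeierstrassCurve ℤ) (A : ValuationSubring Qb) {σ : GQ}
    (hσ : σ ∈ A.decompositionSubgroup ℚ) {P : Pt W} (hP : W.InZeroComponentAt A P) :
    W.InZeroComponentAt A (σ • P) := by
  rcases hP with rfl | ⟨x, y, h, rfl, hc⟩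
  · exact Or.inl rfl
  · obtain ⟨h', e⟩ := smul_some σ h
    refine Or.inr ⟨σ x, σ y, h', e, ?_⟩
    rcases hc with hx | ⟨hx, hy, hns⟩
    · exact Or.inl fun hx' => hx ((apply_mem_iff_of_mem_decomposition hσ x).1 hx')
    · refine Or.inr ⟨(apply_mem_iff_of_mem_decomposition hσ x).2 hx,
        (apply_mem_iff_of_mem_decomposition hσ y).2 hy, ?_⟩
      rw [nonsingular_residue_iff] at hns ⊢
      have hF : polyF W (σ x) (σ y) = σ (polyF W x y) := by
        simp only [polyF, map_sub, map_add, map_mul, map_pow, map_intCast]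
      have hFX : polyFX W (σ x) (σ y) = σ (polyFX W x y) := by
        simp only [polyFX, map_sub, map_add, map_mul, map_pow, map_intCast, map_ofNat]
      have hFY : polyFY W (σ x) (σ y) = σ (polyFY W x y) := by
        simp only [polyFY, map_add, map_mul, map_intCast, map_ofNat]
      rw [hF, hFX, hFY, valuation_apply_of_mem_decomposition hσ,
        valuation_apply_of_mem_decomposition hσ, valuation_apply_of_mem_decomposition hσ]
      exact hns

end Galois

/-! ### integrality of torsion points -/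

section Integral

variable {W : WeierstrassCurve ℤ} (A : ValuationSubring Qb)

theorem integralCoeffs (W : WeierstrassCurve ℤ) :
    Kernel.IntegralCoeffs A.valuation ((W.map (Int.castRingHom ℚ)).baseChange Qb).toAffine := by
  refine ⟨?_, ?_, ?_, ?_, ?_⟩ <;>
  · simp only [WeierstrassCurve.baseChange, map_a₁, map_a₂, map_a₃, map_a₄, map_a₆, eq_intCast,
      map_intCast]
    exact valuation_intCast_le_one _

/-- a torsion point of order prime to the residue characteristic has integral abscissa. -/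
theorem v_xOf_le_one_of_nsmul {n : ℕ} (hn : A.valuation (n : Qb) = 1) {P : Pt W}
    (hP : n • P = 0) : A.valuation (xOf P) ≤ 1 := by
  rcases P with _ | ⟨x, y, h⟩
  · show A.valuation (0 : Qb) ≤ 1
    rw [map_zero]; exact zero_le
  · exact Kernel.x_integral_of_nsmul_eq_zero (integralCoeffs A W) h hn hP

end Integral

/-! ### the normal form at a place of multiplicative reduction -/

/-- the normal form `Y² = X³ + a X² + b X` of `W` at a place of multiplicative reduction. -/
structure NormalForm (W : WeierstrassCurve ℤ) (A : ValuationSubring Qb) : Type where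
  a : Qb
  b : Qb
  α : Qb
  C : VariableChange Qb
  h : Wab a b = C • ((W.map (Int.castRingHom ℚ)).baseChange Qb)
  hu : (C.u : Qb) = 1
  hr : A.valuation C.r ≤ 1
  hs : A.valuation C.s ≤ 1
  ht : A.valuation C.t ≤ 1
  hsE : C.s = -((W.a₁ : ℤ) : Qb) / 2
  htE : C.t = -(((W.a₃ : ℤ) : Qb) + C.r * ((W.a₁ : ℤ) : Qb)) / 2
  hα : α ^ 2 = a
  hvα : A.valuation α = 1
  hva : A.valuation a = 1
  hb0 : b ≠ 0
  hvb : A.valuation b < 1
  h2 : A.valuation (2 : Qb) = 1

theorem nonempty_normalForm {ℓ : ℕ} (hℓ : ℓ.Prime) (hℓ2 : ℓ ≠ 2) (W : WeierstrassCurve ℤ)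
    (hΔ : W.Δ ≠ 0) (hℓΔ : (ℓ : ℤ) ∣ W.Δ) (hℓc₄ : ¬ (ℓ : ℤ) ∣ W.c₄) (A : ValuationSubring Qb)
    (hA : A.LiesOverPrime ℓ) : Nonempty (NormalForm W A) := by
  set v := A.valuation with hv
  set E : WeierstrassCurve Qb := (W.map (Int.castRingHom ℚ)).baseChange Qb with hEdef
  have h2 : v (2 : Qb) = 1 := valuation_two_eq_one hℓ hA hℓ2
  have hE1 : E.a₁ = ((W.a₁ : ℤ) : Qb) := by simp [hEdef]
  have hE3 : E.a₃ = ((W.a₃ : ℤ) : Qb) := by simp [hEdef]
  have hEb2 : E.b₂ = ((W.b₂ : ℤ) : Qb) := by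
    simp only [hEdef, WeierstrassCurve.baseChange, map_b₂, eq_intCast, map_intCast]
  have hEb4 : E.b₄ = ((W.b₄ : ℤ) : Qb) := by
    simp only [hEdef, WeierstrassCurve.baseChange, map_b₄, eq_intCast, map_intCast]
  have hEb6 : E.b₆ = ((W.b₆ : ℤ) : Qb) := by
    simp only [hEdef, WeierstrassCurve.baseChange, map_b₆, eq_intCast, map_intCast]
  have hEΔ : E.Δ = ((W.Δ : ℤ) : Qb) := by
    simp only [hEdef, WeierstrassCurve.baseChange, map_Δ, eq_intCast, map_intCast]
  have hEc4 : E.c₄ = ((W.c₄ : ℤ) : Qb) := by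
    simp only [hEdef, WeierstrassCurve.baseChange, map_c₄, eq_intCast, map_intCast]
  have hΔ0 : E.Δ ≠ 0 := by rw [hEΔ]; exact_mod_cast hΔ
  have hvΔ : v E.Δ < 1 := by rw [hEΔ]; exact (valuation_intCast_lt_one_iff hℓ hA _).2 hℓΔ
  have hvc4 : v E.c₄ = 1 := by rw [hEc4]; exact valuation_intCast_eq_one hℓ hA hℓc₄
  obtain ⟨a, b, α, C, h, hu, hr, hs, ht, hsE, htE, hα, hvα, hva, hb0, hvb, hvD⟩ :=
    exists_normal_form (v := v) (E := E) h2 (by rw [hE1]; exact valuation_intCast_le_one _)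
      (by rw [hE3]; exact valuation_intCast_le_one _)
      (by rw [hEb2]; exact valuation_intCast_le_one _)
      (by rw [hEb4]; exact valuation_intCast_le_one _)
      (by rw [hEb6]; exact valuation_intCast_le_one _) hΔ0 hvΔ hvc4
  rw [hE1] at hsE
  rw [hE3, hE1] at htE
  exact ⟨⟨a, b, α, C, h, hu, hr, hs, ht, hsE, htE, hα, hvα, hva, hb0, hvb, h2⟩⟩

namespace NormalForm

variable {W : WeierstrassCurve ℤ} {A : ValuationSubring Qb} (N : NormalForm W A)

/-- the point of the model attached to a point of `W`. -/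
noncomputable def toModel (P : Pt W) : (Wab N.a N.b).toAffine.Point := (pointEquiv N.h).symm P

@[simp] theorem toModel_zero : N.toModel 0 = 0 := map_zero _
theorem toModel_add (P P' : Pt W) : N.toModel (P + P') = N.toModel P + N.toModel P' :=
  map_add _ _ _
theorem toModel_neg (P : Pt W) : N.toModel (-P) = -N.toModel P := map_neg _ _
theorem toModel_sub (P P' : Pt W) : N.toModel (P - P') = N.toModel P - N.toModel P' :=
  map_sub _ _ _
theorem toModel_nsmul (n : ℕ) (P : Pt W) : N.toModel (n • P) = n • N.toModel P :=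
  map_nsmul _ _ _

theorem toModel_eq_zero_iff {P : Pt W} : N.toModel P = 0 ↔ P = 0 :=
  (pointEquiv N.h).symm.map_eq_zero_iff

theorem toModel_ne_zero {P : Pt W} (h : P ≠ 0) : N.toModel P ≠ 0 :=
  fun h' => h (N.toModel_eq_zero_iff.1 h')

theorem pointEquiv_toModel (P : Pt W) : pointEquiv N.h (N.toModel P) = P := by
  simp [toModel]

theorem inZero_iff (P : Pt W) : W.InZeroComponentAt A P ↔ InE0 A.valuation (N.toModel P) := by
  have := inZero_iff_inE0 W A N.h N.hu N.hr N.hs N.ht N.hsE N.htE N.h2 N.hva N.hvb (N.toModel P)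
  rwa [N.pointEquiv_toModel] at this

theorem xOf_sub (P P' : Pt W) (hP : P ≠ 0) (hP' : P' ≠ 0) :
    xOf P - xOf P' = xOf (N.toModel P) - xOf (N.toModel P') := by
  have := xOf_sub_pointEquiv N.h (N.toModel_ne_zero hP) (N.toModel_ne_zero hP')
  rw [N.hu, one_pow, one_mul, N.pointEquiv_toModel, N.pointEquiv_toModel] at this
  exact this

theorem hva' : A.valuation N.a ≤ 1 := N.hva.le

end NormalForm

/-! ### multiplicative reduction: the zero component is a subgroup -/

section Mult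

variable {ℓ : ℕ} (hℓ : ℓ.Prime) (hℓ2 : ℓ ≠ 2) (W : WeierstrassCurve ℤ) (hΔ : W.Δ ≠ 0)
  (hℓΔ : (ℓ : ℤ) ∣ W.Δ) (hℓc₄ : ¬ (ℓ : ℤ) ∣ W.c₄) (A : ValuationSubring Qb)
  (hA : A.LiesOverPrime ℓ)

include hℓ hℓ2 hΔ hℓΔ hℓc₄ hA

theorem inZero_add {P P' : Pt W} (hP : W.InZeroComponentAt A P)
    (hP' : W.InZeroComponentAt A P') : W.InZeroComponentAt A (P + P') := by
  obtain ⟨N⟩ := nonempty_normalForm hℓ hℓ2 W hΔ hℓΔ hℓc₄ A hA
  rw [N.inZero_iff] at hP hP' ⊢
  rw [N.toModel_add]
  exact inE0_add N.hvb N.hb0 N.hva' hP hP'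

theorem inZero_neg {P : Pt W} (hP : W.InZeroComponentAt A P) : W.InZeroComponentAt A (-P) := by
  obtain ⟨N⟩ := nonempty_normalForm hℓ hℓ2 W hΔ hℓΔ hℓc₄ A hA
  rw [N.inZero_iff] at hP ⊢
  rw [N.toModel_neg]
  rcases hQ : N.toModel P with _ | ⟨x, y, h⟩
  · exact trivial
  · rw [hQ] at hP
    rw [Point.neg_some]
    exact hP

theorem inZero_sub {P P' : Pt W} (hP : W.InZeroComponentAt A P)
    (hP' : W.InZeroComponentAt A P') : W.InZeroComponentAt A (P - P') := by
  rw [sub_eq_add_neg]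
  exact inZero_add hℓ hℓ2 W hΔ hℓΔ hℓc₄ A hA hP (inZero_neg hℓ hℓ2 W hΔ hℓΔ hℓc₄ A hA hP')

theorem inZero_nsmul {P : Pt W} (hP : W.InZeroComponentAt A P) (n : ℕ) :
    W.InZeroComponentAt A (n • P) := by
  obtain ⟨N⟩ := nonempty_normalForm hℓ hℓ2 W hΔ hℓΔ hℓc₄ A hA
  rw [N.inZero_iff] at hP ⊢
  rw [N.toModel_nsmul]
  exact inE0_nsmul N.hvb N.hb0 N.hva' hP n

/-- if a nonzero multiple of a point of prime order is in the zero component, so is the point. -/
theorem inZero_of_nsmul {p : ℕ} (hp : p.Prime) {Q : Pt W} (hQ : addOrderOf Q = p) {k : ℕ}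
    (hk : k • Q ≠ 0) (hz : W.InZeroComponentAt A (k • Q)) : W.InZeroComponentAt A Q := by
  have hcop : k.Coprime (addOrderOf Q) := by
    rw [hQ, Nat.coprime_comm]
    refine (Nat.Prime.coprime_iff_not_dvd hp).2 fun hd => hk ?_
    rw [← hQ] at hd
    exact addOrderOf_dvd_iff_nsmul_eq_zero.1 hd
  obtain ⟨m, hm⟩ := exists_nsmul_eq_self_of_coprime hcop
  rw [← hm]
  exact inZero_nsmul hℓ hℓ2 W hΔ hℓΔ hℓc₄ A hA hz m

/-- **a point of order `p` in the zero component** (the component group has at most `p` elements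
killed by `p`, the curve has `p²`). -/
theorem exists_inZero_of_order {p : ℕ} (hp : p.Prime) (hp2 : p ≠ 2) :
    ∃ R : Pt W, R ≠ 0 ∧ p • R = 0 ∧ W.InZeroComponentAt A R := by
  classical
  obtain ⟨N⟩ := nonempty_normalForm hℓ hℓ2 W hΔ hℓΔ hℓc₄ A hA
  set E : WeierstrassCurve Qb := (W.map (Int.castRingHom ℚ)).baseChange Qb with hEdef
  have hEΔ : E.Δ = ((W.Δ : ℤ) : Qb) := by
    simp only [hEdef, WeierstrassCurve.baseChange, map_Δ, eq_intCast, map_intCast]
  have hΔ0 : E.Δ ≠ 0 := by rw [hEΔ]; exact_mod_cast hΔ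
  have hodd : Odd p := hp.odd_of_ne_two hp2
  have hpF : ((p : ℕ) : Qb) ≠ 0 := Nat.cast_ne_zero.mpr hp.ne_zero
  have : Finite (Submodule.torsionBy ℤ E.toAffine.Point (p : ℤ)) :=
    Fermat.Agent.DivPoly.CountFinal.finite_torsionBy (W := E) hodd hpF
  have : Fintype (Submodule.torsionBy ℤ E.toAffine.Point (p : ℤ)) := Fintype.ofFinite _
  have hcard : Nat.card (Submodule.torsionBy ℤ E.toAffine.Point (p : ℤ)) = p ^ 2 :=
    Fermat.Agent.DivPoly.CardEq29.card_torsionBy_eq (W := E) hΔ0 hodd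
  have hlt : p < Fintype.card (Submodule.torsionBy ℤ E.toAffine.Point (p : ℤ)) := by
    rw [← Nat.card_eq_fintype_card, hcard]
    have := hp.one_lt
    nlinarith
  have htor : ∀ R : Submodule.torsionBy ℤ E.toAffine.Point (p : ℤ),
      p • (R : E.toAffine.Point) = 0 := by
    intro R
    have := R.2
    rw [Submodule.mem_torsionBy_iff, natCast_zsmul] at this
    exact this
  obtain ⟨i, j, hij, hE0⟩ := exists_inE0_sub N.h2 N.hvb N.hb0 N.hα N.hvα hp.pos hlt
    (fun R : Submodule.torsionBy ℤ E.toAffine.Point (p : ℤ) => N.toModel (R : E.toAffine.Point))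
    (fun R => by rw [← N.toModel_nsmul, htor R, N.toModel_zero])
  refine ⟨(i : E.toAffine.Point) - (j : E.toAffine.Point), ?_, ?_, ?_⟩
  · intro h0
    exact hij (Subtype.ext (sub_eq_zero.1 h0))
  · rw [nsmul_sub, htor i, htor j, sub_zero]
  · rw [N.inZero_iff, N.toModel_sub]
    exact hE0

/-- **injectivity of the reduction on the abscissae of torsion points of the zero component.** -/
theorem val_xOf_sub_of_inZero {n : ℕ} (hn : A.valuation (n : Qb) = 1) {P P' : Pt W}
    (hP : n • P = 0) (hP' : n • P' = 0) (hz : W.InZeroComponentAt A P)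
    (hz' : W.InZeroComponentAt A P') (h0 : P ≠ 0) (h0' : P' ≠ 0) (hadd : P + P' ≠ 0)
    (hsub : P - P' ≠ 0) : A.valuation (xOf P - xOf P') = 1 := by
  obtain ⟨N⟩ := nonempty_normalForm hℓ hℓ2 W hΔ hℓΔ hℓc₄ A hA
  set v := A.valuation with hv
  rw [N.inZero_iff] at hz hz'
  rw [N.xOf_sub P P' h0 h0']
  have hnP : n • N.toModel P = 0 := by rw [← N.toModel_nsmul, hP, N.toModel_zero]
  have hnP' : n • N.toModel P' = 0 := by rw [← N.toModel_nsmul, hP', N.toModel_zero]
  have h1 : v (xOf (N.toModel P)) = 1 :=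
    v_xOf_eq_one N.hva' N.hvb.le hn (N.toModel_ne_zero h0) hz hnP
  have h1' : v (xOf (N.toModel P')) = 1 :=
    v_xOf_eq_one N.hva' N.hvb.le hn (N.toModel_ne_zero h0') hz' hnP'
  have hle : v (xOf (N.toModel P) - xOf (N.toModel P')) ≤ 1 :=
    (Valuation.map_sub v _ _).trans (max_le h1.le h1'.le)
  by_contra hne
  have hlt : v (xOf (N.toModel P) - xOf (N.toModel P')) < 1 := lt_of_le_of_ne hle hne
  have hsm : v (xOf (N.toModel P) ^ 2 - N.b) = 1 := by
    have h2 : v (xOf (N.toModel P) ^ 2) = 1 := by rw [map_pow, h1, one_pow]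
    rw [Valuation.map_sub_eq_of_lt_left v (by rw [h2]; exact N.hvb), h2]
  rcases inE1_sub_or_add N.h2 N.hva' N.hvb.le N.hb0 h1 h1' hsm hlt with h | h
  · have h0 := KernelContract.inE1_torsion_free v N.hva' N.hvb.le hn _ h
      (by rw [smul_sub, hnP, hnP', sub_zero])
    rw [← N.toModel_sub, N.toModel_eq_zero_iff] at h0
    exact hsub h0
  · have h0 := KernelContract.inE1_torsion_free v N.hva' N.hvb.le hn _ h
      (by rw [smul_add, hnP, hnP', add_zero])
    rw [← N.toModel_add, N.toModel_eq_zero_iff] at h0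
    exact hadd h0

end Mult

/-! ### good reduction -/

/-- **injectivity of the reduction on the abscissae of torsion points**, good reduction at an odd
prime. -/
theorem val_xOf_sub_of_good' {ℓ : ℕ} (hℓ : ℓ.Prime) (hℓ2 : ℓ ≠ 2) (W : WeierstrassCurve ℤ)
    (hℓΔ : ¬ (ℓ : ℤ) ∣ W.Δ) (A : ValuationSubring Qb) (hA : A.LiesOverPrime ℓ) {n : ℕ}
    (hn : A.valuation (n : Qb) = 1) {P P' : Pt W} (hP : n • P = 0) (hP' : n • P' = 0)
    (h0 : P ≠ 0) (h0' : P' ≠ 0) (hadd : P + P' ≠ 0) (hsub : P - P' ≠ 0) :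
    A.valuation (xOf P - xOf P') = 1 := by
  set v := A.valuation with hv
  set E : WeierstrassCurve Qb := (W.map (Int.castRingHom ℚ)).baseChange Qb with hEdef
  have h2 : v (2 : Qb) = 1 := valuation_two_eq_one hℓ hA hℓ2
  have hEb2 : E.b₂ = ((W.b₂ : ℤ) : Qb) := by
    simp only [hEdef, WeierstrassCurve.baseChange, map_b₂, eq_intCast, map_intCast]
  have hEb4 : E.b₄ = ((W.b₄ : ℤ) : Qb) := by
    simp only [hEdef, WeierstrassCurve.baseChange, map_b₄, eq_intCast, map_intCast]
  have hEb6 : E.b₆ = ((W.b₆ : ℤ) : Qb) := by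
    simp only [hEdef, WeierstrassCurve.baseChange, map_b₆, eq_intCast, map_intCast]
  have hEΔ : E.Δ = ((W.Δ : ℤ) : Qb) := by
    simp only [hEdef, WeierstrassCurve.baseChange, map_Δ, eq_intCast, map_intCast]
  have hvΔ : v E.Δ = 1 := by rw [hEΔ]; exact valuation_intCast_eq_one hℓ hA hℓΔ
  obtain ⟨a, b, C, h, hu, hva, hvb, hvd⟩ :=
    LocGood8.exists_normal_form_good (v := v) (E := E) h2
      (by rw [hEb2]; exact valuation_intCast_le_one _)
      (by rw [hEb4]; exact valuation_intCast_le_one _)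
      (by rw [hEb6]; exact valuation_intCast_le_one _) hvΔ
  set P₁ : (Wab a b).toAffine.Point := (pointEquiv h).symm P with hP₁
  set P₁' : (Wab a b).toAffine.Point := (pointEquiv h).symm P' with hP₁'
  have e1 : pointEquiv h P₁ = P := by simp [hP₁]
  have e1' : pointEquiv h P₁' = P' := by simp [hP₁']
  have hne : ∀ {S : Pt W}, S ≠ 0 → (pointEquiv h).symm S ≠ 0 := fun hS h' =>
    hS ((pointEquiv h).symm.map_eq_zero_iff.1 h')
  have hdiff : xOf P - xOf P' = xOf P₁ - xOf P₁' := by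
    have := xOf_sub_pointEquiv h (hne h0) (hne h0')
    rw [hu, one_pow, one_mul] at this
    rw [← this, e1, e1']
  have hnP : n • P₁ = 0 := by rw [hP₁, ← map_nsmul, hP, map_zero]
  have hnP' : n • P₁' = 0 := by rw [hP₁', ← map_nsmul, hP', map_zero]
  rw [hdiff]
  refine LocGood8.v_xOf_sub_eq_one h2 hva hvb hvd
    (LocGood8.not_inE1_of_nsmul hva hvb.le hn (hne h0) hnP)
    (LocGood8.not_inE1_of_nsmul hva hvb.le hn (hne h0') hnP')
    (LocGood8.not_inE1_of_nsmul hva hvb.le hn ?_ (by rw [smul_add, hnP, hnP', add_zero]))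
    (LocGood8.not_inE1_of_nsmul hva hvb.le hn ?_ (by rw [smul_sub, hnP, hnP', sub_zero]))
  · rw [hP₁, hP₁', ← map_add]; exact hne hadd
  · rw [hP₁, hP₁', ← map_sub]; exact hne hsub

end Fermat.Agent.M12.Transfer8
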