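import Mathlib
import Fermat.Agent.M12.Transfer8
import Fermat.Agent.W56.FrobGen8

/-!
# M12: a Frobenius-fixed point of large prime order at `3` (helper8)

Let `A` be a place of `ℚ̄` over `3` and `σ` a Frobenius element at `A`.

* `no_frob_fixed_good` (the end of L4b): if `W` has good reduction at `3`, no point of prime
  order `p ≥ 11` is fixed by `σ`;
* `no_frob_fixed_inZero`: if `W` has multiplicative reduction at `3`, no point of prime order
  `p ≥ 11` of the zero component at `A` is fixed by `σ`;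
* `inZero_of_cofixed` (the generic core of L4c): a cofixed cyclic subgroup `⟨Q⟩` of prime order
  `p ≥ 11` lies in the zero component at `A`.

The abscissae of `R, 2R, 3R, 4R` are integral and `σ`-fixed, hence congruent to `0`, `1` or `-1`;
two of them are congruent, which forces `(j ∓ j') R = 0` with `0 < j ∓ j' ≤ 7`.
-/

set_option autoImplicit false
set_option linter.unusedSectionVars false
set_option linter.unusedVariables false

open WeierstrassCurve WeierstrassCurve.Affine

namespace Fermat.Agent.M12.FrobThree8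

open Fermat.Agent.S05 Fermat.Agent.S05.Inertia Fermat.Agent.M15.DictDefs8
  Fermat.Agent.M12.Defs4 Fermat.Agent.M12.Transfer8 Fermat.Agent.M12.ToricModel8

/-! ### residues of Frobenius-fixed integral elements -/

section Residues

variable {A : ValuationSubring Qb} {σ : GQ}

/-- the three residue classes of `𝔽₃`. -/
noncomputable def cls : Fin 3 → Qb := ![0, 1, -1]

/-- an integral element fixed by a Frobenius at `3` is congruent to `0`, `1` or `-1`. -/
theorem exists_cls (hσ : A.IsFrobeniusAt σ 3) {x : Qb} (hx : A.valuation x ≤ 1)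
    (hfix : σ x = x) : ∃ t : Fin 3, A.valuation (x - cls t) < 1 := by
  have hmem : x ∈ A := (A.valuation_le_one_iff x).1 hx
  have h1 := (Fermat.Agent.W56.FrobGen8.isFrobeniusAt_iff.1 hσ).2 x hmem
  rw [hfix, ValuationSubring.mem_nonunits_iff] at h1
  by_contra hcon
  push Not at hcon
  have c0 := hcon 0
  have c1 := hcon 1
  have c2 := hcon 2
  simp only [cls, Matrix.cons_val_zero, Matrix.cons_val_one, Matrix.cons_val, sub_zero,
    sub_neg_eq_add] at c0 c1 c2
  have e : x - x ^ 3 = -(x * ((x - 1) * (x + 1))) := by ring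
  rw [e, Valuation.map_neg, map_mul, map_mul] at h1
  exact absurd h1 (not_lt.2 (one_le_mul_of_one_le_of_one_le c0
    (one_le_mul_of_one_le_of_one_le c1 c2)))

/-- among four integral Frobenius-fixed elements two are congruent. -/
theorem exists_close_pair (hσ : A.IsFrobeniusAt σ 3) (x : Fin 4 → Qb)
    (hx : ∀ j, A.valuation (x j) ≤ 1) (hfix : ∀ j, σ (x j) = x j) :
    ∃ j j' : Fin 4, j ≠ j' ∧ A.valuation (x j - x j') < 1 := by
  have key := fun j => exists_cls hσ (hx j) (hfix j)
  choose c hc using key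
  obtain ⟨j, j', hjj', hcc⟩ := Fintype.exists_ne_map_eq_of_card_lt c (by simp)
  refine ⟨j, j', hjj', ?_⟩
  have h' := hc j'
  rw [← hcc] at h'
  exact close_of_same_sign (cls (c j)) (hc j) h'

end Residues

/-! ### multiples of a point of prime order -/

section Multiples

variable {W : WeierstrassCurve ℤ} {p : ℕ} {R : Pt W}

theorem nsmul_ne_zero_of_lt (hR : addOrderOf R = p) {m : ℕ} (h0 : 0 < m) (hm : m < p) :
    m • R ≠ 0 := by
  intro h
  have hd : p ∣ m := by rw [← hR]; exact addOrderOf_dvd_iff_nsmul_eq_zero.2 h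
  exact absurd (Nat.le_of_dvd h0 hd) (not_le.2 hm)

/-- the four multiples `R, 2R, 3R, 4R` are pairwise distinct up to sign. -/
theorem multiples_distinct (hR : addOrderOf R = p) (hp : 8 ≤ p) {j j' : Fin 4} (hjj' : j ≠ j') :
    ((j : ℕ) + 1) • R ≠ 0 ∧ ((j' : ℕ) + 1) • R ≠ 0 ∧
      ((j : ℕ) + 1) • R + ((j' : ℕ) + 1) • R ≠ 0 ∧
      ((j : ℕ) + 1) • R - ((j' : ℕ) + 1) • R ≠ 0 := by
  have hj := j.2
  have hj' := j'.2
  have hne : (j : ℕ) ≠ (j' : ℕ) := fun h => hjj' (Fin.ext h)
  refine ⟨nsmul_ne_zero_of_lt hR (by omega) (by omega),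
    nsmul_ne_zero_of_lt hR (by omega) (by omega), ?_, ?_⟩
  · rw [← add_nsmul]
    exact nsmul_ne_zero_of_lt hR (by omega) (by omega)
  · rcases lt_or_gt_of_ne hne with hlt | hgt
    · intro h
      have h' : ((j' : ℕ) + 1) • R - ((j : ℕ) + 1) • R = 0 := by
        rw [← neg_sub, h, neg_zero]
      rw [sub_eq_add_neg, ← sub_nsmul R (by omega : (j : ℕ) + 1 ≤ (j' : ℕ) + 1)] at h'
      exact nsmul_ne_zero_of_lt hR (by omega) (by omega) h'
    · rw [sub_eq_add_neg, ← sub_nsmul R (by omega : (j' : ℕ) + 1 ≤ (j : ℕ) + 1)]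
      exact nsmul_ne_zero_of_lt hR (by omega) (by omega)

end Multiples

/-! ### the main statements -/

variable (W : WeierstrassCurve ℤ) {p : ℕ} (hp : p.Prime) (hp11 : 11 ≤ p)
  (A : ValuationSubring Qb) (hA : A.LiesOverPrime 3) {σ : GQ} (hσ : A.IsFrobeniusAt σ 3)

include hp hp11 hA hσ

/-- the abscissae of `R, 2R, 3R, 4R` for a `σ`-fixed point of order `p`: two are congruent. -/
theorem exists_close_multiples {R : Pt W} (hR : addOrderOf R = p) (hfix : σ • R = R) :
    ∃ j j' : Fin 4, j ≠ j' ∧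
      A.valuation (xOf (((j : ℕ) + 1) • R) - xOf (((j' : ℕ) + 1) • R)) < 1 := by
  have h3p : (3 : ℕ) ≠ p := by omega
  have hvp : A.valuation (p : Qb) = 1 := valuation_prime_eq_one Nat.prime_three hA hp h3p
  have hpR : ∀ m : ℕ, p • (m • R) = 0 := by
    intro m
    rw [smul_comm, ← hR, addOrderOf_nsmul_eq_zero, smul_zero]
  refine exists_close_pair hσ (fun j => xOf (((j : ℕ) + 1) • R))
    (fun j => v_xOf_le_one_of_nsmul A hvp (hpR _)) (fun j => ?_)
  rw [← xOf_smul, smul_nsmul', hfix]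

/-- **good reduction at `3`**: no point of prime order `p ≥ 11` is fixed by a Frobenius at `3`. -/
theorem no_frob_fixed_good (h3Δ : ¬ (3 : ℤ) ∣ W.Δ) {R : Pt W} (hR : addOrderOf R = p)
    (hfix : σ • R = R) : False := by
  have h3p : (3 : ℕ) ≠ p := by omega
  have hvp : A.valuation (p : Qb) = 1 := valuation_prime_eq_one Nat.prime_three hA hp h3p
  have hpR : ∀ m : ℕ, p • (m • R) = 0 := by
    intro m
    rw [smul_comm, ← hR, addOrderOf_nsmul_eq_zero, smul_zero]
  obtain ⟨j, j', hjj', hlt⟩ := exists_close_multiples W hp hp11 A hA hσ hR hfix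
  obtain ⟨h1, h2, h3, h4⟩ := multiples_distinct hR (by omega) hjj'
  have := val_xOf_sub_of_good' Nat.prime_three (by norm_num) W (by exact_mod_cast h3Δ) A hA hvp
    (hpR _) (hpR _) h1 h2 h3 h4
  rw [this] at hlt
  exact lt_irrefl _ hlt

/-- **multiplicative reduction at `3`**: no point of prime order `p ≥ 11` of the zero component
at `A` is fixed by a Frobenius at `A`. -/
theorem no_frob_fixed_inZero (hΔ : W.Δ ≠ 0) (h3Δ : (3 : ℤ) ∣ W.Δ) (h3c : ¬ (3 : ℤ) ∣ W.c₄)
    {R : Pt W} (hR : addOrderOf R = p) (hz : W.InZeroComponentAt A R) (hfix : σ • R = R) :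
    False := by
  have h3p : (3 : ℕ) ≠ p := by omega
  have hvp : A.valuation (p : Qb) = 1 := valuation_prime_eq_one Nat.prime_three hA hp h3p
  have hpR : ∀ m : ℕ, p • (m • R) = 0 := by
    intro m
    rw [smul_comm, ← hR, addOrderOf_nsmul_eq_zero, smul_zero]
  have h3Δ' : ((3 : ℕ) : ℤ) ∣ W.Δ := by exact_mod_cast h3Δ
  have h3c' : ¬ ((3 : ℕ) : ℤ) ∣ W.c₄ := by exact_mod_cast h3c
  have hzm : ∀ m : ℕ, W.InZeroComponentAt A (m • R) := fun m =>
    inZero_nsmul Nat.prime_three (by norm_num) W hΔ h3Δ' h3c' A hA hz m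
  obtain ⟨j, j', hjj', hlt⟩ := exists_close_multiples W hp hp11 A hA hσ hR hfix
  obtain ⟨h1, h2, h3, h4⟩ := multiples_distinct hR (by omega) hjj'
  have := val_xOf_sub_of_inZero Nat.prime_three (by norm_num) W hΔ h3Δ' h3c' A hA hvp
    (hpR _) (hpR _) (hzm _) (hzm _) h1 h2 h3 h4
  rw [this] at hlt
  exact lt_irrefl _ hlt

/-- **the generic core of L4c**: a cofixed cyclic subgroup of prime order `p ≥ 11` lies in the
zero component at every place over `3` that has a Frobenius element, when the reduction at `3`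
is multiplicative. -/
theorem inZero_of_cofixed (hΔ : W.Δ ≠ 0) (h3Δ : (3 : ℤ) ∣ W.Δ) (h3c : ¬ (3 : ℤ) ∣ W.c₄)
    {Q : Pt W} (hQ : addOrderOf Q = p) (hcof : IsCofixed Q p) : W.InZeroComponentAt A Q := by
  have h3Δ' : ((3 : ℕ) : ℤ) ∣ W.Δ := by exact_mod_cast h3Δ
  have h3c' : ¬ ((3 : ℕ) : ℤ) ∣ W.c₄ := by exact_mod_cast h3c
  have hp2 : p ≠ 2 := by omega
  by_contra hQ0
  obtain ⟨R, hR0, hpR, hzR⟩ :=
    exists_inZero_of_order Nat.prime_three (by norm_num) W hΔ h3Δ' h3c' A hA hp hp2
  have hR : addOrderOf R = p := by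
    have hd := addOrderOf_dvd_of_nsmul_eq_zero hpR
    rcases (Nat.dvd_prime hp).1 hd with h1 | h1
    · exact absurd (AddMonoid.addOrderOf_eq_one_iff.1 h1) hR0
    · exact h1
  have hzσ : W.InZeroComponentAt A (σ • R) := inZero_smul W A hσ.mem_decompositionSubgroup hzR
  obtain ⟨k, hk⟩ := hcof σ R hpR
  have hzk : W.InZeroComponentAt A (k • Q) := by
    rw [← hk]
    exact inZero_sub Nat.prime_three (by norm_num) W hΔ h3Δ' h3c' A hA hzσ hzR
  have hk0 : k • Q = 0 := by
    by_contra hne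
    exact hQ0 (inZero_of_nsmul Nat.prime_three (by norm_num) W hΔ h3Δ' h3c' A hA hp hQ hne hzk)
  have hfix : σ • R = R := by
    rw [hk0] at hk
    exact sub_eq_zero.1 hk
  exact no_frob_fixed_inZero W hp hp11 A hA hσ hΔ h3Δ h3c hR hzR hfix

end Fermat.Agent.M12.FrobThree8
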