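/-
M12 (helper4): from the frozen hypothesis `HasGaloisStableCofixedLine ℚ P.freyCurve P.p` to a
generator `Q` of the line on the integral model: `Q : Pt P.freyCurveInt` of exact order `p`,
`⟨Q⟩` Galois-stable and cofixed.  Imported by no statement.
-/
import Fermat.Agent.M12.Defs4
import Fermat.Agent.Wire.FreyModel9
import Fermat.Agent.DivPoly.Count
import Fermat.Agent.DivPoly.TorsionFinal

set_option autoImplicit false
set_option linter.unusedSectionVars false
set_option linter.unusedVariables false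
set_option linter.style.haveILetI false

open WeierstrassCurve WeierstrassCurve.Affine WeierstrassCurve.Affine.Point

namespace Fermat.Agent.M12.Gen4

open Fermat.Agent.M12.Defs4

/-- the abstract extraction, for any curve over `ℚ` whose `p`-torsion has at most `p²` points. -/
theorem exists_generator_of_line (Wq : WeierstrassCurve ℚ) {p : ℕ} (hp : p.Prime)
    [Finite (Submodule.torsionBy ℤ (Wq⁄Qb).Point p)]
    (hcard : Nat.card (Submodule.torsionBy ℤ (Wq⁄Qb).Point p) ≤ p ^ 2)
    (h : HasGaloisStableCofixedLine (K := Qb) ℚ Wq p) :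
    ∃ Q : (Wq⁄Qb).Point, addOrderOf Q = p ∧ (∀ σ : GQ, ∃ k : ℕ, σ • Q = k • Q) ∧
      ∀ σ : GQ, ∀ R : (Wq⁄Qb).Point, p • R = 0 → ∃ k : ℕ, σ • R - R = k • Q := by
  haveI : Fact p.Prime := ⟨hp⟩
  obtain ⟨N, hstab, hbot, htop, hcof⟩ := h
  have hdim := Fermat.Agent.DivPoly.Count.finrank_le_two_of_card_le (p := p) hcard
  obtain ⟨hN1, -⟩ := Fermat.Agent.DivPoly.Count.finrank_eq_of_proper hdim N hbot htop
  obtain ⟨x, hxN, hx0⟩ := (Submodule.ne_bot_iff N).mp hbot
  have hx0' : (⟨x, hxN⟩ : N) ≠ 0 := fun h => hx0 (congrArg Subtype.val h)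
  have hgen := (finrank_eq_one_iff_of_nonzero' (⟨x, hxN⟩ : N) hx0').mp hN1
  -- every element of `N` is a natural multiple of `x`
  have hmult : ∀ y ∈ N, ∃ k : ℕ, ((y : Submodule.torsionBy ℤ (Wq⁄Qb).Point p) : (Wq⁄Qb).Point) =
      k • (x : (Wq⁄Qb).Point) := by
    intro y hy
    obtain ⟨c, hc⟩ := hgen ⟨y, hy⟩
    refine ⟨c.val, ?_⟩
    have h1 : (c • x : Submodule.torsionBy ℤ (Wq⁄Qb).Point p) = y := by
      have := congrArg Subtype.val hc
      simpa using this
    rw [← h1, ← ZMod.natCast_zmod_val c, Nat.cast_smul_eq_nsmul]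
    simp
  refine ⟨(x : (Wq⁄Qb).Point), ?_, ?_, ?_⟩
  · -- exact order `p`
    have hpx : p • (x : (Wq⁄Qb).Point) = 0 := by
      have := x.2
      rw [Submodule.mem_torsionBy_iff] at this
      rw [← natCast_zsmul]; exact this
    have hxne : (x : (Wq⁄Qb).Point) ≠ 0 := fun h => hx0 (Subtype.ext h)
    have hd := addOrderOf_dvd_of_nsmul_eq_zero hpx
    rcases (Nat.dvd_prime hp).mp hd with h1 | h1
    · exact absurd (AddMonoid.addOrderOf_eq_one_iff.mp h1) hxne
    · exact h1
  · intro σ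
    obtain ⟨k, hk⟩ := hmult (σ • x) (hstab σ x hxN)
    exact ⟨k, hk⟩
  · intro σ R hR
    have hRt : R ∈ Submodule.torsionBy ℤ (Wq⁄Qb).Point p := by
      rw [Submodule.mem_torsionBy_iff, natCast_zsmul]; exact hR
    obtain ⟨k, hk⟩ := hmult _ (hcof σ ⟨R, hRt⟩)
    exact ⟨k, hk⟩

/-- **the generator of a cofixed line of the Frey curve, on the integral model.** -/
theorem exists_generator (P : FreyPackage)
    (h : HasGaloisStableCofixedLine (K := Qb) ℚ P.freyCurve P.p) :
    ∃ Q : Pt P.freyCurveInt, addOrderOf Q = P.p ∧ IsStable Q ∧ IsCofixed Q P.p := by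
  rw [← Fermat.Agent.Wire.FreyModel9.freyCurveInt_map P] at h
  have hodd : Odd P.p := P.hp_odd
  have hpF : ((P.p : ℕ) : Qb) ≠ 0 := by exact_mod_cast P.hp0
  have htor : Fermat.Agent.DivPoly.Count.TorsionIff
      ((P.freyCurveInt.map (Int.castRingHom ℚ))⁄Qb) P.p := by
    intro x y h
    convert Fermat.Agent.DivPoly.Torsion.torsionIff
      ((P.freyCurveInt.map (Int.castRingHom ℚ))⁄Qb) hodd x y h
  haveI : Finite (Submodule.torsionBy ℤ ((P.freyCurveInt.map (Int.castRingHom ℚ))⁄Qb).Point P.p) :=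
    Fermat.Agent.DivPoly.Count.finite_torsionBy hodd hpF htor
  have hcard := Fermat.Agent.DivPoly.Count.card_torsionBy_le hodd hpF htor
  exact exists_generator_of_line _ P.pp hcard h

end Fermat.Agent.M12.Gen4
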