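/-
M12 (helper5), leaf (4b): **a cofixed line of order `p ≥ 11` forces bad reduction at `3`.**

Generic form: `W/ℤ` with good reduction at an odd prime `ℓ ≠ p`, `Q` of order `p` with `⟨Q⟩`
cofixed in `E[p]`.  Take a Frobenius `σ` at a place `A` over `ℓ`.  `σ - 1` maps `E[p]` (of order
`p²`) into `⟨Q⟩` (of order `p`), so `σ` fixes some `R` of order `p`.  The abscissae
`x(R), x(2R), …, x(((p-1)/2) R)` are `σ`-fixed and pairwise incongruent modulo the maximal ideal
of `A` (good reduction: `E¹` has no `p`-torsion, `M12/LocGood8`), and their differences to `x(R)`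
have residues in `𝔽_ℓ`: `(p - 1)/2 ≤ ℓ`.

Imported by no statement.
-/
import Mathlib
import Fermat.Agent.M12.Defs4
import Fermat.Agent.M12.LocGood8
import Fermat.Agent.W56.FrobGen8
import Fermat.Agent.DivPoly.CardEq29
import Fermat.Agent.M15.VeluMap7
import Fermat.Agent.Lib.FrobeniusExists

set_option autoImplicit false
set_option linter.unusedSectionVars false
set_option linter.unusedVariables false

open WeierstrassCurve WeierstrassCurve.Affine

namespace Fermat.Agent.M12.GoodThree5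

open Fermat.Agent.M12.Defs4 Fermat.Agent.M15.DictDefs8 Fermat.Agent.W56.FrobGen8

/-! ### the counting lemma in the residue field -/

/-- Pairwise incongruent Frobenius-fixed elements of `A`: at most `q` of them. -/
theorem card_le_of_frobenius_fixed {q : ℕ} (hq : 1 < q) {A : ValuationSubring Qb} {φ : GQ}
    (hφ : A.IsFrobeniusAt φ q) {n : ℕ} (z : Fin n → Qb) (hmem : ∀ i, z i ∈ A)
    (hfix : ∀ i, φ (z i) = z i)
    (hunit : ∀ i j, i ≠ j → A.valuation (z i - z j) = 1) : n ≤ q := by
  classical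
  obtain ⟨-, hfrob⟩ := isFrobeniusAt_iff.mp hφ
  set κ := IsLocalRing.ResidueField A
  let f : Fin n → κ := fun i => res A (z i) (hmem i)
  have hinj : Function.Injective f := by
    intro i j hij
    by_contra hne
    have h1 : z i - z j ∈ A.nonunits := (res_eq_iff (hmem i) (hmem j)).mp hij
    rw [ValuationSubring.mem_nonunits_iff] at h1
    rw [hunit i j hne] at h1
    exact lt_irrefl _ h1
  have hroot : ∀ i, f i ∈ (Polynomial.X ^ q - Polynomial.X : Polynomial κ).roots.toFinset := by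
    intro i
    rw [Multiset.mem_toFinset, Polynomial.mem_roots (FiniteField.X_pow_card_sub_X_ne_zero κ hq),
      Polynomial.IsRoot.def, Polynomial.eval_sub, Polynomial.eval_pow, Polynomial.eval_X,
      sub_eq_zero]
    have h1 := hfrob (z i) (hmem i)
    rw [hfix i] at h1
    have h2 := (res_eq_iff (hmem i) (pow_mem (hmem i) q)).mpr h1
    rw [res_pow] at h2
    exact h2.symm
  have hcard : (Finset.univ : Finset (Fin n)).card ≤
      (Polynomial.X ^ q - Polynomial.X : Polynomial κ).roots.toFinset.card :=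
    Finset.card_le_card_of_injOn f (fun i _ => hroot i) (hinj.injOn)
  rw [Finset.card_univ, Fintype.card_fin] at hcard
  calc n ≤ _ := hcard
    _ ≤ (Polynomial.X ^ q - Polynomial.X : Polynomial κ).roots.card := Multiset.toFinset_card_le _
    _ ≤ (Polynomial.X ^ q - Polynomial.X : Polynomial κ).natDegree := Polynomial.card_roots' _
    _ = q := FiniteField.X_pow_card_sub_X_natDegree_eq κ hq

/-! ### multiples of a torsion point have pairwise incongruent abscissae (good reduction) -/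

open Fermat.Agent.S05 Fermat.Agent.S05.Transport Fermat.Agent.S05.Inertia
  Fermat.Agent.M15.LocNormal8 Fermat.Agent.M15.LocZero8 Fermat.Agent.M12.LocGood8 in
/-- At an odd prime `ℓ ≠ p` of good reduction, `x(jR) - x(kR)` is a unit for `R` of order `p` and
`j, k, j + k, j - k` prime to `p`. -/
theorem val_xOf_nsmul_sub_of_good {ℓ : ℕ} (hℓ : ℓ.Prime) (hℓ2 : ℓ ≠ 2) {p : ℕ} (hp : p.Prime)
    (hℓp : ℓ ≠ p) (W : WeierstrassCurve ℤ) (hℓΔ : ¬ (ℓ : ℤ) ∣ W.Δ) (A : ValuationSubring Qb)
    (hA : A.LiesOverPrime ℓ) (R : Pt W) (hR : addOrderOf R = p) {j k : ℕ} (hkj : k < j)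
    (hj : ¬ p ∣ j) (hk : ¬ p ∣ k) (hadd : ¬ p ∣ j + k) (hsub : ¬ p ∣ j - k) :
    A.valuation (xOf (j • R) - xOf (k • R)) = 1 := by
  set v := A.valuation with hv
  set E : WeierstrassCurve Qb := (W.map (Int.castRingHom ℚ)).baseChange Qb with hEdef
  have h2 : v (2 : Qb) = 1 := valuation_two_eq_one hℓ hA hℓ2
  have hvp : v (p : Qb) = 1 := valuation_prime_eq_one hℓ hA hp hℓp
  have hEb2 : E.b₂ = ((W.b₂ : ℤ) : Qb) := by
    simp only [hEdef, WeierstrassCurve.baseChange, map_b₂, eq_intCast, map_intCast]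
  have hEb4 : E.b₄ = ((W.b₄ : ℤ) : Qb) := by
    simp only [hEdef, WeierstrassCurve.baseChange, map_b₄, eq_intCast, map_intCast]
  have hEb6 : E.b₆ = ((W.b₆ : ℤ) : Qb) := by
    simp only [hEdef, WeierstrassCurve.baseChange, map_b₆, eq_intCast, map_intCast]
  have hEΔ : E.Δ = ((W.Δ : ℤ) : Qb) := by
    simp only [hEdef, WeierstrassCurve.baseChange, map_Δ, eq_intCast, map_intCast]
  have hvΔ : v E.Δ = 1 := by rw [hEΔ]; exact valuation_intCast_eq_one hℓ hA hℓΔ
  obtain ⟨a, b, C, h, hu, hva, hvb, hvd⟩ :=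
    exists_normal_form_good (v := v) (E := E) h2
      (by rw [hEb2]; exact valuation_intCast_le_one _)
      (by rw [hEb4]; exact valuation_intCast_le_one _)
      (by rw [hEb6]; exact valuation_intCast_le_one _) hvΔ
  set R' : (Wab a b).toAffine.Point := (pointEquiv h).symm R with hR'def
  have hR' : addOrderOf R' = p := by rw [hR'def, addOrderOf_symm h R, hR]
  have hRR : pointEquiv h R' = R := by simp [hR'def]
  -- multiples prime to `p` are nonzero and outside `E¹`
  have hne : ∀ m : ℕ, ¬ p ∣ m → m • R' ≠ 0 := by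
    intro m hm h0
    exact hm (hR' ▸ addOrderOf_dvd_of_nsmul_eq_zero h0)
  have hpm : ∀ m : ℕ, p • (m • R') = 0 := by
    intro m
    rw [smul_comm, ← hR', addOrderOf_nsmul_eq_zero, smul_zero]
  have hout : ∀ m : ℕ, ¬ p ∣ m → ¬ InE1 v (m • R') := fun m hm =>
    not_inE1_of_nsmul hva hvb.le hvp (hne m hm) (hpm m)
  have hdiff : xOf (j • R) - xOf (k • R) = xOf (j • R') - xOf (k • R') := by
    have := xOf_sub_pointEquiv h (hne j hj) (hne k hk)
    rw [hu, one_pow, one_mul, map_nsmul, map_nsmul, hRR] at this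
    exact this
  rw [hdiff]
  refine v_xOf_sub_eq_one h2 hva hvb hvd (hout j hj) (hout k hk) ?_ ?_
  · rw [← add_nsmul]
    exact hout _ hadd
  · have e : j • R' - k • R' = (j - k) • R' := by
      rw [sub_nsmul _ hkj.le, sub_eq_add_neg]
    rw [e]
    exact hout _ hsub

/-! ### a Galois element fixes a point of order `p` when a line is cofixed -/

/-- If `⟨Q⟩` is cofixed in `E[p]`, every `σ` fixes some point of exact order `p`: `σ - 1` maps the
`p²` points of `E[p]` into the `p` points of `⟨Q⟩`. -/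
theorem exists_fixed_of_cofixed {p : ℕ} (hp : p.Prime) (hp2 : p ≠ 2) (W : WeierstrassCurve ℤ)
    (hΔ : W.Δ ≠ 0) (Q : Pt W) (hQ : addOrderOf Q = p) (hcof : IsCofixed Q p) (σ : GQ) :
    ∃ R : Pt W, addOrderOf R = p ∧ σ • R = R := by
  classical
  by_contra hno
  push Not at hno
  have hodd : Odd p := hp.odd_of_ne_two hp2
  have hΔ' : ((W.map (Int.castRingHom ℚ))⁄Qb).Δ ≠ 0 := by
    simp only [WeierstrassCurve.baseChange, map_Δ, eq_intCast, map_intCast]
    exact_mod_cast hΔ
  have hcard := Fermat.Agent.DivPoly.CardEq29.card_torsionBy_eq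
    (W := ((W.map (Int.castRingHom ℚ))⁄Qb).toAffine) hΔ' hodd
  have hfinQ : Finite ↥(AddSubgroup.zmultiples Q) := by
    exact (finite_zmultiples.mpr (isOfFinAddOrder_iff_nsmul_eq_zero.mpr
      ⟨p, hp.pos, hQ ▸ addOrderOf_nsmul_eq_zero Q⟩)).to_subtype
  have hmem : ∀ R : Submodule.torsionBy ℤ (Pt W) (p : ℤ),
      σ • (R : Pt W) - (R : Pt W) ∈ AddSubgroup.zmultiples Q := by
    intro R
    have hR : p • (R : Pt W) = 0 := by
      have := R.2
      rw [Submodule.mem_torsionBy_iff, natCast_zsmul] at this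
      exact this
    obtain ⟨k, hk⟩ := hcof σ R hR
    rw [hk]
    exact AddSubgroup.nsmul_mem_zmultiples Q k
  let f : Submodule.torsionBy ℤ (Pt W) (p : ℤ) → ↥(AddSubgroup.zmultiples Q) :=
    fun R => ⟨σ • (R : Pt W) - (R : Pt W), hmem R⟩
  have hf : Function.Injective f := by
    intro R₁ R₂ h12
    have h1 : σ • (R₁ : Pt W) - (R₁ : Pt W) = σ • (R₂ : Pt W) - (R₂ : Pt W) :=
      congrArg Subtype.val h12
    have hD : σ • ((R₁ : Pt W) - (R₂ : Pt W)) = (R₁ : Pt W) - (R₂ : Pt W) := by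
      rw [smul_sub]
      exact sub_eq_sub_iff_sub_eq_sub.mp h1
    have hpD : p • ((R₁ : Pt W) - (R₂ : Pt W)) = 0 := by
      have h1' := R₁.2
      have h2' := R₂.2
      rw [Submodule.mem_torsionBy_iff, natCast_zsmul] at h1' h2'
      rw [nsmul_sub, h1', h2', sub_zero]
    by_contra hne
    have hD0 : (R₁ : Pt W) - (R₂ : Pt W) ≠ 0 := fun h0 => hne (Subtype.ext (sub_eq_zero.mp h0))
    have hord : addOrderOf ((R₁ : Pt W) - (R₂ : Pt W)) = p := by
      rcases (Nat.dvd_prime hp).mp (addOrderOf_dvd_of_nsmul_eq_zero hpD) with h | h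
      · exact absurd (AddMonoid.addOrderOf_eq_one_iff.mp h) hD0
      · exact h
    exact hno _ hord hD
  have hle := Nat.card_le_card_of_injective f hf
  rw [hcard, Nat.card_zmultiples, hQ] at hle
  have : p < p ^ 2 := by
    have := hp.two_le
    nlinarith
  omega

/-! ### the bound -/

/-- the abscissa of a multiple of a `σ`-fixed point is `σ`-fixed. -/
theorem apply_xOf_nsmul {W : WeierstrassCurve ℤ} (σ : GQ) {R : Pt W} (hσR : σ • R = R) (m : ℕ) :
    σ (xOf (m • R)) = xOf (m • R) := by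
  have h1 : σ • (m • R) = m • R := by
    have := map_nsmul (DistribSMul.toAddMonoidHom (Pt W) σ) m R
    simp only [DistribSMul.toAddMonoidHom_apply] at this
    rw [this, hσR]
  have h2 : xOf (σ • (m • R)) = σ (xOf (m • R)) :=
    Fermat.Agent.M15.VeluMap7.xOf_map (σ.toAlgHom) (m • R)
  rw [← h2, h1]

/-- **(4b), generic form**: good reduction at an odd prime `ℓ ≠ p` and a cofixed line of order `p`
force `p ≤ 2ℓ + 1`. -/
theorem le_of_cofixed_good {ℓ : ℕ} (hℓ : ℓ.Prime) (hℓ2 : ℓ ≠ 2) {p : ℕ} (hp : p.Prime)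
    (hp2 : p ≠ 2) (hℓp : ℓ ≠ p) (W : WeierstrassCurve ℤ) (hΔ : W.Δ ≠ 0)
    (hℓΔ : ¬ (ℓ : ℤ) ∣ W.Δ) (Q : Pt W) (hQ : addOrderOf Q = p) (hcof : IsCofixed Q p) :
    p ≤ 2 * ℓ + 1 := by
  obtain ⟨A, σ, hA, hσ⟩ := Fermat.Agent.Lib.exists_isFrobeniusAt ℓ hℓ
  obtain ⟨R, hR, hσR⟩ := exists_fixed_of_cofixed hp hp2 W hΔ Q hQ hcof σ
  have hodd : Odd p := hp.odd_of_ne_two hp2
  obtain ⟨n, hn⟩ := hodd
  -- the `n = (p-1)/2` abscissae, relative to the first one
  let z : Fin n → Qb := fun i => xOf ((i.val + 1) • R) - xOf (1 • R)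
  have key : ∀ j k : ℕ, k < j → j ≤ n → 1 ≤ k →
      A.valuation (xOf (j • R) - xOf (k • R)) = 1 := by
    intro j k hkj hj hk
    have hndvd : ∀ m : ℕ, 1 ≤ m → m < p → ¬ p ∣ m := fun m h1 h2 hd =>
      absurd (Nat.le_of_dvd (by omega) hd) (by omega)
    exact val_xOf_nsmul_sub_of_good hℓ hℓ2 hp hℓp W hℓΔ A hA R hR hkj
      (hndvd j (by omega) (by omega)) (hndvd k hk (by omega))
      (hndvd (j + k) (by omega) (by omega)) (hndvd (j - k) (by omega) (by omega))
  have hunit : ∀ i j : Fin n, i ≠ j → A.valuation (z i - z j) = 1 := by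
    intro i j hij
    have e : z i - z j = xOf ((i.val + 1) • R) - xOf ((j.val + 1) • R) := by
      simp only [z]; ring
    rw [e]
    rcases lt_or_gt_of_ne (fun h => hij (Fin.ext h) : i.val ≠ j.val) with h | h
    · rw [← Valuation.map_neg, neg_sub]
      exact key (j.val + 1) (i.val + 1) (by omega) (by have := j.2; omega) (by omega)
    · exact key (i.val + 1) (j.val + 1) (by omega) (by have := i.2; omega) (by omega)
  have hmem : ∀ i : Fin n, z i ∈ A := by
    intro i
    by_cases hi : i.val = 0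
    · have : z i = 0 := by
        simp only [z, hi, zero_add, sub_self]
      rw [this]
      exact A.zero_mem
    · rw [← ValuationSubring.valuation_le_one_iff]
      have : A.valuation (z i) = 1 :=
        key (i.val + 1) 1 (by omega) (by have := i.2; omega) le_rfl
      exact this.le
  have hfix : ∀ i : Fin n, σ (z i) = z i := by
    intro i
    simp only [z]
    rw [map_sub, apply_xOf_nsmul σ hσR, apply_xOf_nsmul σ hσR]
  have := card_le_of_frobenius_fixed hℓ.one_lt hσ z hmem hfix hunit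
  omega

/-- **(4b)**: a Frey curve with a cofixed line of order `p ≥ 11` has bad reduction at `3`. -/
theorem three_dvd_Δ (P : FreyPackage) (hp : 11 ≤ P.p) (Q : Pt P.freyCurveInt)
    (hQ : addOrderOf Q = P.p) (hcof : IsCofixed Q P.p) : (3 : ℤ) ∣ P.freyCurveInt.Δ := by
  by_contra h3
  have hΔ : P.freyCurveInt.Δ ≠ 0 := by
    intro h0
    exact h3 (h0 ▸ dvd_zero _)
  have hp2 : P.p ≠ 2 := by omega
  have h3p : 3 ≠ P.p := by omega
  have := le_of_cofixed_good Nat.prime_three (by norm_num) P.pp hp2 h3p P.freyCurveInt hΔ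
    (by exact_mod_cast h3) Q hQ hcof
  omega

end Fermat.Agent.M12.GoodThree5
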