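/-
M12 (helper4): glue of the three "prime 3 + uniformity" leaves: from `LeafThreeBad` (L4b),
`LeafThreeToric` (L4c) and `LeafTheoremM` (L4a), the generator of a stable cofixed line of the
Frey curve (`17 ≤ p`) lies in the zero component at EVERY place over EVERY odd prime `ℓ ≠ p`
dividing the discriminant.  Imported by no statement.
-/
import Fermat.Agent.M12.Contracts4
import Fermat.Agent.M12.FreyVal4

set_option autoImplicit false
set_option linter.unusedSectionVars false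
set_option linter.unusedVariables false

open WeierstrassCurve WeierstrassCurve.Affine WeierstrassCurve.Affine.Point

namespace Fermat.Agent.M12.ToricAll4

open Fermat.Agent.M12.Defs4 Fermat.Agent.M12.Contracts4 Fermat.Agent.M12.FreyVal4

/-- **toric at every odd bad prime `≠ p`.** -/
theorem toric_all (hM : LeafTheoremM) (h3b : LeafThreeBad) (h3t : LeafThreeToric)
    (P : FreyPackage) (hp : 17 ≤ P.p) (Q : Pt P.freyCurveInt) (hQ : addOrderOf Q = P.p)
    (hst : IsStable Q) (hcof : IsCofixed Q P.p)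
    (hR0 : ∃ R0 : Pt P.freyCurveInt, P.p • R0 = 0 ∧ ∀ k : ℕ, R0 ≠ k • Q)
    {ℓ : ℕ} (hℓ : ℓ.Prime) (hℓ2 : ℓ ≠ 2) (hℓp : ℓ ≠ P.p) (hℓΔ : (ℓ : ℤ) ∣ P.freyCurveInt.Δ)
    (A : ValuationSubring Qb) (hA : A.LiesOverPrime ℓ) :
    P.freyCurveInt.InZeroComponentAt A Q := by
  have h3Δ : (3 : ℤ) ∣ P.freyCurveInt.Δ := h3b P (by omega) Q hQ hcof
  obtain ⟨A₃, hA₃, htor₃⟩ := h3t P (by omega) Q hQ hst hcof hR0 h3Δ
  have h3Δ' : ((3 : ℕ) : ℤ) ∣ P.freyCurveInt.Δ := by exact_mod_cast h3Δ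
  exact hM P.pp (p_notMem P hp) P.freyCurveInt (Δ_ne_zero P) Q hst hQ
    Nat.prime_three (by norm_num) (three_ne_p P hp) h3Δ' (not_dvd_c₄ P Nat.prime_three h3Δ')
    A₃ hA₃ htor₃ hℓ hℓ2 hℓp hℓΔ (not_dvd_c₄ P hℓ hℓΔ) A hA

end Fermat.Agent.M12.ToricAll4
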