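/-
M12 (helper4): glue of the local leaves: for the generator `Q` of a stable cofixed line of the Frey
curve (`17 ≤ p`) and the rational `2`-torsion triple `T P`, at EVERY odd prime `ℓ` there is a place
`A` over `ℓ` and a nonzero element `θ` of the value group with
`v_A(F(i,k)) · θ = v_A(x_i - x_k)^(p-1)` for all `i ≠ k`
(`θ = 1` at the good and toric primes `≠ p`, `θ = ∏_r v(x(rQ))` at `p`).
Imported by no statement.
-/
import Fermat.Agent.M12.ToricAll4
import Fermat.Agent.Lib.FrobeniusExists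

set_option autoImplicit false
set_option linter.unusedSectionVars false
set_option linter.unusedVariables false

open WeierstrassCurve WeierstrassCurve.Affine WeierstrassCurve.Affine.Point

namespace Fermat.Agent.M12.LocalUniform4

open Fermat.Agent.M12.Defs4 Fermat.Agent.M12.Contracts4 Fermat.Agent.M12.FreyVal4
open Fermat.Agent.M12.FreyTors4 Fermat.Agent.M15.DictDefs8

/-- **the uniform local relation at an odd prime.** -/
theorem exists_uniform (hTor : LeafToric) (hGood : LeafGood) (hKer : LeafKernel)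
    (hCK : LeafCofixedKernel) (hM : LeafTheoremM) (h3b : LeafThreeBad) (h3t : LeafThreeToric)
    (P : FreyPackage) (hp : 17 ≤ P.p) (Q : Pt P.freyCurveInt) (hQ : addOrderOf Q = P.p)
    (hst : IsStable Q) (hcof : IsCofixed Q P.p)
    (hR0 : ∃ R0 : Pt P.freyCurveInt, P.p • R0 = 0 ∧ ∀ k : ℕ, R0 ≠ k • Q)
    {ℓ : ℕ} (hℓ : ℓ.Prime) (hℓ2 : ℓ ≠ 2) :
    ∃ A : ValuationSubring Qb, A.LiesOverPrime ℓ ∧ ∃ θ : A.ValueGroup, θ ≠ 0 ∧
      ∀ {i k : Fin 3}, i ≠ k →
        A.valuation (veluFactor (T P) Q P.p i k) * θ =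
          A.valuation (xOf (T P i) - xOf (T P k)) ^ (P.p - 1) := by
  obtain ⟨A, hA⟩ := Fermat.Agent.Lib.FrobeniusExists.exists_valuationSubring_liesOverPrime ℓ hℓ
  have hT : IsTwoTors (T P) := (isRatTwoTors_T P).1
  refine ⟨A, hA, ?_⟩
  by_cases hℓp : ℓ = P.p
  · -- the prime `p`: the line is the kernel of reduction
    subst hℓp
    have hker := hCK P Q hQ hst hcof A hA
    refine ⟨∏ r ∈ Finset.Icc 1 (P.p - 1), A.valuation (xOf (r • Q)), ?_, fun {i k} hik => ?_⟩
    · rw [Finset.prod_ne_zero_iff]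
      intro r hr
      rw [Valuation.ne_zero_iff]
      intro h0
      exact hker r hr (by rw [h0]; exact A.zero_mem)
    · exact hKer hℓ hℓ2 P.pp (p_ne_two P) P.freyCurveInt (Δ_ne_zero P) A hA (T P) hT Q hQ hker hik
  · by_cases hΔ : (ℓ : ℤ) ∣ P.freyCurveInt.Δ
    · -- toric
      have hin := Fermat.Agent.M12.ToricAll4.toric_all hM h3b h3t P hp Q hQ hst hcof hR0 hℓ hℓ2
        hℓp hΔ A hA
      refine ⟨1, one_ne_zero, fun {i k} hik => ?_⟩
      rw [mul_one]
      exact hTor hℓ hℓ2 P.pp (p_ne_two P) hℓp P.freyCurveInt (Δ_ne_zero P) hΔ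
        (not_dvd_c₄ P hℓ hΔ) A hA (T P) hT Q hQ hin hik
    · -- good
      refine ⟨1, one_ne_zero, fun {i k} hik => ?_⟩
      obtain ⟨h1, h2⟩ := hGood hℓ hℓ2 P.pp (p_ne_two P) hℓp P.freyCurveInt (Δ_ne_zero P) hΔ A hA
        (T P) hT Q hQ hik
      rw [mul_one, h1, h2, one_pow]

end Fermat.Agent.M12.LocalUniform4
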