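/-
M12 / Theorem M (L4a), MOD part (helper4): the modular point of `(E, ⟨Q⟩)` on `X₀(p)` for a
Galois-STABLE cyclic subgroup `⟨Q⟩` of order `p` (in M15 the point `Q` itself was rational).
Copies of `ModGlob7.exists_fixed_place / exists_rational_place`, `ModFinal8.modPointOdd`,
`ModComplete8.modPointOdd_final` with `IsStable Q` in place of `∀ σ, σ • Q = Q`; the only new
input is `veluJ_nsmul`: the `j`-invariant of `E/⟨Q⟩` depends only on `⟨Q⟩`.
Imported by no statement.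
-/
import Mathlib
import Fermat.Agent.M12.Defs4
import Fermat.Agent.M15.ModComplete8

set_option autoImplicit false
set_option linter.unusedSectionVars false
set_option linter.unusedVariables false
set_option linter.style.haveILetI false
set_option linter.style.longLine false
set_option synthInstance.maxHeartbeats 400000

open UpperHalfPlane hiding I
open scoped MatrixGroups

noncomputable section

namespace Fermat.Agent.M12.ModStable4

open WeierstrassCurve WeierstrassCurve.Affine AlgebraicCurve ModularCurve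
open Fermat.Agent.X0 Fermat.Agent.X0.PointPlacesD Fermat.Agent.X0.FF
open Fermat.Agent.RED.BASE.Unbranched14 Fermat.Agent.RED.BASE.Hauptmodul12
open Fermat.Agent.M15.DictDefs8 Fermat.Agent.M15.VeluDefs7 Fermat.Agent.M15.VeluMap7
open Fermat.Agent.M15.PlaceVal7 Fermat.Agent.M15.PlaceTau7 Fermat.Agent.M15.DiscSep7
open Fermat.Agent.M15.Contracts9 Fermat.Agent.M15.CuspTors0 Fermat.Agent.M15.CuspRat9
open Fermat.Agent.T33.Psi3C
open Fermat.Agent.M15.ModGlob7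

/-! ### re-indexing -/

theorem sum_nsmul_reindex {G K : Type*} [AddGroup G] [AddCommMonoid K] {p : ℕ} (hp : p.Prime)
    {Q : G} (hQ : addOrderOf Q = p) {m : ℕ} (hm : ¬ p ∣ m) (g : G → K) :
    ∑ k ∈ Finset.Ico 1 p, g (k • (m • Q)) = ∑ k ∈ Finset.Ico 1 p, g (k • Q) := by
  have hmaps : Set.MapsTo (fun k : ℕ => (k * m) % p) (Finset.Ico 1 p : Set ℕ)
      (Finset.Ico 1 p : Set ℕ) := by
    intro k hk
    simp only [Finset.coe_Ico, Set.mem_Ico] at hk ⊢
    refine ⟨Nat.pos_of_ne_zero fun h0 => ?_, Nat.mod_lt _ hp.pos⟩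
    have hd : p ∣ k * m := Nat.dvd_of_mod_eq_zero h0
    rcases (Nat.Prime.dvd_mul hp).mp hd with h | h
    · exact absurd (Nat.le_of_dvd (by omega) h) (by omega)
    · exact hm h
  have hinj : Set.InjOn (fun k : ℕ => (k * m) % p) (Finset.Ico 1 p : Set ℕ) := by
    intro k hk k' hk' h
    simp only [Finset.coe_Ico, Set.mem_Ico] at hk hk'
    have h1 : k * m ≡ k' * m [MOD p] := h
    have hcop : Nat.Coprime p m := (Nat.Prime.coprime_iff_not_dvd hp).mpr hm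
    have h2 : k ≡ k' [MOD p] := Nat.ModEq.cancel_right_of_coprime hcop h1
    exact Nat.ModEq.eq_of_lt_of_lt h2 hk.2 hk'.2
  refine Finset.sum_nbij (fun k => (k * m) % p) hmaps hinj
    (Finset.surjOn_of_injOn_of_card_le _ hmaps hinj le_rfl) fun k _ => ?_
  congr 1
  rw [← mul_nsmul', ← hQ, mod_addOrderOf_nsmul]

section Velu

variable {K : Type*} [Field K] [DecidableEq K]

theorem veluG2_nsmul (E : WeierstrassCurve.Affine K) {p : ℕ} (hp : p.Prime) {Q : E.Point}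
    (hQ : addOrderOf Q = p) {m : ℕ} (hm : ¬ p ∣ m) : veluG2 E (m • Q) p = veluG2 E Q p := by
  unfold veluG2 veluX
  congr 1
  exact sum_nsmul_reindex hp hQ hm fun R => 60 * (xOf R + E.b₂ / 12) ^ 2 - 5 * (E.c₄ / 12)

theorem veluG3_nsmul (E : WeierstrassCurve.Affine K) {p : ℕ} (hp : p.Prime) {Q : E.Point}
    (hQ : addOrderOf Q = p) {m : ℕ} (hm : ¬ p ∣ m) : veluG3 E (m • Q) p = veluG3 E Q p := by
  unfold veluG3 veluX
  congr 1
  exact sum_nsmul_reindex hp hQ hm fun R =>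
    140 * (xOf R + E.b₂ / 12) ^ 3 - 21 * (E.c₄ / 12) * (xOf R + E.b₂ / 12) - 14 * (E.c₆ / 216)

/-- **the `j`-invariant of `E/⟨Q⟩` depends only on the subgroup `⟨Q⟩`.** -/
theorem veluJ_nsmul (E : WeierstrassCurve.Affine K) {p : ℕ} (hp : p.Prime) {Q : E.Point}
    (hQ : addOrderOf Q = p) {m : ℕ} (hm : ¬ p ∣ m) : veluJ E (m • Q) p = veluJ E Q p := by
  unfold veluJ
  rw [veluG2_nsmul E hp hQ hm, veluG3_nsmul E hp hQ hm]

end Velu

variable (p : ℕ) [NeZero p]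

/-- **(MOD-glob), strong form, for a stable subgroup.** -/
theorem exists_fixed_place' (hp : p.Prime) (hodd : Odd p) (W : WeierstrassCurve ℤ)
    (hΔ : W.Δ ≠ 0) (Q : ((W.map (Int.castRingHom ℚ))⁄(AlgebraicClosure ℚ)).Point)
    (hQst : Fermat.Agent.M12.Defs4.IsStable Q) (hQ : addOrderOf Q = p)
    (A : ValuationSubring Qb) (hpA : A.valuation (p : Qb) = 1) {cj : Qb}
    (hcj : cj * ((W.Δ : ℤ) : Qb) = ((W.c₄ : ℤ) : Qb) ^ 3) (hcjA : cj ∉ A) :
    ∃ x : Pl p, (∀ σ : GQ, gal p σ • x = x) ∧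
      0 < x.ord (jF p - algebraMap Qb (FF p) cj) ∧
      ∀ T : Fin 3 → ((W.map (Int.castRingHom ℚ))⁄(AlgebraicClosure ℚ)).Point, IsTwoTors T →
        veluRatio T Q p ≠ 0 ∧
        ∀ cu : Qb, cu * veluRatio T Q p = (p : Qb) ^ 12 →
          0 < x.ord (uF p - algebraMap Qb (FF p) cu⁻¹) ∧
          0 < x.ord ((uF p)⁻¹ - algebraMap Qb (FF p) cu) := by
  have hΔq : (W.map (Int.castRingHom ℚ)).Δ ≠ 0 := by
    rw [WeierstrassCurve.map_Δ]
    simpa using hΔ
  obtain ⟨τ₀, hc, hjd, hxj, -, hxu⟩ := exists_place p hp hodd (W.map (Int.castRingHom ℚ)) hΔq Q hQ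
  -- identify `cj`
  have hΔb : ((W.Δ : ℤ) : Qb) ≠ 0 := by exact_mod_cast hΔ
  have hcj' : algebraMap ℚ Kbar ((W.map (Int.castRingHom ℚ)).c₄ ^ 3 /
      (W.map (Int.castRingHom ℚ)).Δ) = cj := by
    rw [WeierstrassCurve.map_Δ, WeierstrassCurve.map_c₄, map_div₀, map_pow, eq_intCast,
      eq_intCast, map_intCast, map_intCast, div_eq_iff hΔb, hcj]
  -- Galois-fixedness of the two values
  have hσj : ∀ σ : GQ, σ (algebraMap ℚ Kbar ((W.map (Int.castRingHom ℚ)).c₄ ^ 3 /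
      (W.map (Int.castRingHom ℚ)).Δ)) = algebraMap ℚ Kbar ((W.map (Int.castRingHom ℚ)).c₄ ^ 3 /
      (W.map (Int.castRingHom ℚ)).Δ) := fun σ => σ.commutes _
  have hσd : ∀ σ : GQ, σ (veluJ ((W.map (Int.castRingHom ℚ))⁄Kbar) Q p) =
      veluJ ((W.map (Int.castRingHom ℚ))⁄Kbar) Q p := by
    intro σ
    have h1 := veluJ_map (S := ℚ) (W' := W.map (Int.castRingHom ℚ)) σ.toAlgHom Q p
    obtain ⟨k, hk⟩ := hQst σ
    have h2 : Point.map (W' := W.map (Int.castRingHom ℚ)) σ.toAlgHom Q = k • Q := hk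
    have hord : addOrderOf (Point.map (W' := W.map (Int.castRingHom ℚ)) σ.toAlgHom Q) = p := by
      rw [addOrderOf_map, hQ]
    have hkp : ¬ p ∣ k := by
      intro hd
      have h0 : k • Q = 0 := by
        rw [← hQ] at hd
        exact addOrderOf_dvd_iff_nsmul_eq_zero.mp hd
      rw [h2, h0, addOrderOf_zero] at hord
      exact hp.one_lt.ne hord
    rw [h2, veluJ_nsmul _ hp hQ hkp] at h1
    exact h1.symm
  have hcjA' : algebraMap ℚ Kbar ((W.map (Int.castRingHom ℚ)).c₄ ^ 3 /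
      (W.map (Int.castRingHom ℚ)).Δ) ∉ A := by rw [hcj']; exact hcjA
  have hfix : ∀ σ : GQ, gal p σ • (pointPlaceD (realizeData p) τ₀ _ hc 1 : Pl p) =
      pointPlaceD (realizeData p) τ₀ _ hc 1 := fun σ =>
    gal_smul_pointPlaceD p hp A hpA hc hcjA' hjd σ (hσj σ) (hσd σ)
  refine ⟨pointPlaceD (realizeData p) τ₀ _ hc 1, hfix, ?_, fun T hT => ?_⟩
  · rw [← hcj']
    exact hxj
  · have hpb : ((p : Qb)) ^ 12 ≠ 0 := pow_ne_zero _ (Nat.cast_ne_zero.mpr hp.ne_zero)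
    have h1 := hxu T hT
    have hR0 : veluRatio T Q p ≠ 0 := by
      have hval := val_eq_of_ord_sub_pos (realizeData p)
        (Fermat.Agent.IG.AN.DeltaQuot19.deltaQuot_mem_HolH p) (isRealizedBy_uF p) τ₀ _ hc 1 _ h1
      intro h0
      rw [h0, zero_div, map_zero] at hval
      exact div_ne_zero (ModularForm.discriminant_ne_zero _) (ModularForm.discriminant_ne_zero _)
        hval
    refine ⟨hR0, fun cu hcu => ?_⟩
    have hmul : cu * veluRatio T Q p ≠ 0 := by rw [hcu]; exact hpb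
    have hcu0 : cu ≠ 0 := left_ne_zero_of_mul hmul
    have e : veluRatio T Q p / (p : Kbar) ^ 12 = cu⁻¹ := by
      rw [← hcu]
      field_simp
    rw [e] at h1
    refine ⟨h1, ?_⟩
    have := ord_inv_sub_inv_pos _ (inv_ne_zero hcu0) h1
    rwa [inv_inv] at this

/-- **(MOD-glob) for a stable subgroup.** -/
theorem exists_rational_place' (hp : p.Prime) (hodd : Odd p) (W : WeierstrassCurve ℤ)
    (hΔ : W.Δ ≠ 0) (Q : ((W.map (Int.castRingHom ℚ))⁄(AlgebraicClosure ℚ)).Point)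
    (hQst : Fermat.Agent.M12.Defs4.IsStable Q) (hQ : addOrderOf Q = p)
    (A : ValuationSubring Qb) (hpA : A.valuation (p : Qb) = 1) {cj : Qb}
    (hcj : cj * ((W.Δ : ℤ) : Qb) = ((W.c₄ : ℤ) : Qb) ^ 3) (hcjA : cj ∉ A) :
    ∃ x : Pl p, IsRat p (cl p x (P0 p hp)) ∧
      0 < x.ord (jF p - algebraMap Qb (FF p) cj) ∧
      ∀ T : Fin 3 → ((W.map (Int.castRingHom ℚ))⁄(AlgebraicClosure ℚ)).Point, IsTwoTors T →
        ∀ cu : Qb, cu * veluRatio T Q p = (p : Qb) ^ 12 →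
          0 < x.ord (uF p - algebraMap Qb (FF p) cu⁻¹) ∧
          0 < x.ord ((uF p)⁻¹ - algebraMap Qb (FF p) cu) := by
  obtain ⟨x, hfix, hj, hu⟩ := exists_fixed_place' p hp hodd W hΔ Q hQst hQ A hpA hcj hcjA
  refine ⟨x, fun σ => ?_, hj, fun T hT => (hu T hT).2⟩
  rw [gal_smul_cl, gal_smul_P0, hfix σ]

/-! ### the assembly of (MOD) at the odd primes, for a stable subgroup
(copy of `ModFinal8.modPointOdd`) -/

open Fermat.Agent.M15.RedAt9 Fermat.Agent.M15.RedCusp0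
open Fermat.Agent.M15.ModLocal8 Fermat.Agent.M15.DictLoc8 Fermat.Agent.M15.ModFinal8
open Fermat.Agent.S05.Inertia

/-- **(MOD) at the odd primes** in the reference wiring, for a Galois-stable subgroup `⟨Q⟩`. -/
theorem modPointOdd' (hp : p.Prime) (hp2 : p ≠ 2)
    (W : WeierstrassCurve ℤ) (hΔ : W.Δ ≠ 0)
    (Q : ((W.map (Int.castRingHom ℚ))⁄(AlgebraicClosure ℚ)).Point)
    (hQst : Fermat.Agent.M12.Defs4.IsStable Q) (hQ : addOrderOf Q = p) :
    Fermat.Agent.M15.Wire0.ModPointOdd p W Q (P0 p hp) (Pinf p) (redAt p) := by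
  have hodd : Odd p := hp.odd_of_ne_two hp2
  by_cases hex : ∃ v : ℕ, v.Prime ∧ v ≠ p ∧ v ≠ 2 ∧ (v : ℤ) ∣ W.Δ ∧ ¬ (v : ℤ) ∣ W.c₄
  · obtain ⟨v₀, hv₀, hv₀p, hv₀2, hv₀Δ, hv₀c⟩ := hex
    obtain ⟨A₀, hA₀⟩ :=
      Fermat.Agent.Lib.FrobeniusExists.exists_valuationSubring_liesOverPrime v₀ hv₀
    have hΔQ : ((W.Δ : ℤ) : Qb) ≠ 0 := by exact_mod_cast hΔ
    set cj : Qb := ((W.c₄ : ℤ) : Qb) ^ 3 / ((W.Δ : ℤ) : Qb) with hcjdef
    have hcj : cj * ((W.Δ : ℤ) : Qb) = ((W.c₄ : ℤ) : Qb) ^ 3 := div_mul_cancel₀ _ hΔQ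
    -- a triple of points of order two
    have hEΔ : ((W.map (Int.castRingHom ℚ)).baseChange Qb).Δ ≠ 0 := by
      have : ((W.map (Int.castRingHom ℚ)).baseChange Qb).Δ = ((W.Δ : ℤ) : Qb) := by
        simp only [WeierstrassCurve.baseChange, map_Δ, eq_intCast, map_intCast]
      rw [this]; exact hΔQ
    obtain ⟨T, hT⟩ := Fermat.Agent.M15.TwoTors8.exists_isTwoTors
      ((W.map (Int.castRingHom ℚ)).baseChange Qb) two_ne_zero hEΔ
    have hR0 : veluRatio T Q p ≠ 0 :=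
      veluRatio_ne_zero p hv₀ hv₀2 (hp := hp) hp2 hv₀p W hΔ hv₀Δ hv₀c A₀ hA₀ T hT Q hQ
    set cu : Qb := (p : Qb) ^ 12 / veluRatio T Q p with hcudef
    have hcu : cu * veluRatio T Q p = (p : Qb) ^ 12 := div_mul_cancel₀ _ hR0
    have hcjA₀ : cj ∉ A₀ :=
      (cusp_criterion hv₀ (locStatement_of_odd hv₀ hv₀2) hp hp2 hv₀p W hΔ hv₀Δ hv₀c A₀ hA₀ T hT
        Q hQ hcj hcu).1
    obtain ⟨x, hxrat, hj, hval⟩ := exists_rational_place' p hp hodd W hΔ Q hQst hQ A₀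
      (valuation_prime_eq_one hv₀ hA₀ hp hv₀p) hcj hcjA₀
    obtain ⟨hu, hU⟩ := hval T hT cu hcu
    refine ⟨x, hxrat, fun v hv hvp hv2 hvΔ hvc A hA => ?_⟩
    have hvp' : ¬ v ∣ p := fun h => hvp ((Nat.prime_dvd_prime_iff_eq hv hp).1 h)
    obtain ⟨-, hin, hout⟩ := cusp_criterion hv (locStatement_of_odd hv hv2) hp hp2 hvp W hΔ hvΔ
      hvc A hA T hT Q hQ hcj hcu
    constructor
    · intro hz
      obtain ⟨h1, h2⟩ := hin hz
      rw [redAt_eq_zero_iff p hv hvp' hA]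
      exact redPull_cl_Pinf p hp hv hvp' hA x cj cu⁻¹ hj hu h1 h2
    · intro hz
      obtain ⟨h1, h2⟩ := hout hz
      rw [redAt_eq_zero_iff p hv hvp' hA]
      exact redPull_cl_P0 p hp hv hvp' hA x cj cu hj hU h1 h2
  · refine ⟨P0 p hp, ?_, fun v hv hvp hv2 hvΔ hvc A hA => absurd ⟨v, hv, hvp, hv2, hvΔ, hvc⟩ hex⟩
    intro σ
    rw [gal_smul_cl, gal_smul_P0]

/-- **(MOD), complete, for a stable subgroup**: there is a place `x` of `X₀(p)` with `cl x P0`
rational which reduces to the cusp `∞` at the places where `Q` is in the zero component and to the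
cusp `0` at the others (odd primes `v ≠ p` of multiplicative reduction). -/
theorem modPointOdd_final' (hp : p.Prime) (hp' : p ∉ ({2, 3, 5, 7, 13} : Finset ℕ)) :
    ∀ (W : WeierstrassCurve ℤ) (Q : ((W.map (Int.castRingHom ℚ))⁄(AlgebraicClosure ℚ)).Point),
      W.Δ ≠ 0 → Fermat.Agent.M12.Defs4.IsStable Q → addOrderOf Q = p →
      Fermat.Agent.M15.Wire0.ModPointOdd p W Q (P0 p hp) (Pinf p) (redAt p) := by
  intro W Q hΔ hQst hQord
  have hp2 : p ≠ 2 := by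
    intro h; apply hp'; simp [h]
  exact modPointOdd' p hp hp2 W hΔ Q hQst hQord

end Fermat.Agent.M12.ModStable4
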