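/-
Programme M12 (target S12), helper1: **rational numbers with trivial valuations**.

* `valuation_ratCast_eq_one_iff` … : for `A` a valuation subring of a field of characteristic zero
  lying over the prime `ℓ` and `q ∈ ℚ^×`: `v_A(q) = 1 ↔ v_ℓ(q) = 0`, `v_A(q) ≤ 1 ↔ 0 ≤ v_ℓ(q)`,
  `v_A(q) < 1 ↔ 0 < v_ℓ(q)`, and `v_A(q) = v_A(q')` as soon as `v_ℓ(q) = v_ℓ(q')`;
* `eq_one_of_padicValRat_eq_zero` : a positive rational number all of whose `ℓ`-adic valuations
  vanish is `1`;
* `eq_two_pow_mul_prime_pow_of_padicValRat` / **`eq_two_pow_mul_prime_pow`** : a positive rational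
  number with trivial valuation at (one place over) every odd prime `ℓ ≠ p` is `2 ^ s * p ^ t`.

Imported by no statement.
-/
import Mathlib
import Fermat.Prelude.Def_FLTPrelim_Ramification
import Fermat.Agent.S13.GalRat

set_option autoImplicit false

namespace Fermat.Agent.M12.RatVal1

open Fermat.Agent.S13.GalRat Fermat.Agent.S05.Inertia

/-! ### `A.valuation` on rational numbers versus `padicValRat` -/

section Val

variable {L : Type*} [Field L] [CharZero L] (A : ValuationSubring L) {ℓ : ℕ}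

set_option linter.unusedSectionVars false in
theorem valuation_prime_ne_one (hA : A.LiesOverPrime ℓ) : A.valuation (ℓ : L) ≠ 1 :=
  (valuation_prime_lt_one (A := A) hA).ne

theorem valuation_prime_pos (hℓ : ℓ.Prime) : (0 : A.ValueGroup) < A.valuation (ℓ : L) := by
  rw [Valuation.pos_iff]
  exact_mod_cast hℓ.ne_zero

/-- `v_A(q) = 1 ↔ v_ℓ(q) = 0`. -/
theorem valuation_ratCast_eq_one_iff (hℓ : ℓ.Prime) (hA : A.LiesOverPrime ℓ) {q : ℚ}
    (hq : q ≠ 0) : A.valuation (q : L) = 1 ↔ padicValRat ℓ q = 0 := by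
  rw [valuation_ratCast_eq_zpow A hℓ hA hq]
  constructor
  · intro h
    have h' : A.valuation (ℓ : L) ^ padicValRat ℓ q = A.valuation (ℓ : L) ^ (0 : ℤ) := by
      rw [h, zpow_zero]
    exact zpow_right_injective₀ (valuation_prime_pos A hℓ) (valuation_prime_ne_one A hA) h'
  · intro h
    rw [h, zpow_zero]

/-- equal `ℓ`-adic valuations give equal `A`-valuations. -/
theorem valuation_ratCast_eq_of_padicValRat_eq (hℓ : ℓ.Prime) (hA : A.LiesOverPrime ℓ) {q q' : ℚ}
    (hq : q ≠ 0) (hq' : q' ≠ 0) (h : padicValRat ℓ q = padicValRat ℓ q') :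
    A.valuation (q : L) = A.valuation (q' : L) := by
  rw [valuation_ratCast_eq_zpow A hℓ hA hq, valuation_ratCast_eq_zpow A hℓ hA hq', h]

/-- equal `A`-valuations give equal `ℓ`-adic valuations. -/
theorem padicValRat_eq_of_valuation_ratCast_eq (hℓ : ℓ.Prime) (hA : A.LiesOverPrime ℓ) {q q' : ℚ}
    (hq : q ≠ 0) (hq' : q' ≠ 0) (h : A.valuation (q : L) = A.valuation (q' : L)) :
    padicValRat ℓ q = padicValRat ℓ q' := by
  rw [valuation_ratCast_eq_zpow A hℓ hA hq, valuation_ratCast_eq_zpow A hℓ hA hq'] at h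
  exact zpow_right_injective₀ (valuation_prime_pos A hℓ) (valuation_prime_ne_one A hA) h

/-- `v_A(q) ≤ 1 ↔ 0 ≤ v_ℓ(q)`. -/
theorem valuation_ratCast_le_one_iff (hℓ : ℓ.Prime) (hA : A.LiesOverPrime ℓ) {q : ℚ}
    (hq : q ≠ 0) : A.valuation (q : L) ≤ 1 ↔ 0 ≤ padicValRat ℓ q := by
  rw [valuation_ratCast_eq_zpow A hℓ hA hq]
  have h0 := valuation_prime_pos A hℓ
  have h1 := valuation_prime_lt_one (A := A) hA
  constructor
  · intro h
    by_contra hneg
    rw [not_le] at hneg
    have : 1 < A.valuation (ℓ : L) ^ padicValRat ℓ q :=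
      one_lt_zpow_of_neg₀ h0 h1 hneg
    exact absurd h (not_le.mpr this)
  · intro h
    exact zpow_le_one₀ h0 h1.le h

/-- `v_A(q) < 1 ↔ 0 < v_ℓ(q)`. -/
theorem valuation_ratCast_lt_one_iff (hℓ : ℓ.Prime) (hA : A.LiesOverPrime ℓ) {q : ℚ}
    (hq : q ≠ 0) : A.valuation (q : L) < 1 ↔ 0 < padicValRat ℓ q := by
  rw [lt_iff_le_and_ne, valuation_ratCast_le_one_iff A hℓ hA hq, Ne,
    valuation_ratCast_eq_one_iff A hℓ hA hq, lt_iff_le_and_ne]
  constructor
  · rintro ⟨h1, h2⟩
    exact ⟨h1, fun h => h2 h.symm⟩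
  · rintro ⟨h1, h2⟩
    exact ⟨h1, fun h => h2 h.symm⟩

end Val

/-! ### positive rationals with all valuations trivial -/

/-- a nonzero natural number without prime factors is `1`. -/
theorem nat_eq_one_of_forall_prime_not_dvd {n : ℕ} (h : ∀ ℓ : ℕ, ℓ.Prime → ¬ ℓ ∣ n) : n = 1 := by
  by_contra hne
  obtain ⟨ℓ, hℓ, hd⟩ := Nat.exists_prime_and_dvd hne
  exact h ℓ hℓ hd

/-- a positive rational number all of whose `ℓ`-adic valuations vanish is `1`. -/
theorem eq_one_of_padicValRat_eq_zero {q : ℚ} (hq : 0 < q)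
    (h : ∀ ℓ : ℕ, ℓ.Prime → padicValRat ℓ q = 0) : q = 1 := by
  have hnum : 0 < q.num := Rat.num_pos.mpr hq
  have hnum0 : q.num ≠ 0 := hnum.ne'
  have hden0 : q.den ≠ 0 := q.den_ne_zero
  -- valuations of numerator and denominator
  have key : ∀ ℓ : ℕ, ℓ.Prime → ¬ ℓ ∣ q.num.natAbs ∧ ¬ ℓ ∣ q.den := by
    intro ℓ hℓ
    have : Fact ℓ.Prime := ⟨hℓ⟩
    have h0 := h ℓ hℓ
    unfold padicValRat at h0
    have hcop : Nat.Coprime q.num.natAbs q.den := q.reduced
    by_cases hd : ℓ ∣ q.num.natAbs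
    · exfalso
      have hnd : ¬ ℓ ∣ q.den := fun hd' =>
        hℓ.one_lt.ne' (Nat.eq_one_of_dvd_coprimes hcop hd hd')
      have h1 : padicValNat ℓ q.den = 0 := padicValNat.eq_zero_of_not_dvd hnd
      have h2 : 1 ≤ padicValInt ℓ q.num := by
        unfold padicValInt
        exact one_le_padicValNat_of_dvd (Int.natAbs_ne_zero.mpr hnum0) hd
      rw [h1] at h0
      omega
    · refine ⟨hd, fun hd' => ?_⟩
      have h1 : padicValInt ℓ q.num = 0 := by
        unfold padicValInt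
        exact padicValNat.eq_zero_of_not_dvd hd
      have h2 : 1 ≤ padicValNat ℓ q.den := one_le_padicValNat_of_dvd hden0 hd'
      rw [h1] at h0
      omega
  have h1 : q.num.natAbs = 1 := nat_eq_one_of_forall_prime_not_dvd fun ℓ hℓ => (key ℓ hℓ).1
  have h2 : q.den = 1 := nat_eq_one_of_forall_prime_not_dvd fun ℓ hℓ => (key ℓ hℓ).2
  have h3 : q.num = 1 := by
    have := Int.natAbs_of_nonneg hnum.le
    omega
  rw [← Rat.num_div_den q, h2, h3]
  norm_num

/-- a positive rational number with `v_ℓ(q) = 0` for every odd prime `ℓ ≠ p` is `2 ^ s * p ^ t`. -/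
theorem eq_two_pow_mul_prime_pow_of_padicValRat {p : ℕ} (hp : p.Prime) {q : ℚ} (hq : 0 < q)
    (h : ∀ ℓ : ℕ, ℓ.Prime → ℓ ≠ 2 → ℓ ≠ p → padicValRat ℓ q = 0) :
    ∃ s t : ℤ, q = (2 : ℚ) ^ s * (p : ℚ) ^ t := by
  have : Fact p.Prime := ⟨hp⟩
  have : Fact (2 : ℕ).Prime := ⟨Nat.prime_two⟩
  have hp0 : (p : ℚ) ≠ 0 := by exact_mod_cast hp.ne_zero
  have h20 : (2 : ℚ) ≠ 0 := two_ne_zero
  by_cases hp2 : p = 2
  · -- only the prime `2`
    refine ⟨padicValRat 2 q, 0, ?_⟩
    rw [zpow_zero, mul_one]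
    set s := padicValRat 2 q with hs
    have hq' : 0 < q / (2 : ℚ) ^ s := div_pos hq (zpow_pos (by norm_num) s)
    have h1 : q / (2 : ℚ) ^ s = 1 := by
      refine eq_one_of_padicValRat_eq_zero hq' fun ℓ hℓ => ?_
      have : Fact ℓ.Prime := ⟨hℓ⟩
      rw [padicValRat.div hq.ne' (zpow_ne_zero s h20), padicValRat.zpow (2 : ℚ)]
      by_cases hℓ2 : ℓ = 2
      · subst hℓ2
        have : padicValRat 2 (2 : ℚ) = 1 := by
          have := padicValRat.self (p := 2) (by norm_num)
          exact_mod_cast this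
        rw [this, mul_one, hs, sub_self]
      · have h2 : padicValRat ℓ (2 : ℚ) = 0 := by
          have : padicValRat ℓ ((2 : ℕ) : ℚ) = 0 := by
            rw [padicValRat.of_nat]
            exact_mod_cast padicValNat_primes hℓ2
          exact_mod_cast this
        rw [h2, mul_zero, sub_zero]
        exact h ℓ hℓ hℓ2 (by rw [hp2]; exact hℓ2)
    field_simp at h1
    exact h1
  · refine ⟨padicValRat 2 q, padicValRat p q, ?_⟩
    set s := padicValRat 2 q with hs
    set t := padicValRat p q with ht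
    have hden : (2 : ℚ) ^ s * (p : ℚ) ^ t ≠ 0 :=
      mul_ne_zero (zpow_ne_zero s h20) (zpow_ne_zero t hp0)
    have hq' : 0 < q / ((2 : ℚ) ^ s * (p : ℚ) ^ t) :=
      div_pos hq (mul_pos (zpow_pos (by norm_num) s) (zpow_pos (by exact_mod_cast hp.pos) t))
    have h2p : padicValRat 2 (p : ℚ) = 0 := by
      rw [padicValRat.of_nat]
      exact_mod_cast padicValNat_primes (p := 2) (q := p) (Ne.symm hp2)
    have hp2' : padicValRat p (2 : ℚ) = 0 := by
      have : padicValRat p ((2 : ℕ) : ℚ) = 0 := by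
        rw [padicValRat.of_nat]
        exact_mod_cast padicValNat_primes (p := p) (q := 2) hp2
      exact_mod_cast this
    have h22 : padicValRat 2 (2 : ℚ) = 1 := by
      have := padicValRat.self (p := 2) (by norm_num)
      exact_mod_cast this
    have hpp : padicValRat p (p : ℚ) = 1 := padicValRat.self hp.one_lt
    have h1 : q / ((2 : ℚ) ^ s * (p : ℚ) ^ t) = 1 := by
      refine eq_one_of_padicValRat_eq_zero hq' fun ℓ hℓ => ?_
      have : Fact ℓ.Prime := ⟨hℓ⟩
      rw [padicValRat.div hq.ne' hden,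
        padicValRat.mul (zpow_ne_zero s h20) (zpow_ne_zero t hp0),
        padicValRat.zpow (2 : ℚ), padicValRat.zpow (p : ℚ)]
      by_cases hℓ2 : ℓ = 2
      · subst hℓ2
        rw [h22, h2p, mul_one, mul_zero, add_zero, hs, sub_self]
      · by_cases hℓp : ℓ = p
        · subst hℓp
          rw [hp2', hpp, mul_zero, mul_one, zero_add, ht, sub_self]
        · have e2 : padicValRat ℓ (2 : ℚ) = 0 := by
            have : padicValRat ℓ ((2 : ℕ) : ℚ) = 0 := by
              rw [padicValRat.of_nat]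
              exact_mod_cast padicValNat_primes hℓ2
            exact_mod_cast this
          have ep : padicValRat ℓ (p : ℚ) = 0 := by
            rw [padicValRat.of_nat]
            exact_mod_cast padicValNat_primes hℓp
          rw [e2, ep, mul_zero, mul_zero, add_zero, sub_zero]
          exact h ℓ hℓ hℓ2 hℓp
    rw [div_eq_one_iff_eq hden] at h1
    exact h1

/-- **a positive rational number with trivial valuation at one place over every odd prime
`ℓ ≠ p` is `2 ^ s * p ^ t`.** -/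
theorem eq_two_pow_mul_prime_pow {p : ℕ} (hp : p.Prime) (q : ℚ) (hq : 0 < q)
    (h : ∀ ℓ : ℕ, ℓ.Prime → ℓ ≠ 2 → ℓ ≠ p →
      ∃ A : ValuationSubring (AlgebraicClosure ℚ), A.LiesOverPrime ℓ ∧
        A.valuation (algebraMap ℚ (AlgebraicClosure ℚ) q) = 1) :
    ∃ s t : ℤ, q = (2 : ℚ) ^ s * (p : ℚ) ^ t := by
  refine eq_two_pow_mul_prime_pow_of_padicValRat hp hq fun ℓ hℓ hℓ2 hℓp => ?_
  obtain ⟨A, hA, hv⟩ := h ℓ hℓ hℓ2 hℓp
  rw [eq_ratCast (algebraMap ℚ (AlgebraicClosure ℚ)) q] at hv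
  exact (valuation_ratCast_eq_one_iff A hℓ hA hq.ne').mp hv

end Fermat.Agent.M12.RatVal1
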