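/-
M12 (helper4): **the assembly of S12 from the leaves** (the literal `Prop`s of `Contracts4`):

  `s12_of_leaves : LeafRatPos → LeafToric → LeafGood → LeafKernel → LeafCofixedKernel → LeafNotMem →
      LeafTheoremM → LeafThreeBad → LeafThreeToric →
      ∀ P : FreyPackage, 17 ≤ P.p → ¬ HasGaloisStableCofixedLine ℚ P.freyCurve P.p`

Chain: `GenExtra4.exists_generator'` (generator `Q` of the line), `FreyTors4.T` (rational
`2`-torsion, `x = 0, A/4, -B/4`), `VeluCocycle4.velu_cocycle` (`d(0,2) + d(2,1) = d(0,1)`),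
`LocalUniform4.exists_uniform` (the odd primes), `LeafNotMem` at `2`, `RatVal4` (valuations of
rational numbers), `Endgame4.endgame` (arithmetic).  Imported by no statement.
-/
import Fermat.Agent.M12.LocalUniform4
import Fermat.Agent.M12.GenExtra4
import Fermat.Agent.M12.VeluCocycle4
import Fermat.Agent.M12.Endgame4

set_option autoImplicit false
set_option linter.unusedSectionVars false
set_option linter.unusedVariables false
set_option linter.style.haveILetI false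

open WeierstrassCurve WeierstrassCurve.Affine WeierstrassCurve.Affine.Point

namespace Fermat.Agent.M12.S12Main4

open Fermat.Agent.M12.Defs4 Fermat.Agent.M12.Contracts4 Fermat.Agent.M12.FreyVal4
open Fermat.Agent.M12.FreyTors4 Fermat.Agent.M15.DictDefs8 Fermat.Agent.M12.RatVal4

/-- the valuation of the image of a product of rationals. -/
theorem val_mul_pow (A : ValuationSubring Qb) (f x : ℚ) (n : ℕ) :
    A.valuation (algebraMap ℚ Qb (f * x ^ n)) =
      A.valuation (algebraMap ℚ Qb f) * A.valuation (algebraMap ℚ Qb x) ^ n := by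
  rw [map_mul, map_pow, map_mul, map_pow]

/-- from the uniform relation at a place over `ℓ` to the `ℓ`-adic valuations. -/
theorem padic_of_uniform {ℓ : ℕ} (hℓ : ℓ.Prime) {A : ValuationSubring Qb}
    (hA : A.LiesOverPrime ℓ) {θ : A.ValueGroup} (hθ : θ ≠ 0) {n : ℕ}
    {F F' : Qb} {f f' x x' : ℚ} (hf : f ≠ 0) (hf' : f' ≠ 0) (hx : x ≠ 0) (hx' : x' ≠ 0)
    (hF : F = algebraMap ℚ Qb f) (hF' : F' = algebraMap ℚ Qb f')
    {d d' : Qb} (hd : A.valuation d = A.valuation (algebraMap ℚ Qb x))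
    (hd' : A.valuation d' = A.valuation (algebraMap ℚ Qb x'))
    (h : A.valuation F * θ = A.valuation d ^ n) (h' : A.valuation F' * θ = A.valuation d' ^ n) :
    padicValRat ℓ (f * x' ^ n) = padicValRat ℓ (f' * x ^ n) := by
  refine padicValRat_eq_of_val_eq hℓ hA (mul_ne_zero hf (pow_ne_zero _ hx'))
    (mul_ne_zero hf' (pow_ne_zero _ hx)) ?_
  rw [val_mul_pow, val_mul_pow, ← hF, ← hF', ← hd, ← hd', ← h, ← h']
  -- `v F * (v F' * θ) = v F' * (v F * θ)`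
  rw [mul_left_comm]

/-- **S12 from the leaves.** -/
theorem s12_of_leaves (hRat : LeafRatPos) (hTor : LeafToric) (hGood : LeafGood)
    (hKer : LeafKernel) (hCK : LeafCofixedKernel) (hNM : LeafNotMem) (hM : LeafTheoremM)
    (h3b : LeafThreeBad) (h3t : LeafThreeToric) (P : FreyPackage) (hp : 17 ≤ P.p) :
    ¬ HasGaloisStableCofixedLine (K := AlgebraicClosure ℚ) ℚ P.freyCurve P.p := by
  intro h
  obtain ⟨Q, hQ, hst, hcof, hR0⟩ := Fermat.Agent.M12.GenExtra4.exists_generator' P h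
  have hT := isRatTwoTors_T P
  have hT2 : IsTwoTors (T P) := hT.1
  have hp2 : P.p ≠ 2 := p_ne_two P
  haveI : NeZero P.p := ⟨P.hp0⟩
  -- the three rational factors
  have h01ne : (0 : Fin 3) ≠ 1 := by decide
  have h21ne : (2 : Fin 3) ≠ 1 := by decide
  have h02ne : (0 : Fin 3) ≠ 2 := by decide
  obtain ⟨f01, h01pos, h01⟩ :=
    hRat P.pp hp2 P.freyCurveInt (Δ_ne_zero P) Q hQ hst (T P) hT h01ne
  obtain ⟨f21, h21pos, h21⟩ :=
    hRat P.pp hp2 P.freyCurveInt (Δ_ne_zero P) Q hQ hst (T P) hT h21ne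
  obtain ⟨f02, h02pos, h02⟩ :=
    hRat P.pp hp2 P.freyCurveInt (Δ_ne_zero P) Q hQ hst (T P) hT h02ne
  -- the cocycle identity
  have hΔq : (P.freyCurveInt.map (Int.castRingHom ℚ)).Δ ≠ 0 := by
    rw [WeierstrassCurve.map_Δ]
    simpa using Δ_ne_zero P
  have hcoc := Fermat.Agent.M12.VeluCocycle4.velu_cocycle P.pp
    (P.freyCurveInt.map (Int.castRingHom ℚ)) hΔq P.hp_odd Q hQ (T P) hT2 h02ne h21ne h01ne
  rw [xOf_sub_zero_two, xOf_sub_two_one, xOf_sub_zero_one, h02, h21, h01, ← map_mul, ← map_mul,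
    ← map_mul, ← map_add] at hcoc
  have hid := (algebraMap ℚ Qb).injective hcoc
  -- nonvanishing
  have hA0 : ((P.a ^ P.p : ℤ) : ℚ) ≠ 0 := by exact_mod_cast pow_ne_zero _ P.ha0
  have hB0 : ((P.b ^ P.p : ℤ) : ℚ) ≠ 0 := by exact_mod_cast pow_ne_zero _ P.hb0
  have hC0 : ((P.c ^ P.p : ℤ) : ℚ) ≠ 0 := by exact_mod_cast pow_ne_zero _ P.hc0
  have hA4 : ((P.a ^ P.p : ℤ) : ℚ) / 4 ≠ 0 := div_ne_zero hA0 (by norm_num)
  have hB4 : ((P.b ^ P.p : ℤ) : ℚ) / 4 ≠ 0 := div_ne_zero hB0 (by norm_num)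
  have hC4 : ((P.c ^ P.p : ℤ) : ℚ) / 4 ≠ 0 := div_ne_zero hC0 (by norm_num)
  -- valuations of the differences
  have hd01 : ∀ A : ValuationSubring Qb, A.valuation (xOf (T P 0) - xOf (T P 1)) =
      A.valuation (algebraMap ℚ Qb (((P.a ^ P.p : ℤ) : ℚ) / 4)) := by
    intro A
    rw [xOf_sub_zero_one, neg_div, map_neg, Valuation.map_neg]
  have hd21 : ∀ A : ValuationSubring Qb, A.valuation (xOf (T P 2) - xOf (T P 1)) =
      A.valuation (algebraMap ℚ Qb (((P.c ^ P.p : ℤ) : ℚ) / 4)) := by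
    intro A
    rw [xOf_sub_two_one, neg_div, map_neg, Valuation.map_neg]
  have hd02 : ∀ A : ValuationSubring Qb, A.valuation (xOf (T P 0) - xOf (T P 2)) =
      A.valuation (algebraMap ℚ Qb (((P.b ^ P.p : ℤ) : ℚ) / 4)) := by
    intro A
    rw [xOf_sub_zero_two]
  -- the odd primes
  have hodd : ∀ ℓ : ℕ, ℓ.Prime → ℓ ≠ 2 →
      padicValRat ℓ (f01 * (((P.c ^ P.p : ℤ) : ℚ) / 4) ^ (P.p - 1)) =
        padicValRat ℓ (f21 * (((P.a ^ P.p : ℤ) : ℚ) / 4) ^ (P.p - 1)) ∧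
      padicValRat ℓ (f02 * (((P.c ^ P.p : ℤ) : ℚ) / 4) ^ (P.p - 1)) =
        padicValRat ℓ (f21 * (((P.b ^ P.p : ℤ) : ℚ) / 4) ^ (P.p - 1)) := by
    intro ℓ hℓ hℓ2
    obtain ⟨A, hA, θ, hθ, hu⟩ := Fermat.Agent.M12.LocalUniform4.exists_uniform hTor hGood hKer hCK
      hM h3b h3t P hp Q hQ hst hcof hR0 hℓ hℓ2
    exact ⟨padic_of_uniform hℓ hA hθ h01pos.ne' h21pos.ne' hA4 hC4 h01 h21 (hd01 A) (hd21 A)
        (hu h01ne) (hu h21ne),
      padic_of_uniform hℓ hA hθ h02pos.ne' h21pos.ne' hB4 hC4 h02 h21 (hd02 A) (hd21 A)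
        (hu h02ne) (hu h21ne)⟩
  -- the prime `2`
  obtain ⟨A₂, hA₂⟩ :=
    Fermat.Agent.Lib.FrobeniusExists.exists_valuationSubring_liesOverPrime 2 Nat.prime_two
  have h2p : (2 : ℕ) ≠ P.p := fun h => hp2 h.symm
  have hv01 : A₂.valuation (veluFactor (T P) Q P.p 0 1) = 1 :=
    hNM Nat.prime_two P.pp hp2 h2p P.freyCurveInt (Δ_ne_zero P) A₂ hA₂ (T P) hT2 Q hQ h01ne
      (xOf_T_one_notMem P hA₂) (xOf_T_zero_mem P)
  have hv21 : A₂.valuation (veluFactor (T P) Q P.p 2 1) = 1 :=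
    hNM Nat.prime_two P.pp hp2 h2p P.freyCurveInt (Δ_ne_zero P) A₂ hA₂ (T P) hT2 Q hQ h21ne
      (xOf_T_one_notMem P hA₂) (xOf_T_two_mem P)
  rw [h01] at hv01
  rw [h21] at hv21
  have h2a : padicValRat 2 f01 = 0 :=
    padicValRat_eq_zero_of_val_eq_one Nat.prime_two hA₂ h01pos.ne' hv01
  have h2b : padicValRat 2 f21 = 0 :=
    padicValRat_eq_zero_of_val_eq_one Nat.prime_two hA₂ h21pos.ne' hv21
  -- the endgame
  refine Fermat.Agent.M12.Endgame4.endgame (A := P.a ^ P.p) (B := P.b ^ P.p) (C := P.c ^ P.p)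
    P.hp_odd (three_le_p P) P.hFLT (odd_a_pow P) (odd_c_pow P) (four_dvd_b_pow' P)
    (b_pow_ne_zero P) h01pos h21pos h02pos ?_ (fun ℓ hℓ hℓ2 => (hodd ℓ hℓ hℓ2).1)
    (fun ℓ hℓ hℓ2 => (hodd ℓ hℓ hℓ2).2) h2a h2b
  linear_combination hid

end Fermat.Agent.M12.S12Main4
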