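/-
M12 (helper4): **S12 from the four leaves still open** (`LeafRatPos` = L2, `LeafTheoremM` = L4a,
`LeafThreeBad` = L4b, `LeafThreeToric` = L4c): the five landed local leaves
(`FactorLoc8.val_veluFactor_toric / val_veluFactor_good`,
`FactorKer2.val_veluFactor_kernel / cofixed_in_kernel / val_veluFactor_of_notMem`) plugged into
`S12Main4.s12_of_leaves`.  Imported by no statement.
-/
import Fermat.Agent.M12.S12Main4
import Fermat.Agent.M12.FactorLoc8
import Fermat.Agent.M12.FactorKer2

set_option autoImplicit false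

open WeierstrassCurve WeierstrassCurve.Affine WeierstrassCurve.Affine.Point

namespace Fermat.Agent.M12.S12Open4

open Fermat.Agent.M12.Contracts4

/-- **S12 from L2, L4a, L4b, L4c.** -/
theorem s12_of_open (hRat : LeafRatPos) (hM : LeafTheoremM) (h3b : LeafThreeBad)
    (h3t : LeafThreeToric) (P : FreyPackage) (hp : 17 ≤ P.p) :
    ¬ HasGaloisStableCofixedLine (K := AlgebraicClosure ℚ) ℚ P.freyCurve P.p :=
  Fermat.Agent.M12.S12Main4.s12_of_leaves hRat
    @Fermat.Agent.M12.FactorLoc8.val_veluFactor_toric
    @Fermat.Agent.M12.FactorLoc8.val_veluFactor_good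
    @Fermat.Agent.M12.FactorKer2.val_veluFactor_kernel
    @Fermat.Agent.M12.FactorKer2.cofixed_in_kernel
    @Fermat.Agent.M12.FactorKer2.val_veluFactor_of_notMem
    hM h3b h3t P hp

end Fermat.Agent.M12.S12Open4
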