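import Mathlib
import Fermat.Agent.M12.FrobThree8
import Fermat.Agent.M12.Contracts4
import Fermat.Agent.Wire.FreyModel9
import Fermat.Agent.Lib.FrobeniusExists

/-!
# M12: the prime `3` for a cofixed cyclic subgroup (helper8)

On top of `FrobThree8` (generic `W`):

* `exists_frob_fixed`: for a cofixed cyclic subgroup `⟨Q⟩` of order `p`, every `σ` fixes a point
  of exact order `p` (`σ - 1` maps the `p²` points of `E[p]` into the `p` points of `⟨Q⟩`);
* `three_dvd_Δ_of_cofixed` (generic L4b) and `three_dvd_Δ : Contracts4.LeafThreeBad`;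
* `toric_at_three_of_cofixed` (generic L4c) and `toric_at_three` = `Contracts4.LeafThreeToric`
  with `11 ≤ P.p` in place of `7 ≤ P.p`.
-/

set_option autoImplicit false
set_option linter.unusedSectionVars false
set_option linter.unusedVariables false

open WeierstrassCurve WeierstrassCurve.Affine

namespace Fermat.Agent.M12.ThreeFinal8

open Fermat.Agent.M15.DictDefs8 Fermat.Agent.M12.Defs4 Fermat.Agent.M12.Transfer8
  Fermat.Agent.M12.FrobThree8

/-- **a fixed point of order `p`**: if `⟨Q⟩` is cofixed, every `σ` fixes a point of exact order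
`p`. -/
theorem exists_frob_fixed (W : WeierstrassCurve ℤ) (hΔ : W.Δ ≠ 0) {p : ℕ} (hp : p.Prime)
    (hp2 : p ≠ 2) {Q : Pt W} (hQ : addOrderOf Q = p) (hcof : IsCofixed Q p) (σ : GQ) :
    ∃ R : Pt W, addOrderOf R = p ∧ σ • R = R := by
  classical
  set E : WeierstrassCurve Qb := (W.map (Int.castRingHom ℚ)).baseChange Qb with hEdef
  have hEΔ : E.Δ = ((W.Δ : ℤ) : Qb) := by
    simp only [hEdef, WeierstrassCurve.baseChange, map_Δ, eq_intCast, map_intCast]
  have hΔ0 : E.Δ ≠ 0 := by rw [hEΔ]; exact_mod_cast hΔ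
  have hodd : Odd p := hp.odd_of_ne_two hp2
  have hpF : ((p : ℕ) : Qb) ≠ 0 := Nat.cast_ne_zero.mpr hp.ne_zero
  have : Finite (Submodule.torsionBy ℤ E.toAffine.Point (p : ℤ)) :=
    Fermat.Agent.DivPoly.CountFinal.finite_torsionBy (W := E) hodd hpF
  have : Fintype (Submodule.torsionBy ℤ E.toAffine.Point (p : ℤ)) := Fintype.ofFinite _
  have hcard : Nat.card (Submodule.torsionBy ℤ E.toAffine.Point (p : ℤ)) = p ^ 2 :=
    Fermat.Agent.DivPoly.CardEq29.card_torsionBy_eq (W := E) hΔ0 hodd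
  have htor : ∀ R : Submodule.torsionBy ℤ E.toAffine.Point (p : ℤ),
      p • (R : E.toAffine.Point) = 0 := by
    intro R
    have := R.2
    rw [Submodule.mem_torsionBy_iff, natCast_zsmul] at this
    exact this
  -- the map `R ↦ σ R - R` into the multiples of `Q`
  set t : Finset (Pt W) := (Finset.range p).image fun k => k • Q with ht
  have htcard : t.card < (Finset.univ :
      Finset (Submodule.torsionBy ℤ E.toAffine.Point (p : ℤ))).card := by
    rw [Finset.card_univ, ← Nat.card_eq_fintype_card, hcard]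
    refine lt_of_le_of_lt (Finset.card_image_le.trans (le_of_eq (Finset.card_range p))) ?_
    have := hp.one_lt
    nlinarith
  have hmaps : ∀ R ∈ (Finset.univ : Finset (Submodule.torsionBy ℤ E.toAffine.Point (p : ℤ))),
      σ • (R : Pt W) - (R : Pt W) ∈ t := by
    intro R _
    obtain ⟨k, hk⟩ := hcof σ (R : Pt W) (htor R)
    rw [hk, ht, Finset.mem_image]
    refine ⟨k % p, Finset.mem_range.2 (Nat.mod_lt _ hp.pos), ?_⟩
    rw [← hQ]
    exact mod_addOrderOf_nsmul Q k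
  obtain ⟨R₁, -, R₂, -, hne, heq⟩ :=
    Finset.exists_ne_map_eq_of_card_lt_of_maps_to htcard hmaps
  refine ⟨(R₁ : Pt W) - (R₂ : Pt W), ?_, ?_⟩
  · have h0 : (R₁ : Pt W) - (R₂ : Pt W) ≠ 0 := fun h => hne (Subtype.ext (sub_eq_zero.1 h))
    have hpR : p • ((R₁ : Pt W) - (R₂ : Pt W)) = 0 := by
      rw [nsmul_sub, htor R₁, htor R₂, sub_zero]
    have hd := addOrderOf_dvd_of_nsmul_eq_zero hpR
    rcases (Nat.dvd_prime hp).1 hd with h1 | h1
    · exact absurd (AddMonoid.addOrderOf_eq_one_iff.1 h1) h0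
    · exact h1
  · rw [smul_sub]
    have e : σ • (R₁ : Pt W) - σ • (R₂ : Pt W) =
        (σ • (R₁ : Pt W) - (R₁ : Pt W)) - (σ • (R₂ : Pt W) - (R₂ : Pt W)) +
          ((R₁ : Pt W) - (R₂ : Pt W)) := by abel
    rw [e, heq, sub_self, zero_add]

/-- **generic L4b**: a curve with a cofixed cyclic subgroup of prime order `p ≥ 11` has bad
reduction at `3`. -/
theorem three_dvd_Δ_of_cofixed (W : WeierstrassCurve ℤ) (hΔ : W.Δ ≠ 0) {p : ℕ} (hp : p.Prime)
    (hp11 : 11 ≤ p) {Q : Pt W} (hQ : addOrderOf Q = p) (hcof : IsCofixed Q p) :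
    (3 : ℤ) ∣ W.Δ := by
  by_contra h3
  obtain ⟨A, σ, hA, hσ⟩ := Fermat.Agent.Lib.exists_isFrobeniusAt 3 Nat.prime_three
  obtain ⟨R, hR, hfix⟩ := exists_frob_fixed W hΔ hp (by omega) hQ hcof σ
  exact no_frob_fixed_good W hp hp11 A hA hσ h3 hR hfix

/-- **generic L4c**: a cofixed cyclic subgroup of prime order `p ≥ 11` is toric at some place
over `3` when the reduction at `3` is multiplicative. -/
theorem toric_at_three_of_cofixed (W : WeierstrassCurve ℤ) (hΔ : W.Δ ≠ 0) (h3Δ : (3 : ℤ) ∣ W.Δ)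
    (h3c : ¬ (3 : ℤ) ∣ W.c₄) {p : ℕ} (hp : p.Prime) (hp11 : 11 ≤ p) {Q : Pt W}
    (hQ : addOrderOf Q = p) (hcof : IsCofixed Q p) :
    ∃ A : ValuationSubring Qb, A.LiesOverPrime 3 ∧ W.InZeroComponentAt A Q := by
  obtain ⟨A, σ, hA, hσ⟩ := Fermat.Agent.Lib.exists_isFrobeniusAt 3 Nat.prime_three
  exact ⟨A, hA, inZero_of_cofixed W hp hp11 A hA hσ hΔ h3Δ h3c hQ hcof⟩

/-- **L4b** for the Frey curve. -/
theorem three_dvd_Δ : Contracts4.LeafThreeBad := by
  intro P hp Q hQ hcof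
  exact three_dvd_Δ_of_cofixed P.freyCurveInt
    (Fermat.Agent.Wire.FreyModel9.freyCurveInt_Δ_ne_zero P) P.pp hp hQ hcof

/-- **L4c** for the Frey curve, with `11 ≤ P.p` (the statement of `Contracts4.LeafThreeToric`
with `11` in place of `7`). -/
theorem toric_at_three (P : FreyPackage) (hp : 11 ≤ P.p) (Q : Pt P.freyCurveInt)
    (hQ : addOrderOf Q = P.p) (hst : IsStable Q) (hcof : IsCofixed Q P.p)
    (hR0 : ∃ R0 : Pt P.freyCurveInt, P.p • R0 = 0 ∧ ∀ k : ℕ, R0 ≠ k • Q)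
    (h3 : (3 : ℤ) ∣ P.freyCurveInt.Δ) :
    ∃ A : ValuationSubring Qb, A.LiesOverPrime 3 ∧ P.freyCurveInt.InZeroComponentAt A Q := by
  have h3' : ((3 : ℕ) : ℤ) ∣ P.freyCurveInt.Δ := by exact_mod_cast h3
  have hc := Fermat.Agent.Wire.FreyModel9.freyCurveInt_isSemistableModel P 3 Nat.prime_three h3'
  exact toric_at_three_of_cofixed P.freyCurveInt
    (Fermat.Agent.Wire.FreyModel9.freyCurveInt_Δ_ne_zero P) h3 (by exact_mod_cast hc) P.pp hp hQ
    hcof

end Fermat.Agent.M12.ThreeFinal8
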