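/-
M12 (helper6), leaf L4c: **the cofixed line of the Frey curve is toric at a place over `3`.**

`toric_at_three : Contracts4.LeafThreeToric`.  Pick a valuation subring `A` of `ℚ̄` over `3` with a
Frobenius element `σ`.  If the generator `Q` of the line is outside the zero component `E⁰(A)`,
then `E[p] = ⟨Q⟩ ⊕ (E⁰(A) ∩ E[p])` (component map, `CompLog6`), the decomposition group preserves
`E⁰(A) ∩ E[p]` and acts trivially on it (cofixedness), so there is a point `R ≠ 0` of order `p` in
`E⁰(A)` fixed by `σ`.  The abscissae of `R, 2R, 3R` in the normal form at `A` are units fixed by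
the Frobenius element, hence `≡ ±1`; this is impossible for `p ≥ 7` (`ToricModel8`).
Imported by no statement.
-/
import Fermat.Agent.M12.Contracts4
import Fermat.Agent.M12.CompLog6
import Fermat.Agent.M12.FrobCount6
import Fermat.Agent.M12.ToricModel8
import Fermat.Agent.M12.FreyTors4
import Fermat.Agent.M12.FreyVal4
import Fermat.Agent.M15.DictLoc8
import Fermat.Agent.Lib.FrobeniusExists

set_option autoImplicit false
set_option linter.unusedSectionVars false
set_option linter.unusedVariables false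

open WeierstrassCurve WeierstrassCurve.Affine WeierstrassCurve.Affine.Point

namespace Fermat.Agent.M12.ToricThree6

open Fermat.Agent.M12.Defs4 Fermat.Agent.M15.DictDefs8 Fermat.Agent.S05
  Fermat.Agent.S05.Transport Fermat.Agent.S05.Inertia Fermat.Agent.M15.LocInt8
  Fermat.Agent.M15.LocZero8

/-! ### the decomposition group preserves the zero component -/

theorem polyF_apply (W : WeierstrassCurve ℤ) (σ : GQ) (x y : Qb) :
    polyF W (σ x) (σ y) = σ (polyF W x y) := by
  simp only [polyF, map_sub, map_add, map_mul, map_pow, map_intCast]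

theorem polyFX_apply (W : WeierstrassCurve ℤ) (σ : GQ) (x y : Qb) :
    polyFX W (σ x) (σ y) = σ (polyFX W x y) := by
  simp only [polyFX, map_sub, map_add, map_mul, map_pow, map_intCast, map_ofNat]

theorem polyFY_apply (W : WeierstrassCurve ℤ) (σ : GQ) (x y : Qb) :
    polyFY W (σ x) (σ y) = σ (polyFY W x y) := by
  simp only [polyFY, map_add, map_mul, map_intCast, map_ofNat]

theorem smul_some (W : WeierstrassCurve ℤ) (σ : GQ) {x y : Qb}
    (h : ((W.map (Int.castRingHom ℚ))⁄Qb).Nonsingular x y) :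
    ∃ h' : ((W.map (Int.castRingHom ℚ))⁄Qb).Nonsingular (σ x) (σ y),
      σ • (Point.some x y h : Pt W) = Point.some (σ x) (σ y) h' := by
  refine ⟨?_, ?_⟩
  · exact ((W.map (Int.castRingHom ℚ)).toAffine.baseChange_nonsingular
      (f := σ.toAlgHom) σ.injective x y).mpr h
  · rw [algEquiv_smul_def, Point.map_some]
    rfl

theorem xOf_smul (W : WeierstrassCurve ℤ) (σ : GQ) (P : Pt W) : xOf (σ • P) = σ (xOf P) := by
  rcases P with _ | ⟨x, y, h⟩
  · have e : σ • (0 : Pt W) = 0 := rfl
    show xOf (σ • (0 : Pt W)) = σ (xOf (0 : Pt W))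
    rw [e]; simp
  · obtain ⟨h', e⟩ := smul_some W σ h
    rw [e]; rfl

/-- **the decomposition group of `A` preserves the zero component at `A`.** -/
theorem inZero_smul (W : WeierstrassCurve ℤ) {A : ValuationSubring Qb} {σ : GQ}
    (hσ : σ ∈ A.decompositionSubgroup ℚ) {P : Pt W} (hP : W.InZeroComponentAt A P) :
    W.InZeroComponentAt A (σ • P) := by
  rcases hP with rfl | ⟨x, y, h, rfl, hh⟩
  · left
    exact (rfl : σ • (0 : Pt W) = 0)
  · right
    obtain ⟨h', e⟩ := smul_some W σ h
    refine ⟨σ x, σ y, h', e, ?_⟩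
    rcases hh with hx | ⟨hx, hy, hns⟩
    · left
      intro hmem
      exact hx ((apply_mem_iff_of_mem_decomposition hσ x).mp hmem)
    · right
      have hx' : σ x ∈ A := (apply_mem_iff_of_mem_decomposition hσ x).mpr hx
      have hy' : σ y ∈ A := (apply_mem_iff_of_mem_decomposition hσ y).mpr hy
      refine ⟨hx', hy', ?_⟩
      rw [nonsingular_residue_iff] at hns ⊢
      rw [polyF_apply, polyFX_apply, polyFY_apply, valuation_apply_of_mem_decomposition hσ,
        valuation_apply_of_mem_decomposition hσ, valuation_apply_of_mem_decomposition hσ]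
      exact hns

/-! ### the core, for a curve over `ℤ` with rational `2`-torsion -/

open Fermat.Agent.M15.LocNormal8 Fermat.Agent.M15.LocModel8 Fermat.Agent.M15.LocCaseA8 in
theorem toric_core (W : WeierstrassCurve ℤ) (hΔ : W.Δ ≠ 0) (h3Δ : (3 : ℤ) ∣ W.Δ)
    (h3c : ¬ (3 : ℤ) ∣ W.c₄) (T : Fin 3 → Pt W) (hT : IsRatTwoTors T)
    {p : ℕ} (hp : p.Prime) (hp7 : 7 ≤ p) (Q : Pt W) (hQ : addOrderOf Q = p)
    (hcof : IsCofixed Q p) (hR0 : ∃ R0 : Pt W, p • R0 = 0 ∧ ∀ k : ℕ, R0 ≠ k • Q)
    (A : ValuationSubring Qb) (hA : A.LiesOverPrime 3) (σ : GQ) (hσ : A.IsFrobeniusAt σ 3) :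
    W.InZeroComponentAt A Q := by
  have hℓ : (3 : ℕ).Prime := Nat.prime_three
  set v := A.valuation with hv
  set E : WeierstrassCurve Qb := (W.map (Int.castRingHom ℚ)).baseChange Qb with hEdef
  have h2 : v (2 : Qb) = 1 := valuation_two_eq_one hℓ hA (by norm_num)
  have h3p : (3 : ℕ) ≠ p := by omega
  have hvp : v (p : Qb) = 1 := valuation_prime_eq_one hℓ hA hp h3p
  have h2K : (2 : Qb) ≠ 0 := two_ne_zero
  -- coefficients
  have hE1 : E.a₁ = ((W.a₁ : ℤ) : Qb) := by simp [hEdef]
  have hE3 : E.a₃ = ((W.a₃ : ℤ) : Qb) := by simp [hEdef]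
  have hEb2 : E.b₂ = ((W.b₂ : ℤ) : Qb) := by
    simp only [hEdef, WeierstrassCurve.baseChange, map_b₂, eq_intCast, map_intCast]
  have hEb4 : E.b₄ = ((W.b₄ : ℤ) : Qb) := by
    simp only [hEdef, WeierstrassCurve.baseChange, map_b₄, eq_intCast, map_intCast]
  have hEb6 : E.b₆ = ((W.b₆ : ℤ) : Qb) := by
    simp only [hEdef, WeierstrassCurve.baseChange, map_b₆, eq_intCast, map_intCast]
  have hEΔ : E.Δ = ((W.Δ : ℤ) : Qb) := by
    simp only [hEdef, WeierstrassCurve.baseChange, map_Δ, eq_intCast, map_intCast]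
  have hEc4 : E.c₄ = ((W.c₄ : ℤ) : Qb) := by
    simp only [hEdef, WeierstrassCurve.baseChange, map_c₄, eq_intCast, map_intCast]
  have hΔ0 : E.Δ ≠ 0 := by rw [hEΔ]; exact_mod_cast hΔ
  have hvΔ : v E.Δ < 1 := by rw [hEΔ]; exact (valuation_intCast_lt_one_iff hℓ hA _).2 h3Δ
  have hvc4 : v E.c₄ = 1 := by rw [hEc4]; exact valuation_intCast_eq_one hℓ hA h3c
  obtain ⟨a, b, α, C, h, hu, hr, hs, ht, hsE, htE, hα, hvα, hva, hb0, hvb, hvD⟩ :=
    exists_normal_form (v := v) (E := E) h2 (by rw [hE1]; exact valuation_intCast_le_one _)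
      (by rw [hE3]; exact valuation_intCast_le_one _)
      (by rw [hEb2]; exact valuation_intCast_le_one _)
      (by rw [hEb4]; exact valuation_intCast_le_one _)
      (by rw [hEb6]; exact valuation_intCast_le_one _) hΔ0 hvΔ hvc4
  rw [hE1] at hsE
  rw [hE3, hE1] at htE
  have hzero : ∀ P' : (Wab a b).toAffine.Point,
      W.InZeroComponentAt A (pointEquiv h P') ↔ InE0 v P' :=
    fun P' => inZero_iff_inE0 W A h hu hr hs ht hsE htE h2 hva hvb P'
  by_contra hQ0
  -- the transported generator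
  set Q' : (Wab a b).toAffine.Point := (pointEquiv h).symm Q with hQ'def
  have hQQ : pointEquiv h Q' = Q := by simp [hQ'def]
  have hQ'0 : ¬ InE0 v Q' := fun h' => hQ0 (by rw [← hQQ]; exact (hzero Q').mpr h')
  have hQp : p • Q = 0 := by rw [← hQ]; exact addOrderOf_nsmul_eq_zero Q
  have hQ'p : p • Q' = 0 := by rw [hQ'def, ← map_nsmul, hQp, _root_.map_zero]
  -- a point of order `p` in the zero component
  obtain ⟨R0, hR0p, hR0Q⟩ := hR0
  set R0' : (Wab a b).toAffine.Point := (pointEquiv h).symm R0 with hR0'def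
  have hR0'p : p • R0' = 0 := by rw [hR0'def, ← map_nsmul, hR0p, _root_.map_zero]
  obtain ⟨k, hk⟩ := CompLog6.exists_inE0_add_nsmul h2 hvb hb0 hα hvα hp hQ'p hQ'0 hR0'p
  set R' : (Wab a b).toAffine.Point := R0' + k • Q' with hR'def
  have hR'p : p • R' = 0 := by rw [hR'def, nsmul_add, hR0'p, ← mul_nsmul', mul_comm, mul_nsmul', hQ'p, nsmul_zero, add_zero]
  have hR'0 : R' ≠ 0 := by
    intro h0
    have e1 : pointEquiv h R' = R0 + k • Q := by
      rw [hR'def, map_add, map_nsmul, hQQ, hR0'def]; simp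
    rw [h0, _root_.map_zero] at e1
    apply hR0Q ((p - 1) * k)
    have e2 : R0 = -(k • Q) := eq_neg_of_add_eq_zero_left e1.symm
    have e3 : ((p - 1) * k) • Q + k • Q = 0 := by
      rw [← add_smul]
      have : (p - 1) * k + k = k * p := by
        have : p - 1 + 1 = p := Nat.sub_add_cancel hp.one_le
        calc (p - 1) * k + k = (p - 1 + 1) * k := by ring
          _ = k * p := by rw [this, mul_comm]
      rw [this, mul_nsmul', hQp, nsmul_zero]
    rw [e2]
    exact (eq_neg_of_add_eq_zero_left e3).symm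
  have hR'ord : addOrderOf R' = p := by
    have hd := addOrderOf_dvd_of_nsmul_eq_zero hR'p
    rcases (Nat.dvd_prime hp).mp hd with h1 | h1
    · exact absurd (AddMonoid.addOrderOf_eq_one_iff.mp h1) hR'0
    · exact h1
  set R : Pt W := pointEquiv h R' with hRdef
  have hRp : p • R = 0 := by rw [hRdef, ← map_nsmul, hR'p, _root_.map_zero]
  -- the Frobenius element fixes `R`
  have hσD : σ ∈ A.decompositionSubgroup ℚ := hσ.mem_decompositionSubgroup
  have hfix : σ • R = R := by
    obtain ⟨m, hm⟩ := hcof σ R hRp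
    have h1 : W.InZeroComponentAt A (σ • R) := inZero_smul W hσD ((hzero R').mpr hk)
    have h2' : InE0 v ((pointEquiv h).symm (σ • R)) := by
      apply (hzero _).mp
      rw [AddEquiv.apply_symm_apply]
      exact h1
    have h3 : InE0 v (m • Q') := by
      have e : m • Q' = (pointEquiv h).symm (σ • R) - R' := by
        rw [hQ'def, ← map_nsmul, ← hm, map_sub, hRdef, AddEquiv.symm_apply_apply]
      rw [e]
      exact CompLog6.inE0_sub hvb hb0 hva.le h2' hk
    have h4 := CompLog6.nsmul_eq_zero_of_inE0 hvb hb0 hva.le hp hQ'p hQ'0 h3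
    have h5 : m • Q = 0 := by rw [← hQQ, ← map_nsmul, h4, _root_.map_zero]
    rw [h5] at hm
    exact sub_eq_zero.mp hm
  -- the translation `C.r` is rational
  have hrfix : σ C.r = C.r := by
    set T' : Fin 3 → (Wab a b).toAffine.Point := fun i => (pointEquiv h).symm (T i) with hT'def
    have hT' : IsTwoTors T' := isTwoTors_symm h hT.1
    obtain ⟨i0, iu, ib, eu, eb, h0u, h0b, hub, hT0, -⟩ := exists_labels v h2K hb0 hva hvb hT'
    have e1 : T i0 = pointEquiv h (T0 hb0) := by rw [← hT0]; simp [hT'def]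
    have e2 : xOf (T i0) = C.r := by
      rw [e1, xOf_pointEquiv h (show T0 hb0 ≠ 0 from Point.some_ne_zero _), xOf_T0, mul_zero, zero_add]
    have e3 := xOf_smul W σ (T i0)
    rw [hT.2 σ i0, e2] at e3
    exact e3.symm
  -- the residues of the abscissae of `R`, `2R`, `3R`
  have hres : ∀ j ∈ ({1, 2, 3} : Finset ℕ),
      v (xOf (j • R') - 1) < 1 ∨ v (xOf (j • R') + 1) < 1 := by
    intro j hj
    have hj0 : 0 < j ∧ j < p := by
      simp only [Finset.mem_insert, Finset.mem_singleton] at hj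
      omega
    have hne : j • R' ≠ 0 := by
      intro h0
      have hd : p ∣ j := by rw [← hR'ord]; exact addOrderOf_dvd_iff_nsmul_eq_zero.2 h0
      exact absurd (Nat.le_of_dvd hj0.1 hd) (not_le.2 hj0.2)
    have hjp : p • (j • R') = 0 := by rw [← mul_nsmul', mul_comm, mul_nsmul', hR'p, nsmul_zero]
    have hx1 : v (xOf (j • R')) = 1 :=
      v_xOf_eq_one hva.le hvb.le hvp hne (CompLog6.inE0_nsmul hvb hb0 hva.le hk j) hjp
    have hxfix : σ (xOf (j • R')) = xOf (j • R') := by
      have e : xOf (pointEquiv h (j • R')) = xOf (j • R') + C.r := by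
        rw [xOf_pointEquiv h hne, hu]; ring
      have e2 : σ • (pointEquiv h (j • R')) = pointEquiv h (j • R') := by
        rw [map_nsmul, ← hRdef, smul_comm, hfix]
      have e3 := xOf_smul W σ (pointEquiv h (j • R'))
      rw [e2, e, map_add, hrfix] at e3
      exact (add_right_cancel e3).symm
    have hfrob := FrobCount6.frob_congr hσ hx1.le
    rw [hxfix] at hfrob
    exact ToricModel8.close_to_sign hx1 hfrob
  exact ToricModel8.no_small_residues h2 hva.le hvb hb0 hp hp7 hvp hR'ord hk hres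

/-! ### the leaf -/

/-- **L4c**: the cofixed line of the Frey curve is toric at some place over `3`. -/
theorem toric_at_three : Fermat.Agent.M12.Contracts4.LeafThreeToric := by
  intro P hp Q hQ hst hcof hR0 h3
  obtain ⟨A, σ, hA, hσ⟩ := Fermat.Agent.Lib.exists_isFrobeniusAt 3 Nat.prime_three
  exact ⟨A, hA, toric_core P.freyCurveInt (Fermat.Agent.M12.FreyVal4.Δ_ne_zero P) h3
    (Fermat.Agent.M12.FreyVal4.not_dvd_c₄ P Nat.prime_three h3) (Fermat.Agent.M12.FreyTors4.T P)
    (Fermat.Agent.M12.FreyTors4.isRatTwoTors_T P) P.pp hp Q hQ hcof hR0 A hA σ hσ⟩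

end Fermat.Agent.M12.ToricThree6
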