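/-
M12 (helper4): **S12 from Theorem M alone** (`Contracts4.LeafTheoremM` = L4a): all the other leaves
are landed (`FactorRat2.veluFactor_rat_pos` = L2, `FactorLoc8` = L3a/L3b, `FactorKer2` = L3c/L3c'/L3d,
`ThreeFinal8.three_dvd_Δ` = L4b, `ToricThree6.toric_at_three` = L4c) and plugged into
`S12Open4.s12_of_open`.  Imported by no statement.
-/
import Fermat.Agent.M12.S12Open4
import Fermat.Agent.M12.FactorRat2
import Fermat.Agent.M12.ThreeFinal8
import Fermat.Agent.M12.ToricThree6

set_option autoImplicit false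

open WeierstrassCurve WeierstrassCurve.Affine WeierstrassCurve.Affine.Point

namespace Fermat.Agent.M12.S12OfM4

open Fermat.Agent.M12.Contracts4

/-- **S12 from Theorem M.** -/
theorem s12_of_theoremM (hM : LeafTheoremM) (P : FreyPackage) (hp : 17 ≤ P.p) :
    ¬ HasGaloisStableCofixedLine (K := AlgebraicClosure ℚ) ℚ P.freyCurve P.p :=
  Fermat.Agent.M12.S12Open4.s12_of_open
    @Fermat.Agent.M12.FactorRat2.veluFactor_rat_pos hM
    Fermat.Agent.M12.ThreeFinal8.three_dvd_Δ
    Fermat.Agent.M12.ToricThree6.toric_at_three P hp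

end Fermat.Agent.M12.S12OfM4
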