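/-
M12 / Theorem M (L4a), the deduction (helper4, backup of helper7's TheoremM7): uniformity of the
component of a Galois-stable cyclic subgroup `⟨Q⟩` of order `p ∉ {2,3,5,7,13}` across the odd primes
`≠ p` of multiplicative reduction.  Copy of the body of `Assemble9.s15_of_open_some` with the roles
`(A1, 3) := (A₂, ℓ₂)` (assumed non-toric) and `(A, ℓ) := (A₁, ℓ₁)` (toric), on top of
`ModStable4.modPointOdd_final'`, `S15Lead0.heckeStable` (W3) and `FlatEndC2.sharpDescentAll` (SD).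
Imported by no statement.
-/
import Mathlib
import Fermat.Agent.M12.ModStable4
import Fermat.Agent.M12.Contracts4
import Fermat.Agent.M15.S15Lead0

set_option autoImplicit false
set_option linter.style.haveILetI false
set_option linter.unusedVariables false
set_option linter.unusedSectionVars false
set_option synthInstance.maxHeartbeats 400000

noncomputable section

namespace Fermat.Agent.M12.TheoremM4

open ModularCurve AlgebraicCurve
open WeierstrassCurve WeierstrassCurve.Affine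
open Fermat.Agent.M15.Contracts9 Fermat.Agent.M15.Core9 Fermat.Agent.M15.CuspTors0
open Fermat.Agent.M15.RedAt9 Fermat.Agent.M15.Assemble9

/-- **Theorem M.** -/
theorem theoremM : Fermat.Agent.M12.Contracts4.LeafTheoremM := by
  intro p hp hp' W hΔ Q hst hQord ℓ₁ hℓ₁ hℓ₁2 hℓ₁p hℓ₁Δ hℓ₁c A₁ hA₁ hin ℓ₂ hℓ₂ hℓ₂2 hℓ₂p hℓ₂Δ hℓ₂c
    A₂ hA₂
  by_contra hnot
  haveI : NeZero p := ⟨hp.ne_zero⟩
  have hT : HeckeStable p := Fermat.Agent.M15.S15Lead0.heckeStable p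
  have hC := Fermat.Agent.M15.CuspEigen9.cuspFacts p hp hp'
  have hGal : ∀ (r : Nat.Primes) (σ : GQ) (z : JZero p),
      heckeOperatorBar p r (σ • z) = σ • heckeOperatorBar p r z :=
    fun r σ z => Fermat.Agent.ES.HECKE.HeckeGalois12.heckeOperatorBar_smul p r σ z
  obtain ⟨p', hp'prime, hp'dvd, hSD'⟩ :=
    sharpDescentSome_of_all p hp hp' (Fermat.Agent.M15.FlatEndC2.sharpDescentAll p hp hp')
  obtain ⟨x, hxrat, hx⟩ :=
    Fermat.Agent.M12.ModStable4.modPointOdd_final' p hp hp' W Q hΔ hst hQord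
  set P0' := P0 p hp with hP0
  set Pinf' := Pinf p with hPinf
  have hfo : IsOfFinAddOrder (cl p P0' Pinf') := by
    have hp2 : 2 ≤ p := hp.two_le
    exact isOfFinAddOrder_iff_nsmul_eq_zero.mpr ⟨p - 1, by omega, hC.tors⟩
  set n0 := addOrderOf (cl p P0' Pinf') with hn0
  have hR1 := redFacts p hp hT hℓ₂ hℓ₂2 hℓ₂p A₂ hA₂
  have hRl := redFacts p hp hT hℓ₁ hℓ₁2 hℓ₁p A₁ hA₁
  have hy1 : (redAt p A₂).Φ (cl p x P0') = 0 :=
    (hx ℓ₂ hℓ₂ hℓ₂p hℓ₂2 hℓ₂Δ hℓ₂c A₂ hA₂).2 hnot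
  have hyl : (redAt p A₁).Φ (cl p x P0' + cl p P0' Pinf') = 0 := by
    rw [cl_add_cl]
    exact (hx ℓ₁ hℓ₁ hℓ₁p hℓ₁2 hℓ₁Δ hℓ₁c A₁ hA₁).1 hin
  have hyrat : IsRat p (cl p x P0' + cl p P0' Pinf') := fun σ => by
    rw [smul_add, hxrat σ, hC.rat σ]
  have h3ℓ₁ : 3 ≤ ℓ₁ := by
    have := hℓ₁.two_le
    omega
  have h3ℓ₂ : 3 ≤ ℓ₂ := by
    have := hℓ₂.two_le
    omega
  -- injectivity on the p'-part of ⟨c0⟩
  have hinj : ∀ m : ℤ, (redAt p A₁).Φ (m • cl p P0' Pinf') = 0 → (p' : ℤ) ∣ m := by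
    intro m hm
    obtain ⟨q, hq⟩ := hp'dvd
    have hqpos : q ≠ 0 := by
      rintro rfl
      rw [mul_zero] at hq
      have := hfo.addOrderOf_pos
      omega
    set z := (m * (q : ℤ)) • cl p P0' Pinf' with hz
    have hzΦ : (redAt p A₁).Φ z = 0 := by
      rw [hz, mul_comm, mul_zsmul, map_zsmul, hm, smul_zero]
    have hzrat : IsRat p z := fun σ => by
      rw [hz, gal_zsmul, hC.rat σ]
    have hzp' : p' • z = 0 := by
      rw [hz, ← natCast_zsmul, ← mul_zsmul,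
        show (p' : ℤ) * (m * (q : ℤ)) = m * ((n0 : ℕ) : ℤ) by rw [hq]; push_cast; ring,
        mul_zsmul, natCast_zsmul, hn0, addOrderOf_nsmul_eq_zero, smul_zero]
    have hz0 : z = 0 := by
      by_cases hpl : p' = ℓ₁
      · exact hRl.rig h3ℓ₁ z hzrat (by rw [← hpl]; exact hzp') hzΦ
      · refine hRl.tors p' z (fun hd => hpl ?_) hzp' hzΦ
        exact ((Nat.prime_dvd_prime_iff_eq hℓ₁ hp'prime).mp hd).symm
    rw [hz] at hz0
    have hdvd : ((n0 : ℕ) : ℤ) ∣ m * (q : ℤ) := (addOrderOf_dvd_iff_zsmul_eq_zero).mpr hz0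
    rw [hq] at hdvd
    push_cast at hdvd
    have hq' : (q : ℤ) ≠ 0 := by exact_mod_cast hqpos
    exact (mul_dvd_mul_iff_right hq').mp hdvd
  -- apply the abstract deduction
  refine Fermat.Agent.M15.Core0.core' (ratSubgroup p) ((redAt p A₂).Φ) ((redAt p A₁).Φ)
    (cl p P0' Pinf') (cl p x P0') p' hp'prime hR1.fin hRl.fin hy1 hyl
    (fun z hz hn hΦ => Fermat.Agent.M15.Wire0.inj_on_rat_torsion p hR1 h3ℓ₂ z hz hn hΦ)
    hinj ?_
  intro k
  obtain ⟨s, hs, m, hsc, hm, t, w, ht, htt, hw, hsy⟩ := hSD' k (cl p x P0') hxrat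
  refine ⟨s.toAddMonoidHom, ?_, ?_, m, hsc, hm, t, w, ht, htt, hw, hsy⟩
  · intro h0
    exact (Fermat.Agent.M15.Wire9.stable_of_mem_heckeRing p hR1 hGal hs _ hxrat h0).2
  · intro h0
    exact (Fermat.Agent.M15.Wire9.stable_of_mem_heckeRing p hRl hGal hs _ hyrat h0).2

end Fermat.Agent.M12.TheoremM4
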