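/-
M12 (helper9): **THE ASSEMBLY of programme M12** - statement S12 from the leaves of
`M12/Contracts4` (conditional theorem `s12_of_leaves`), on top of the landed glue:
`GenExtra4.exists_generator'` (generator `Q` of the cofixed line on the integral Frey model),
`FreyTors4`/`FreyVal4` (the rational `2`-torsion `x = 0, A/4, -B/4`), `VeluCocycle4.velu_cocycle`
(`C F(C) = A F(A) + B F(B)`), `ToricAll4.toric_all` (toric at every odd bad prime `≠ p`),
`RatVal1.eq_two_pow_mul_prime_pow` and the endgame inequality `Arith4.no_second_relation`.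

Pairs (labels of `FreyTors4`: `x(T 0) = 0`, `x(T 1) = A/4`, `x(T 2) = -B/4`):
`F(0,1)` (difference `-A/4`), `F(2,1)` (difference `-C/4`), `F(0,2)` (difference `B/4`);
`F(0,1)`, `F(2,1)` are `2`-adic units (`LeafNotMem` with `k = 1`).
Imported by no statement.
-/
import Fermat.Agent.M12.Contracts4
import Fermat.Agent.M12.FreyVal4
import Fermat.Agent.M12.ToricAll4
import Fermat.Agent.M12.GenExtra4
import Fermat.Agent.M12.VeluCocycle4
import Fermat.Agent.M12.Arith4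
import Fermat.Agent.M12.RatVal1
import Fermat.Agent.S05.Inertia
import Fermat.Agent.S13.UnramBridge

set_option autoImplicit false
set_option linter.unusedVariables false
set_option linter.unusedSectionVars false

open WeierstrassCurve WeierstrassCurve.Affine WeierstrassCurve.Affine.Point

namespace Fermat.Agent.M12.Wire9

open Fermat.Agent.M12.Defs4 Fermat.Agent.S05.Inertia

/-- helper1's `RatVal1.eq_two_pow_mul_prime_pow`, literal. -/
def LeafRatVal : Prop :=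
  ∀ {p : ℕ} (_ : p.Prime) (q : ℚ) (_ : 0 < q)
    (_ : ∀ ℓ : ℕ, ℓ.Prime → ℓ ≠ 2 → ℓ ≠ p →
      ∃ A : ValuationSubring Qb, A.LiesOverPrime ℓ ∧ A.valuation (algebraMap ℚ Qb q) = 1),
    ∃ s t : ℤ, q = (2 : ℚ) ^ s * (p : ℚ) ^ t

section Endgame

/-- valuation of `2^s p^t` at a place over `p`. -/
theorem val_two_pow_mul_at_p {p : ℕ} (A : ValuationSubring Qb) (hA : A.LiesOverPrime p) (hp : p.Prime)
    (hp2 : p ≠ 2) (s t : ℤ) :
    A.valuation (algebraMap ℚ Qb ((2 : ℚ) ^ s * (p : ℚ) ^ t)) = A.valuation (p : Qb) ^ t := by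
  rw [map_mul, map_zpow₀, map_zpow₀, map_mul, map_zpow₀, map_zpow₀, map_ofNat, map_natCast,
    valuation_two_eq_one hp hA hp2, one_zpow, one_mul]

/-- valuation of `2^s p^t` at a place over `2`. -/
theorem val_two_pow_mul_at_two {p : ℕ} (A : ValuationSubring Qb) (hA : A.LiesOverPrime 2) (hp : p.Prime)
    (hp2 : p ≠ 2) (s t : ℤ) :
    A.valuation (algebraMap ℚ Qb ((2 : ℚ) ^ s * (p : ℚ) ^ t)) = A.valuation (2 : Qb) ^ s := by
  rw [map_mul, map_zpow₀, map_zpow₀, map_mul, map_zpow₀, map_zpow₀, map_ofNat, map_natCast,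
    valuation_prime_eq_one Nat.prime_two hA hp (Ne.symm hp2), one_zpow, mul_one]

theorem val_prime_pos_ne_one {ℓ : ℕ} (hℓ : ℓ.Prime) (A : ValuationSubring Qb)
    (hA : A.LiesOverPrime ℓ) : 0 < A.valuation (ℓ : Qb) ∧ A.valuation (ℓ : Qb) ≠ 1 := by
  refine ⟨?_, (valuation_prime_lt_one hA).ne⟩
  rw [zero_lt_iff, Valuation.ne_zero_iff]
  exact_mod_cast hℓ.ne_zero

/-- `algebraMap` of the normalised ratio. -/
theorem algebraMap_ratio (q : ℚ) (n : ℤ) (m : ℕ) :
    algebraMap ℚ Qb (q / (n : ℚ) ^ m) = algebraMap ℚ Qb q / ((n : ℤ) : Qb) ^ m := by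
  rw [map_div₀, map_pow, map_intCast]

/-- if `v(q) Θ = v(n)^m` then `v(q / n^m) Θ = 1`. -/
theorem val_ratio_mul (V : ValuationSubring Qb) (q : ℚ) {n : ℤ} (hn : n ≠ 0) (m : ℕ)
    (Θ : V.ValueGroup)
    (h : V.valuation (algebraMap ℚ Qb q) * Θ = V.valuation ((n : ℤ) : Qb) ^ m) :
    V.valuation (algebraMap ℚ Qb (q / (n : ℚ) ^ m)) * Θ = 1 := by
  have hn' : V.valuation ((n : ℤ) : Qb) ^ m ≠ 0 := by
    apply pow_ne_zero
    rw [Valuation.ne_zero_iff]
    exact_mod_cast hn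
  rw [algebraMap_ratio, map_div₀, map_pow, div_mul_eq_mul_div, h, div_self hn']

/-- **The arithmetic endgame of M12**, in valuation form. -/
theorem endgame (hRV : LeafRatVal) {p : ℕ} (hp : p.Prime) (hp3 : 3 ≤ p)
    {A B C : ℤ} (hABC : A + B = C) (hA : Odd A) (hC : Odd C) (hB4 : (4 : ℤ) ∣ B) (hB0 : B ≠ 0)
    {q10 q20 q12 : ℚ} (h10 : 0 < q10) (h20 : 0 < q20) (h12 : 0 < q12)
    (hcoc : (C : ℚ) * q20 = A * q10 + B * q12)
    (hodd : ∀ ℓ : ℕ, ℓ.Prime → ℓ ≠ 2 → ℓ ≠ p → ∃ V : ValuationSubring Qb, V.LiesOverPrime ℓ ∧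
      V.valuation (algebraMap ℚ Qb q10) = V.valuation ((A : ℤ) : Qb) ^ (p - 1) ∧
      V.valuation (algebraMap ℚ Qb q20) = V.valuation ((C : ℤ) : Qb) ^ (p - 1) ∧
      V.valuation (algebraMap ℚ Qb q12) = V.valuation ((B : ℤ) : Qb) ^ (p - 1))
    (hatp : ∃ V : ValuationSubring Qb, V.LiesOverPrime p ∧ ∃ Θ : V.ValueGroup,
      V.valuation (algebraMap ℚ Qb q10) * Θ = V.valuation ((A : ℤ) : Qb) ^ (p - 1) ∧
      V.valuation (algebraMap ℚ Qb q20) * Θ = V.valuation ((C : ℤ) : Qb) ^ (p - 1) ∧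
      V.valuation (algebraMap ℚ Qb q12) * Θ = V.valuation ((B : ℤ) : Qb) ^ (p - 1))
    (hat2 : ∃ V : ValuationSubring Qb, V.LiesOverPrime 2 ∧
      V.valuation (algebraMap ℚ Qb q10) = 1 ∧ V.valuation (algebraMap ℚ Qb q20) = 1) : False := by
  have hp2 : p ≠ 2 := by omega
  have hpodd : Odd p := hp.odd_of_ne_two hp2
  have hev : Even (p - 1) := hp.even_sub_one hp2
  have hA0 : A ≠ 0 := by rintro rfl; exact absurd hA (by decide)
  have hC0 : C ≠ 0 := by rintro rfl; exact absurd hC (by decide)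
  have hAq : (A : ℚ) ≠ 0 := by exact_mod_cast hA0
  have hBq : (B : ℚ) ≠ 0 := by exact_mod_cast hB0
  have hCq : (C : ℚ) ≠ 0 := by exact_mod_cast hC0
  -- the normalised ratios
  have pos10 : 0 < q10 / (A : ℚ) ^ (p - 1) := div_pos h10 (hev.pow_pos hAq)
  have pos20 : 0 < q20 / (C : ℚ) ^ (p - 1) := div_pos h20 (hev.pow_pos hCq)
  have pos12 : 0 < q12 / (B : ℚ) ^ (p - 1) := div_pos h12 (hev.pow_pos hBq)
  obtain ⟨s10, t10, e10⟩ := hRV hp _ pos10 (by
    intro ℓ hℓ hℓ2 hℓp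
    obtain ⟨V, hV, g10, -, -⟩ := hodd ℓ hℓ hℓ2 hℓp
    refine ⟨V, hV, ?_⟩
    have := val_ratio_mul V q10 hA0 (p - 1) 1 (by rw [mul_one]; exact g10)
    rwa [mul_one] at this)
  obtain ⟨s20, t20, e20⟩ := hRV hp _ pos20 (by
    intro ℓ hℓ hℓ2 hℓp
    obtain ⟨V, hV, -, g20, -⟩ := hodd ℓ hℓ hℓ2 hℓp
    refine ⟨V, hV, ?_⟩
    have := val_ratio_mul V q20 hC0 (p - 1) 1 (by rw [mul_one]; exact g20)
    rwa [mul_one] at this)
  obtain ⟨s12, t12, e12⟩ := hRV hp _ pos12 (by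
    intro ℓ hℓ hℓ2 hℓp
    obtain ⟨V, hV, -, -, g12⟩ := hodd ℓ hℓ hℓ2 hℓp
    refine ⟨V, hV, ?_⟩
    have := val_ratio_mul V q12 hB0 (p - 1) 1 (by rw [mul_one]; exact g12)
    rwa [mul_one] at this)
  -- the exponents of `p` agree
  have ht : t10 = t20 ∧ t12 = t20 := by
    obtain ⟨V, hV, Θ, g10, g20, g12⟩ := hatp
    have k10 := val_ratio_mul V q10 hA0 (p - 1) Θ g10
    have k20 := val_ratio_mul V q20 hC0 (p - 1) Θ g20
    have k12 := val_ratio_mul V q12 hB0 (p - 1) Θ g12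
    rw [e10, val_two_pow_mul_at_p V hV hp hp2] at k10
    rw [e20, val_two_pow_mul_at_p V hV hp hp2] at k20
    rw [e12, val_two_pow_mul_at_p V hV hp hp2] at k12
    have hΘ : Θ ≠ 0 := by
      rintro rfl
      rw [mul_zero] at k10
      exact zero_ne_one k10
    obtain ⟨hpos, hne⟩ := val_prime_pos_ne_one hp V hV
    constructor
    · exact (zpow_right_inj₀ hpos hne).mp (mul_right_cancel₀ hΘ (k10.trans k20.symm))
    · exact (zpow_right_inj₀ hpos hne).mp (mul_right_cancel₀ hΘ (k12.trans k20.symm))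
  -- the exponents of `2` in the first two vanish
  have hs : s10 = 0 ∧ s20 = 0 := by
    obtain ⟨V, hV, f10, f20⟩ := hat2
    have hA1 : V.valuation ((A : ℤ) : Qb) = 1 :=
      valuation_intCast_eq_one Nat.prime_two hV (by
        intro h
        exact (Int.not_even_iff_odd.mpr hA) (even_iff_two_dvd.mpr (by exact_mod_cast h)))
    have hC1 : V.valuation ((C : ℤ) : Qb) = 1 :=
      valuation_intCast_eq_one Nat.prime_two hV (by
        intro h
        exact (Int.not_even_iff_odd.mpr hC) (even_iff_two_dvd.mpr (by exact_mod_cast h)))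
    have k10 := val_ratio_mul V q10 hA0 (p - 1) 1 (by rw [mul_one, f10, hA1, one_pow])
    have k20 := val_ratio_mul V q20 hC0 (p - 1) 1 (by rw [mul_one, f20, hC1, one_pow])
    rw [mul_one, e10, val_two_pow_mul_at_two V hV hp hp2] at k10
    rw [mul_one, e20, val_two_pow_mul_at_two V hV hp hp2] at k20
    obtain ⟨hpos, hne⟩ := val_prime_pos_ne_one Nat.prime_two V hV
    have hpos' : 0 < V.valuation (2 : Qb) := by simpa using hpos
    have hne' : V.valuation (2 : Qb) ≠ 1 := by simpa using hne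
    exact ⟨(zpow_eq_one_iff_right₀ hpos'.le hne').mp k10, (zpow_eq_one_iff_right₀ hpos'.le hne').mp k20⟩
  obtain ⟨ht1, ht2⟩ := ht
  obtain ⟨hs1, hs2⟩ := hs
  rw [ht1, hs1] at e10
  rw [hs2] at e20
  rw [ht2] at e12
  -- solve for the `q`'s
  have hP : ((p : ℚ)) ^ t20 ≠ 0 := zpow_ne_zero _ (by exact_mod_cast hp.ne_zero)
  have E10 : q10 = (p : ℚ) ^ t20 * (A : ℚ) ^ (p - 1) := by
    have := e10
    rw [div_eq_iff (pow_ne_zero _ hAq), zpow_zero, one_mul] at this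
    exact this
  have E20 : q20 = (p : ℚ) ^ t20 * (C : ℚ) ^ (p - 1) := by
    have := e20
    rw [div_eq_iff (pow_ne_zero _ hCq), zpow_zero, one_mul] at this
    exact this
  have E12 : q12 = (2 : ℚ) ^ s12 * (p : ℚ) ^ t20 * (B : ℚ) ^ (p - 1) := by
    have := e12
    rw [div_eq_iff (pow_ne_zero _ hBq)] at this
    exact this
  have hp1 : p - 1 + 1 = p := by omega
  have hpow : ∀ x : ℚ, x * x ^ (p - 1) = x ^ p := by
    intro x
    rw [← pow_succ', hp1]
  refine Arith4.no_second_relation hpodd hp3 hABC hA hC hB4 hB0 s12 ?_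
  rw [E10, E20, E12] at hcoc
  have h1 : (p : ℚ) ^ t20 * ((C : ℚ) * (C : ℚ) ^ (p - 1)) =
      (p : ℚ) ^ t20 * ((A : ℚ) * (A : ℚ) ^ (p - 1) + (2 : ℚ) ^ s12 * ((B : ℚ) * (B : ℚ) ^ (p - 1))) := by
    linear_combination hcoc
  have h2 := mul_left_cancel₀ hP h1
  rw [hpow, hpow, hpow] at h2
  linear_combination h2

end Endgame

section Assembly

open Fermat.Agent.M12.Contracts4 Fermat.Agent.M12.FreyTors4 Fermat.Agent.M12.FreyVal4
open Fermat.Agent.M15.DictDefs8

/-- `RatVal1.eq_two_pow_mul_prime_pow` is the contract `LeafRatVal`. -/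
theorem leafRatVal : LeafRatVal := fun hp q hq h =>
  Fermat.Agent.M12.RatVal1.eq_two_pow_mul_prime_pow hp q hq h

/-- at a place where `2` is a unit, `v(± n/4) = v(n)`. -/
theorem val_quarter (V : ValuationSubring Qb) (h2 : V.valuation (2 : Qb) = 1) (n : ℤ) :
    V.valuation (algebraMap ℚ Qb ((n : ℚ) / 4)) = V.valuation ((n : ℤ) : Qb) := by
  have h4 : V.valuation (4 : Qb) = 1 := by
    have : (4 : Qb) = 2 * 2 := by norm_num
    rw [this, map_mul, h2, one_mul]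
  rw [map_div₀, map_intCast, map_ofNat, map_div₀, h4, div_one]

theorem val_neg_quarter (V : ValuationSubring Qb) (h2 : V.valuation (2 : Qb) = 1) (n : ℤ) :
    V.valuation (algebraMap ℚ Qb (-(n : ℚ) / 4)) = V.valuation ((n : ℤ) : Qb) := by
  rw [neg_div, map_neg, Valuation.map_neg]
  exact val_quarter V h2 n

/-- **S12 from the leaves of M12.** -/
theorem s12_of_leaves (hRat : LeafRatPos) (hTor : LeafToric) (hGood : LeafGood)
    (hKer : LeafKernel) (hCK : LeafCofixedKernel) (hNM : LeafNotMem)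
    (h3b : LeafThreeBad) (h3t : LeafThreeToric) (hM : LeafTheoremM)
    (P : FreyPackage) (hp : 17 ≤ P.p) :
    ¬ HasGaloisStableCofixedLine (K := AlgebraicClosure ℚ) ℚ P.freyCurve P.p := by
  intro h
  obtain ⟨Q, hQ, hst, hcof, hR0⟩ := Fermat.Agent.M12.GenExtra4.exists_generator' P h
  have hT := isRatTwoTors_T P
  have hp2 : P.p ≠ 2 := p_ne_two P
  have hΔ : P.freyCurveInt.Δ ≠ 0 := Δ_ne_zero P
  -- the three factors are positive rational numbers
  obtain ⟨qA, hqA, eA⟩ := hRat P.pp hp2 P.freyCurveInt hΔ Q hQ hst (T P) hT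
    (i := 0) (k := 1) (by decide)
  obtain ⟨qC, hqC, eC⟩ := hRat P.pp hp2 P.freyCurveInt hΔ Q hQ hst (T P) hT
    (i := 2) (k := 1) (by decide)
  obtain ⟨qB, hqB, eB⟩ := hRat P.pp hp2 P.freyCurveInt hΔ Q hQ hst (T P) hT
    (i := 0) (k := 2) (by decide)
  -- the cocycle identity, in `ℚ`
  have hNZ : NeZero P.p := ⟨P.hp0⟩
  have hΔq : (P.freyCurveInt.map (Int.castRingHom ℚ)).Δ ≠ 0 := by
    rw [WeierstrassCurve.map_Δ]
    simpa using hΔ
  have hcoc := Fermat.Agent.M12.VeluCocycle4.velu_cocycle P.pp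
    (P.freyCurveInt.map (Int.castRingHom ℚ)) hΔq P.hp_odd Q hQ (T P) hT.1
    (i := 0) (j := 2) (k := 1) (by decide) (by decide) (by decide)
  rw [xOf_sub_zero_two, xOf_sub_two_one, xOf_sub_zero_one, eB, eC, eA] at hcoc
  have hcocQ : ((P.c ^ P.p : ℤ) : ℚ) * qC =
      ((P.a ^ P.p : ℤ) : ℚ) * qA + ((P.b ^ P.p : ℤ) : ℚ) * qB := by
    have h1 : algebraMap ℚ Qb (((P.b ^ P.p : ℤ) : ℚ) / 4 * qB +
        -((P.c ^ P.p : ℤ) : ℚ) / 4 * qC) = algebraMap ℚ Qb (-((P.a ^ P.p : ℤ) : ℚ) / 4 * qA) := by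
      rw [map_add, map_mul, map_mul, map_mul]
      exact hcoc
    have h2 := (algebraMap ℚ Qb).injective h1
    linear_combination (-4 : ℚ) * h2
  -- the local statement at all pairs, at a place where the factor has the valuation of the
  -- difference to the power `p - 1` (up to a common factor `Θ`)
  have hfin : ∀ (V : ValuationSubring Qb) (Θ : V.ValueGroup), V.valuation (2 : Qb) = 1 →
      (∀ {i k : Fin 3}, i ≠ k → V.valuation (veluFactor (T P) Q P.p i k) * Θ =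
        V.valuation (xOf (T P i) - xOf (T P k)) ^ (P.p - 1)) →
      V.valuation (algebraMap ℚ Qb qA) * Θ = V.valuation ((P.a ^ P.p : ℤ) : Qb) ^ (P.p - 1) ∧
      V.valuation (algebraMap ℚ Qb qC) * Θ = V.valuation ((P.c ^ P.p : ℤ) : Qb) ^ (P.p - 1) ∧
      V.valuation (algebraMap ℚ Qb qB) * Θ = V.valuation ((P.b ^ P.p : ℤ) : Qb) ^ (P.p - 1) := by
    intro V Θ h2 key
    refine ⟨?_, ?_, ?_⟩
    · have := key (i := 0) (k := 1) (by decide)
      rwa [eA, xOf_sub_zero_one, val_neg_quarter V h2] at this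
    · have := key (i := 2) (k := 1) (by decide)
      rwa [eC, xOf_sub_two_one, val_neg_quarter V h2] at this
    · have := key (i := 0) (k := 2) (by decide)
      rwa [eB, xOf_sub_zero_two, val_quarter V h2] at this
  refine endgame leafRatVal P.pp (three_le_p P) P.hFLT (odd_a_pow P) (odd_c_pow P)
    (four_dvd_b_pow' P) (b_pow_ne_zero P) hqA hqC hqB hcocQ ?_ ?_ ?_
  · -- odd `ℓ ≠ p`
    intro ℓ hℓ hℓ2 hℓp
    obtain ⟨V, hV⟩ := Fermat.Agent.S13.UnramBridge.exists_liesOverPrime_qbar ℓ hℓ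
    refine ⟨V, hV, ?_⟩
    have h2 : V.valuation (2 : Qb) = 1 := valuation_two_eq_one hℓ hV hℓ2
    have := hfin V 1 h2 (by
      intro i k hik
      rw [mul_one]
      by_cases hΔℓ : (ℓ : ℤ) ∣ P.freyCurveInt.Δ
      · have hz := Fermat.Agent.M12.ToricAll4.toric_all hM h3b h3t P hp Q hQ hst hcof hR0
          hℓ hℓ2 hℓp hΔℓ V hV
        exact hTor hℓ hℓ2 P.pp hp2 hℓp P.freyCurveInt hΔ hΔℓ (not_dvd_c₄ P hℓ hΔℓ) V hV
          (T P) hT.1 Q hQ hz hik
      · obtain ⟨h1, h3⟩ := hGood hℓ hℓ2 P.pp hp2 hℓp P.freyCurveInt hΔ hΔℓ V hV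
          (T P) hT.1 Q hQ hik
        rw [h1, h3, one_pow])
    simpa only [mul_one] using this
  · -- `ℓ = p`
    obtain ⟨V, hV⟩ := Fermat.Agent.S13.UnramBridge.exists_liesOverPrime_qbar P.p P.pp
    refine ⟨V, hV, ∏ r ∈ Finset.Icc 1 (P.p - 1), V.valuation (xOf (r • Q)), ?_⟩
    have h2 : V.valuation (2 : Qb) = 1 := valuation_two_eq_one P.pp hV hp2
    exact hfin V _ h2 (fun {i k} hik =>
      hKer P.pp hp2 P.pp hp2 P.freyCurveInt hΔ V hV (T P) hT.1 Q hQ
        (hCK P Q hQ hst hcof V hV) hik)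
  · -- `ℓ = 2`
    obtain ⟨V, hV⟩ := Fermat.Agent.S13.UnramBridge.exists_liesOverPrime_qbar 2 Nat.prime_two
    refine ⟨V, hV, ?_, ?_⟩
    · rw [← eA]
      exact hNM Nat.prime_two P.pp hp2 (Ne.symm hp2) P.freyCurveInt hΔ V hV (T P) hT.1 Q hQ
        (i := 0) (k := 1) (by decide) (xOf_T_one_notMem P hV) (xOf_T_zero_mem P)
    · rw [← eC]
      exact hNM Nat.prime_two P.pp hp2 (Ne.symm hp2) P.freyCurveInt hΔ V hV (T P) hT.1 Q hQ
        (i := 2) (k := 1) (by decide) (xOf_T_one_notMem P hV) (xOf_T_two_mem P)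

end Assembly

end Fermat.Agent.M12.Wire9
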